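import Mathlib.RingTheory.Valuation.ValuationSubring
import Mathlib.RingTheory.Adjoin.Basic
import Mathlib.RingTheory.Ideal.Maximal
import Mathlib.Algebra.Algebra.Pi

/-!
# A criterion for membership in an algebra of functions on a finite set

`mem_of_locally_mem`: a function lies in an algebra of functions on a finite set as soon as for
every point some member of the algebra, invertible there, multiplies it into the algebra.
Used in `CoordAdd`.
-/

set_option autoImplicit false

noncomputable section

namespace FLTAgent.FiniteFlat

variable {L : Type*} [Field L] (A : ValuationSubring L) {X : Type*}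

/-- A function lies in an algebra of integral functions on a finite set if near every point it
becomes a member after multiplication by a member with unit value there. -/
theorem mem_of_locally_mem [Finite X] (P : Subalgebra A (X → L)) {F : X → L}
    (h : ∀ p, ∃ u ∈ P, u p ≠ 0 ∧ (u p)⁻¹ ∈ A ∧ u * F ∈ P) : F ∈ P := by
  classical
  cases nonempty_fintype X
  by_contra hF
  let J : Ideal P :=
    { carrier := {w | (w : X → L) * F ∈ P}
      add_mem' := fun {a b} ha hb => by
        show ((a : X → L) + b) * F ∈ P
        rw [add_mul]
        exact P.add_mem ha hb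
      zero_mem' := by
        show (0 : X → L) * F ∈ P
        rw [zero_mul]
        exact P.zero_mem
      smul_mem' := fun c a ha => by
        show ((c : X → L) * a) * F ∈ P
        rw [mul_assoc]
        exact P.mul_mem c.2 ha }
  have hJ : J ≠ ⊤ := fun hJ => hF (by
    have h1 : (1 : P) ∈ J := hJ ▸ Submodule.mem_top
    have h2 : ((1 : P) : X → L) * F ∈ P := h1
    simpa using h2)
  obtain ⟨m, hm, hJm⟩ := Ideal.exists_le_maximal J hJ
  -- the maximal ideal contains the functions vanishing at some point
  obtain ⟨p, hp⟩ : ∃ p : X, ∀ z : P, (z : X → L) p = 0 → z ∈ m := by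
    by_contra hne
    push Not at hne
    choose z hz hzm using hne
    have h0 : ∏ p, z p = 0 := Subtype.ext (funext fun p => by
      rw [SubmonoidClass.coe_finsetProd, Finset.prod_apply]
      exact Finset.prod_eq_zero (Finset.mem_univ p) (hz p))
    obtain ⟨p, -, hp⟩ := (hm.isPrime.prod_mem_iff).mp (h0 ▸ m.zero_mem)
    exact hzm p hp
  obtain ⟨u, hu, hu0, hinv, huF⟩ := h p
  have hum : (⟨u, hu⟩ : P) ∈ m := hJm huF
  have hz : (1 - algebraMap A P ⟨(u p)⁻¹, hinv⟩ * ⟨u, hu⟩ : P) ∈ m := hp _ (by
    show (1 : L) - (u p)⁻¹ * u p = 0
    rw [inv_mul_cancel₀ hu0, sub_self])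
  have := m.add_mem hz (m.mul_mem_left (algebraMap A P ⟨(u p)⁻¹, hinv⟩) hum)
  rw [sub_add_cancel] at this
  exact hm.ne_top (m.eq_top_iff_one.mpr this)

end FLTAgent.FiniteFlat
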