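import Fermat.Agent.FiniteFlat.CoordProducts
import Fermat.Agent.FiniteFlat.CoordLocal
import Mathlib.LinearAlgebra.Matrix.Adjugate
import Mathlib.LinearAlgebra.Dimension.Finite

/-!
# The coordinates of a sum lie in the algebra of the coordinates of the summands

`φ_add_mem`: on any finite family of pairs of classes the coordinates of the sums belong to the
`A`-algebra `coordAlg` generated by the coordinates of the summands.  This is the addition
hypothesis of the descent theorem.
-/

set_option autoImplicit false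

noncomputable section

open AlgebraicCurve FLTAgent.FFBasic FLTAgent.Deuring FLTAgent.FFRiemannRoch

namespace FLTAgent.FiniteFlat

/-- Finitely many spanning vectors contain an invertible square selection. -/
lemma exists_selection {K : Type} [Field K] {J P : Type} [Fintype J] [DecidableEq J]
    (R : P → J → K) (hR : Submodule.span K (Set.range R) = ⊤) :
    ∃ sel : J → P, (Matrix.of fun q t => R (sel q) t).det ≠ 0 := by
  classical
  obtain ⟨s, hs, hspan, hli⟩ := exists_linearIndependent K (Set.range R)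
  rw [hR] at hspan
  let b : Module.Basis s K (J → K) := Module.Basis.mk hli (by rw [Subtype.range_coe, hspan])
  have : Fintype s := FiniteDimensional.fintypeBasisIndex b
  have hcard : Fintype.card J = Fintype.card s := by
    rw [← Module.finrank_eq_card_basis b, Module.finrank_fintype_fun_eq_card]
  let e : J ≃ s := Fintype.equivOfCardEq hcard
  choose sel hsel using fun q => hs (e q).2
  refine ⟨sel, IsUnit.ne_zero ((Matrix.isUnit_iff_isUnit_det _).mp
    (Matrix.linearIndependent_rows_iff_isUnit.mp ?_))⟩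
  show LinearIndependent K fun q => R (sel q)
  simp only [hsel]
  exact hli.comp e e.injective

variable {L k F Fb : Type} [Field L] [Field k] [Field F] [Field Fb]
  [Algebra L F] [Algebra k Fb] [IsAlgClosed L] [IsAlgClosed k]
  [IsFunctionField L F] [IsFunctionField k Fb]

namespace CoordSetup

variable {C : Reduction L k F Fb} {r : Place L F → Place k Fb} {M : Type}
variable (S : CoordSetup C r M)

/-- The algebra generated by the coordinates of both arguments. -/
def coordAlg {P : Type} (fa fb : P → M) : Subalgebra C.A (P → L) :=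
  Algebra.adjoin C.A (Set.range (fun (q : Fin S.n × S.U) (p : P) => S.φ q (fa p)) ∪
    Set.range (fun (q : Fin S.n × S.U) (p : P) => S.φ q (fb p)))

variable {P : Type} {fa fb fc : P → M}

lemma coordAlg_integral {w : P → L} (hw : w ∈ (S.coordAlg fa fb)) (p : P) : w p ∈ C.A := by
  induction hw using Algebra.adjoin_induction with
  | mem w hw =>
    rcases hw with ⟨q, rfl⟩ | ⟨q, rfl⟩ <;> exact (S.φ_isAUnit _ q).mem
  | algebraMap a => exact a.2
  | add u v _ _ hu hv => exact add_mem hu hv
  | mul u v _ _ hu hv => exact mul_mem hu hv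

lemma v_fst_mem (l : Fin S.n) (t : Fin S.n ⊕ S.U) :
    (fun p : P => S.v (fa p) l t) ∈ (S.coordAlg fa fb) := by
  cases t with
  | inl l' =>
    simp only [v, Sum.elim_inl]
    split_ifs
    · exact one_mem _
    · exact zero_mem _
  | inr u => exact Algebra.subset_adjoin (Or.inl ⟨(l, u), rfl⟩)

lemma v_snd_mem (l : Fin S.n) (t : Fin S.n ⊕ S.U) :
    (fun p : P => S.v (fb p) l t) ∈ (S.coordAlg fa fb) := by
  cases t with
  | inl l' =>
    simp only [v, Sum.elim_inl]
    split_ifs
    · exact one_mem _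
    · exact zero_mem _
  | inr u => exact Algebra.subset_adjoin (Or.inr ⟨(l, u), rfl⟩)

/-- A product of two rows, as a function of both arguments. -/
def rowProd (i j : Fin S.n) (t : Fin S.n ⊕ S.U) : (S.coordAlg fa fb) :=
  ⟨fun p => S.v (fa p) i t * S.v (fb p) j t, (S.coordAlg fa fb).mul_mem (S.v_fst_mem i t)
    (S.v_snd_mem j t)⟩

/-- Values at a pair. -/
def evalAt (p : P) : (S.coordAlg fa fb) →+* C.A where
  toFun w := ⟨(w : P → L) p, S.coordAlg_integral w.2 p⟩
  map_one' := rfl
  map_mul' _ _ := rfl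
  map_zero' := rfl
  map_add' _ _ := rfl

/-- Closure under addition. -/
theorem φ_add_mem [Finite P] (hc : ∀ p, S.IsSum (fa p) (fb p) (fc p))
    (q : Fin S.n × S.U) :
    (fun p : P => S.φ q (fc p)) ∈ (S.coordAlg fa fb) := by
  classical
  obtain ⟨l, u⟩ := q
  obtain ⟨b, hu⟩ : ∃ b, u ∉ S.S b := by
    by_cases h : u ∈ S.S false
    · exact ⟨true, Finset.disjoint_left.mp S.S_disjoint h⟩
    · exact ⟨false, h⟩
  refine mem_of_locally_mem C.A (S.coordAlg fa fb) fun p₀ => ?_
  obtain ⟨sel, hsel⟩ := exists_selection (P := Fin S.n × Fin S.n) _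
    (S.span_vbar_eq_top b (fa p₀) (fb p₀) (fc p₀) (hc p₀))
  let B : Matrix (S.J b) (S.J b) (S.coordAlg fa fb) :=
    Matrix.of fun q t => S.rowProd (sel q).1 (sel q).2 (S.jt b t)
  let w : Fin S.n → S.U → (S.coordAlg fa fb) := fun l' u' =>
    ∑ q, B.adjugate (Sum.inl l') q * S.rowProd (sel q).1 (sel q).2 (Sum.inr u')
  -- the shape of `w` at every pair
  have key : ∀ p : P, ∃ γ : Fin S.n ⊕ S.U → L, (∀ t, S.Free b t → IsAUnit C (γ t)) ∧
      ∀ l' u', u' ∉ S.S b → (w l' u' : P → L) p =
        (S.evalAt p B.det : L) * γ (Sum.inr u') / γ (Sum.inl l') * S.a (fc p) l' u' := by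
    intro p
    obtain ⟨γ, hγ, hcomb⟩ := S.combination_eq b (fa p) (fb p) (fc p) (hc p)
    refine ⟨γ, hγ, fun l' u' hu' => ?_⟩
    have hadj : ∀ t, ∑ q, (S.evalAt p (B.adjugate (Sum.inl l') q) : L) *
        (S.v (fa p) (sel q).1 (S.jt b t) * S.v (fb p) (sel q).2 (S.jt b t)) =
        if Sum.inl l' = t then (S.evalAt p B.det : L) else 0 := by
      intro t
      have h1 := congrArg (fun Q : Matrix (S.J b) (S.J b) (S.coordAlg fa fb) =>
        ((S.evalAt p (Q (Sum.inl l') t) : C.A) : L)) (Matrix.adjugate_mul B)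
      simp only [Matrix.mul_apply, Matrix.smul_apply, Matrix.one_apply, smul_eq_mul, mul_ite,
        mul_one, mul_zero, apply_ite (fun z => ((S.evalAt p z : C.A) : L)), map_sum, map_mul,
        map_zero, ZeroMemClass.coe_zero] at h1
      push_cast at h1
      exact h1
    have h2 := hcomb sel (fun q => (S.evalAt p (B.adjugate (Sum.inl l') q) : L))
      (S.evalAt p B.det : L) l' (fun l'' => by
        refine (hadj (Sum.inl l'')).trans ?_
        simp only [Sum.inl.injEq]) (fun s hs => by
        refine (hadj (Sum.inr ⟨s, hs⟩)).trans ?_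
        simp) u' hu'
    rw [← h2]
    show ((w l' u' : (S.coordAlg fa fb)) : P → L) p = _
    simp only [w, AddSubmonoidClass.coe_finsetSum, Finset.sum_apply]
    rfl
  refine ⟨(w l S.c * w S.i₀ u : (S.coordAlg fa fb)), SetLike.coe_mem _, ?_⟩
  -- unit at the chosen pair
  have hdet : IsAUnit C (S.evalAt p₀ B.det : L) := by
    refine ⟨S.evalAt p₀ B.det, rfl, ?_⟩
    rw [← RingHom.comp_apply, RingHom.map_det]
    convert hsel using 2
    ext q t
    simp only [RingHom.mapMatrix_apply, Matrix.map_apply, B, Matrix.of_apply, RingHom.comp_apply,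
      vbar, ← map_mul]
    rfl
  obtain ⟨γ₀, hγ₀, hw₀⟩ := key p₀
  have hunit : IsAUnit C (((w l S.c * w S.i₀ u : (S.coordAlg fa fb)) : P → L) p₀) := by
    show IsAUnit C ((w l S.c : P → L) p₀ * (w S.i₀ u : P → L) p₀)
    rw [hw₀ l S.c (S.c_notMem b), hw₀ S.i₀ u hu]
    exact (((hdet.mul (hγ₀ _ (S.free_inr b (S.c_notMem b)))).div (hγ₀ _ (S.free_inl b l))).mul
      (S.a_isAUnit _ _ _)).mul (((hdet.mul (hγ₀ _ (S.free_inr b hu))).div
        (hγ₀ _ (S.free_inl b S.i₀))).mul (S.a_isAUnit _ _ _))
  refine ⟨hunit.ne_zero, hunit.inv.mem, ?_⟩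
  have hid : ((w l S.c * w S.i₀ u : (S.coordAlg fa fb)) : P → L) *
      (fun p : P => S.φ (l, u) (fc p)) =
      ((w l u * w S.i₀ S.c : (S.coordAlg fa fb)) : P → L) := by
    funext p
    obtain ⟨γ, hγ, hw⟩ := key p
    show (w l S.c : P → L) p * (w S.i₀ u : P → L) p * S.φ (l, u) (fc p) =
      (w l u : P → L) p * (w S.i₀ S.c : P → L) p
    rw [hw l S.c (S.c_notMem b), hw S.i₀ u hu, hw l u hu, hw S.i₀ S.c (S.c_notMem b), φ]
    have h1 := (S.a_isAUnit (fc p) l S.c).ne_zero
    have h2 := (S.a_isAUnit (fc p) S.i₀ u).ne_zero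
    field_simp
  rw [hid]
  exact SetLike.coe_mem _

end CoordSetup

end FLTAgent.FiniteFlat
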