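import Fermat.Agent.FiniteFlat.Evaluation
import Fermat.Agent.FFRiemannRoch.LinearSystems
import Mathlib.LinearAlgebra.Matrix.NonsingularInverse

/-!
# Setup for coordinates on a finite subgroup of a degree-zero class group

For every class `x` a representative `D x`, an auxiliary divisor `D₀` of large degree, and marked
places `I ⊔ U` in general position (`CoordSetup`); the normalised evaluation bases `f` of
`L(D x + D₀)`, and from their values at `U` the coordinates `φ`, which are units of `A`.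
Continued in `CoordProducts`, `CoordAdd`, `CoordSep`.
-/

set_option autoImplicit false

noncomputable section

open AlgebraicCurve FLTAgent.FFBasic FLTAgent.Deuring FLTAgent.FFRiemannRoch

namespace FLTAgent.FiniteFlat

/-- Elements of the valuation ring with nonzero residue. -/
def IsAUnit {L k F Fb : Type*} [Field L] [Field k] [Field F] [Field Fb] [Algebra L F] [Algebra k Fb]
    (C : Reduction L k F Fb) (x : L) : Prop :=
  ∃ a : C.A, (a : L) = x ∧ C.π a ≠ 0

namespace IsAUnit

variable {L k F Fb : Type*} [Field L] [Field k] [Field F] [Field Fb] [Algebra L F] [Algebra k Fb]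
variable {C : Reduction L k F Fb} {x y : L}

lemma mem (hx : IsAUnit C x) : x ∈ C.A := by
  obtain ⟨a, rfl, -⟩ := hx; exact a.2

lemma ne_zero (hx : IsAUnit C x) : x ≠ 0 := by
  obtain ⟨a, rfl, h⟩ := hx
  intro h0
  exact h (by rw [show a = 0 from Subtype.ext h0, map_zero])

lemma mul (hx : IsAUnit C x) (hy : IsAUnit C y) : IsAUnit C (x * y) := by
  obtain ⟨a, rfl, ha⟩ := hx
  obtain ⟨b, rfl, hb⟩ := hy
  exact ⟨a * b, rfl, by rw [map_mul]; exact mul_ne_zero ha hb⟩

lemma one : IsAUnit C (1 : L) := ⟨1, rfl, by rw [map_one]; exact one_ne_zero⟩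

lemma inv (hx : IsAUnit C x) : IsAUnit C x⁻¹ := by
  obtain ⟨a, rfl, ha⟩ := hx
  obtain ⟨b, hb⟩ := isUnit_iff_exists_inv.mp (C.isUnit_of_π_ne_zero ha)
  refine ⟨b, ?_, right_ne_zero_of_mul (a := C.π a)
      (by rw [← map_mul, hb, map_one]; exact one_ne_zero)⟩
  exact eq_inv_of_mul_eq_one_right (congrArg Subtype.val hb)

lemma div (hx : IsAUnit C x) (hy : IsAUnit C y) : IsAUnit C (x / y) := by
  rw [div_eq_mul_inv]; exact hx.mul hy.inv

lemma isUnit_mk (hx : IsAUnit C x) : IsUnit (⟨x, hx.mem⟩ : C.A) := by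
  obtain ⟨a, rfl, ha⟩ := hx
  exact C.isUnit_of_π_ne_zero ha

end IsAUnit

variable {L k F Fb : Type} [Field L] [Field k] [Field F] [Field Fb]
  [Algebra L F] [Algebra k Fb] [IsAlgClosed L] [IsAlgClosed k]
  [IsFunctionField L F] [IsFunctionField k Fb]

/-- The data from which coordinates are built. -/
structure CoordSetup (C : Reduction L k F Fb) (r : Place L F → Place k Fb) (M : Type) where
  isReductionMap : C.IsReductionMap r
  genus_eq : genusFF L F = genusFF k Fb
  D : M → Divisor L F
  degree_D : ∀ x, Divisor.degree (D x) = 0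
  D₀ : Divisor L F
  m : ℕ
  degree_D₀ : Divisor.degree D₀ = m
  n : ℕ
  n_eq : (n : ℤ) = (m : ℤ) + 1 - genusFF L F
  rr_bound : rrBound L F < (m : ℤ)
  genus_bound : 4 * (genusFF L F : ℤ) + 1 ≤ (m : ℤ)
  genus_bound' : 4 * (genusFF k Fb : ℤ) + 1 ≤ (m : ℤ)
  U : Type
  [finU : Fintype U]
  [decU : DecidableEq U]
  pt : Fin n ⊕ U → Place L F
  pt_injective : Function.Injective (r ∘ pt)
  D_avoid : ∀ x t P, r P = r (pt t) → D x P = 0
  D₀_avoid : ∀ t P, r P = r (pt t) → D₀ P = 0
  minor : ∀ x, ell k Fb (Finsupp.mapDomain r (D x + D₀) -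
    ∑ l : Fin n, Finsupp.single (r (pt (Sum.inl l))) 1) = 0
  minor' : ∀ x i u, ell k Fb (Finsupp.mapDomain r (D x + D₀) -
    ∑ l : Fin n, Finsupp.single (r (pt (Sum.inl l))) 1 +
    Finsupp.single (r (pt (Sum.inl i))) 1 - Finsupp.single (r (pt (Sum.inr u))) 1) = 0
  card_large : 4 * m < n + Fintype.card U
  i₀ : Fin n
  c : U
  S : Bool → Finset U
  S_disjoint : Disjoint (S false) (S true)
  c_notMem : ∀ b, c ∉ S b
  h : Bool → F
  h_ne_zero : ∀ b, h b ≠ 0
  div_h : ∀ b, divOf (K := L) (h b) = (∑ u ∈ S b, Finsupp.single (pt (Sum.inr u)) 1) - D₀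

attribute [instance] CoordSetup.finU CoordSetup.decU

namespace CoordSetup

variable {C : Reduction L k F Fb} {r : Place L F → Place k Fb} {M : Type}
variable (S : CoordSetup C r M)

/-- The class of `z` is the sum of the classes of `x` and `y`. -/
def IsSum (x y z : M) : Prop := ∃ g : F, g ≠ 0 ∧ divOf (K := L) g = S.D x + S.D y - S.D z

/-- The divisor `D x + D₀`. -/
def E (x : M) : Divisor L F := S.D x + S.D₀

omit [IsAlgClosed L] [IsAlgClosed k] [IsFunctionField k Fb] in
lemma degree_E (x : M) : Divisor.degree (S.E x) = S.m := by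
  rw [E, map_add, S.degree_D, S.degree_D₀, zero_add]

omit [IsAlgClosed L] [IsAlgClosed k] [IsFunctionField k Fb] in
lemma E_apply_eq_zero (x : M) (t : Fin S.n ⊕ S.U) {P : Place L F} (hP : r P = r (S.pt t)) :
    S.E x P = 0 := by
  rw [E, Finsupp.add_apply, S.D_avoid x t P hP, S.D₀_avoid t P hP, add_zero]

omit [IsAlgClosed L] [IsAlgClosed k] [IsFunctionField k Fb] in
lemma rE_apply_eq_zero (x : M) (t : Fin S.n ⊕ S.U) :
    Finsupp.mapDomain r (S.E x) (r (S.pt t)) = 0 := by
  classical
  rw [Finsupp.mapDomain, Finsupp.sum_apply]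
  refine Finset.sum_eq_zero fun P _ => ?_
  simp only [Finsupp.single_apply]
  split_ifs with hP
  · exact S.E_apply_eq_zero x t hP
  · rfl

omit [IsAlgClosed L] in
lemma finrank_special (x : M) :
    Module.finrank k (riemannRochSpace (Finsupp.mapDomain r (S.E x))) = S.n := by
  have h1 := finrank_rr_of_genus_eq S.genus_eq (D := Finsupp.mapDomain r (S.E x))
    (by rw [degree_mapDomain S.isReductionMap.1, S.degree_E]; exact S.rr_bound)
  rw [degree_mapDomain S.isReductionMap.1, S.degree_E] at h1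
  have := S.n_eq
  omega

omit [IsAlgClosed k] [IsFunctionField k Fb] in
lemma finrank_generic (x : M) : Module.finrank L (riemannRochSpace (S.E x)) = S.n := by
  have h1 := finrank_rr (D := S.E x) (by rw [S.degree_E]; exact S.rr_bound)
  rw [S.degree_E] at h1
  have := S.n_eq
  omega

/-- Functions of `L(X)` vanishing at distinct places outside the support lie in a smaller space. -/
lemma eq_zero_of_forall_evalPt_eq_zero {K G : Type} [Field K] [Field G] [Algebra K G]
    [IsAlgClosed K] [IsFunctionField K G] {ι : Type} [Fintype ι] {pt : ι → Place K G}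
    (hinj : Function.Injective pt) {X : Divisor K G} (hX : ∀ i, X (pt i) = 0)
    (hell : ell K G (X - ∑ i, Finsupp.single (pt i) 1) = 0) {f : G}
    (hf : f ∈ riemannRochSpace X) (h0 : ∀ i, evalPt (pt i) f = 0) : f = 0 := by
  classical
  by_contra hne
  have hmem : f ∈ riemannRochSpace (X - ∑ i, Finsupp.single (pt i) 1) := by
    refine mem_riemannRochSpace_iff.mpr fun v => Or.inr ?_
    have hv := (mem_riemannRochSpace_iff.mp hf v).resolve_left hne
    rw [Finsupp.sub_apply, Finsupp.finsetSum_apply]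
    by_cases hvi : ∃ i, pt i = v
    · obtain ⟨i, rfl⟩ := hvi
      rw [Finset.sum_eq_single i
        (fun j _ hj => Finsupp.single_eq_of_ne fun e => hj (hinj e).symm)
        (fun hc => absurd (Finset.mem_univ i) hc), Finsupp.single_eq_same, hX]
      have h1 := (evalPt_eq_zero_iff _ (mem_of_mem_rr _ (hX i).le hf)).mp (h0 i)
      have h2 := le_ord_of_mem_filt h1 hne
      omega
    · rw [Finset.sum_eq_zero fun i _ => Finsupp.single_eq_of_ne fun e => hvi ⟨i, e.symm⟩, sub_zero]
      exact hv
  have := finiteDimensional_riemannRochSpace (X - ∑ i, Finsupp.single (pt i) 1)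
  rw [ell, Submodule.finrank_eq_zero] at hell
  rw [hell, Submodule.mem_bot] at hmem
  exact hne hmem

/-- The special places. -/
abbrev rpt (t : Fin S.n ⊕ S.U) : Place k Fb := r (S.pt t)

/-- Evaluation of the special Riemann–Roch space at the pivots. -/
def specialEval (x : M) :
    riemannRochSpace (Finsupp.mapDomain r (S.E x)) →ₗ[k] (Fin S.n → k) :=
  evalLin _ (fun l => S.rpt (Sum.inl l)) fun l => (S.rE_apply_eq_zero x (Sum.inl l)).le

omit [IsAlgClosed L] in
lemma specialEval_bijective (x : M) : Function.Bijective (S.specialEval x) := by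
  have := finiteDimensional_riemannRochSpace (Finsupp.mapDomain r (S.E x))
  have hinj : Function.Injective (S.specialEval x) := by
    rw [injective_iff_map_eq_zero]
    intro f hf
    exact Subtype.ext (eq_zero_of_forall_evalPt_eq_zero
      (pt := fun l => S.rpt (Sum.inl l))
      (fun a b hab => Sum.inl_injective (S.pt_injective hab))
      (fun l => S.rE_apply_eq_zero x (Sum.inl l)) (S.minor x) f.2 (fun l => congrFun hf l))
  exact ⟨hinj, (LinearMap.injective_iff_surjective_of_finrank_eq_finrank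
    (by rw [S.finrank_special, Module.finrank_fin_fun])).mp hinj⟩

lemma exists_normalised (x : M) (l : Fin S.n) :
    ∃ u : C.O, (u : F) ∈ riemannRochSpace (S.E x) ∧
      (∀ l', evalPt (S.rpt (Sum.inl l')) (C.res u) = if l = l' then 1 else 0) := by
  obtain ⟨w, hw⟩ := (S.specialEval_bijective x).2 (fun l' => if l = l' then 1 else 0)
  obtain ⟨u, hu, hres⟩ := Reduction.exists_lift S.isReductionMap S.genus_eq (S.E x)
    (by rw [S.degree_E]; exact S.rr_bound) w.2
  exact ⟨u, hu, fun l' => by rw [hres]; exact congrFun hw l'⟩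

lemma exists_basisO (x : M) :
    ∃ f : Fin S.n → C.O, ∀ l, (f l : F) ∈ riemannRochSpace (S.E x) ∧
      ∀ l', evalPt (S.pt (Sum.inl l')) (f l : F) = if l = l' then 1 else 0 := by
  classical
  choose u hu hures using fun l => S.exists_normalised x l
  choose a ha haπ _ using fun (l l' : Fin S.n) => evalPt_reduction_of_mem_rr S.isReductionMap (u l)
    (S.pt (Sum.inl l')) (hu l) fun P hP => (S.E_apply_eq_zero x (Sum.inl l') hP).le
  let N : Matrix (Fin S.n) (Fin S.n) C.A := Matrix.of a
  have hN : N.map C.π = 1 := by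
    ext l l'
    simp only [Matrix.map_apply, N, Matrix.of_apply, Matrix.one_apply]
    rw [haπ l l', hures l l']
  have hdet : IsUnit N.det := by
    refine C.isUnit_of_π_ne_zero ?_
    rw [RingHom.map_det, RingHom.mapMatrix_apply, hN, Matrix.det_one]
    exact one_ne_zero
  refine ⟨fun l => ∑ j, C.ι (N⁻¹ l j) * u j, fun l => ?_⟩
  have hval : ((∑ j, C.ι (N⁻¹ l j) * u j : C.O) : F) = ∑ j, (N⁻¹ l j : L) • (u j : F) := by
    push_cast
    simp only [Reduction.coe_ι, Algebra.smul_def]
  refine ⟨?_, fun l' => ?_⟩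
  · rw [hval]
    exact Submodule.sum_mem _ fun j _ => Submodule.smul_mem _ _ (hu j)
  · rw [hval]
    have hmem : ∀ j, (u j : F) ∈ (S.pt (Sum.inl l')).toValuationSubring := fun j =>
      mem_of_mem_rr _ (S.E_apply_eq_zero x (Sum.inl l') rfl).le (hu j)
    rw [evalPt_sum _ _ _ (fun j _ => by
      rw [Algebra.smul_def]; exact mul_mem ((S.pt (Sum.inl l')).algebraMap_mem' _) (hmem j))]
    simp only [evalPt_smul _ _ (hmem _), ← ha]
    have h1 := congrArg (fun Q : Matrix (Fin S.n) (Fin S.n) C.A => ((Q l l' : C.A) : L))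
      (Matrix.nonsing_inv_mul N hdet)
    simp only [Matrix.mul_apply, Matrix.one_apply, apply_ite (fun z : C.A => (z : L))] at h1
    push_cast at h1
    simpa [N] using h1

/-- The normalised basis in the integral ring. -/
def fO (x : M) : Fin S.n → C.O := (S.exists_basisO x).choose

/-- The normalised basis of `L(D x + D₀)`. -/
def f (x : M) (l : Fin S.n) : F := (S.fO x l : F)

lemma f_mem (x : M) (l : Fin S.n) : S.f x l ∈ riemannRochSpace (S.E x) :=
  ((S.exists_basisO x).choose_spec l).1

lemma f_mem_pt (x : M) (l : Fin S.n) (t : Fin S.n ⊕ S.U) :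
    S.f x l ∈ (S.pt t).toValuationSubring :=
  mem_of_mem_rr _ (S.E_apply_eq_zero x t rfl).le (S.f_mem x l)

lemma evalPt_f (x : M) (l l' : Fin S.n) :
    evalPt (S.pt (Sum.inl l')) (S.f x l) = if l = l' then 1 else 0 :=
  ((S.exists_basisO x).choose_spec l).2 l'

/-- The residue of a basis element. -/
def fbar (x : M) (l : Fin S.n) : Fb := C.res (S.fO x l)

lemma evalPt_f_residue (x : M) (l : Fin S.n) (t : Fin S.n ⊕ S.U) :
    ∃ a : C.A, (a : L) = evalPt (S.pt t) (S.f x l) ∧
      C.π a = evalPt (S.rpt t) (S.fbar x l) ∧ S.fbar x l ∈ (S.rpt t).toValuationSubring :=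
  evalPt_reduction_of_mem_rr S.isReductionMap (S.fO x l) (S.pt t) (S.f_mem x l)
    fun _ hP => (S.E_apply_eq_zero x t hP).le

lemma fbar_mem (x : M) (l : Fin S.n) :
    S.fbar x l ∈ riemannRochSpace (Finsupp.mapDomain r (S.E x)) :=
  Reduction.resSub_rr_le S.isReductionMap (S.E x) ⟨S.fO x l, S.f_mem x l, rfl⟩

lemma evalPt_fbar (x : M) (l l' : Fin S.n) :
    evalPt (S.rpt (Sum.inl l')) (S.fbar x l) = if l = l' then 1 else 0 := by
  obtain ⟨a, ha, hπ, -⟩ := S.evalPt_f_residue x l (Sum.inl l')
  rw [← hπ]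
  rw [S.evalPt_f] at ha
  split_ifs at ha ⊢
  · rw [show a = 1 from Subtype.ext ha, map_one]
  · rw [show a = 0 from Subtype.ext ha, map_zero]

/-- Evaluation at the pivots determines an element of `L(D x + D₀)`. -/
lemma eq_of_evalPt_eq (x : M) {g : F} (hg : g ∈ riemannRochSpace (S.E x)) :
    g = ∑ l, evalPt (S.pt (Sum.inl l)) g • S.f x l := by
  classical
  have := finiteDimensional_riemannRochSpace (S.E x)
  let T := evalLin (S.E x) (fun l => S.pt (Sum.inl l))
    fun l => (S.E_apply_eq_zero x (Sum.inl l) rfl).le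
  let b : Fin S.n → riemannRochSpace (S.E x) := fun l => ⟨S.f x l, S.f_mem x l⟩
  have hsum : ∀ (c : Fin S.n → L), T (∑ l, c l • b l) = c := by
    intro c
    funext l'
    rw [map_sum, Finset.sum_apply, Finset.sum_eq_single l']
    · simp [T, b, S.evalPt_f, evalPt_smul _ _ (S.f_mem_pt x _ _)]
    · intro l _ hl
      simp [T, b, S.evalPt_f, evalPt_smul _ _ (S.f_mem_pt x _ _), hl]
    · exact fun hc => absurd (Finset.mem_univ l') hc
  have hinj : Function.Injective T :=
    (LinearMap.injective_iff_surjective_of_finrank_eq_finrank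
      (by rw [S.finrank_generic, Module.finrank_fin_fun])).mpr fun c => ⟨_, hsum c⟩
  have := hinj (a₁ := ⟨g, hg⟩) (hsum _).symm
  simpa [b, T] using congrArg Subtype.val this

/-- The raw values. -/
def a (x : M) (l : Fin S.n) (u : S.U) : L := evalPt (S.pt (Sum.inr u)) (S.f x l)

lemma a_isAUnit (x : M) (l : Fin S.n) (u : S.U) : IsAUnit C (S.a x l u) := by
  classical
  obtain ⟨b, hb, hπ, -⟩ := S.evalPt_f_residue x l (Sum.inr u)
  refine ⟨b, hb, fun h0 => ?_⟩
  rw [hπ] at h0
  have hne : S.fbar x l ≠ 0 := fun hz => by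
    have := S.evalPt_fbar x l l
    rw [hz, evalPt_zero, if_pos rfl] at this
    exact zero_ne_one this
  refine hne (eq_zero_of_forall_evalPt_eq_zero
    (pt := fun t : Fin S.n => if t = l then S.rpt (Sum.inr u) else S.rpt (Sum.inl t)) ?_ ?_ ?_
    (S.fbar_mem x l) ?_)
  · intro p q hpq
    simp only at hpq
    split_ifs at hpq with hp hq
    · rw [hp, hq]
    · exact absurd (S.pt_injective hpq) (by simp)
    · exact absurd (S.pt_injective hpq) (by simp)
    · exact Sum.inl_injective (S.pt_injective hpq)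
  · intro i
    split_ifs <;> exact S.rE_apply_eq_zero x _
  · have hsum : (∑ i : Fin S.n,
        Finsupp.single (if i = l then S.rpt (Sum.inr u) else S.rpt (Sum.inl i)) (1 : ℤ)) =
        (∑ i : Fin S.n, Finsupp.single (S.rpt (Sum.inl i)) 1) -
          Finsupp.single (S.rpt (Sum.inl l)) 1 + Finsupp.single (S.rpt (Sum.inr u)) 1 := by
      rw [← Finset.add_sum_erase _ _ (Finset.mem_univ l), if_pos rfl,
        Finset.sum_congr rfl (g := fun i => Finsupp.single (S.rpt (Sum.inl i)) (1 : ℤ))
          fun i hi => by rw [if_neg (Finset.ne_of_mem_erase hi)],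
        ← Finset.add_sum_erase Finset.univ (fun i => Finsupp.single (S.rpt (Sum.inl i)) (1 : ℤ))
          (Finset.mem_univ l)]
      abel
    rw [hsum, ← S.minor' x l u]
    congr 1
    simp only [rpt, E]
    abel
  · intro i
    split_ifs with hi
    · exact h0
    · rw [S.evalPt_fbar, if_neg fun e => hi e.symm]

/-- Row scaling. -/
def lam (x : M) (l : Fin S.n) : L := S.a x S.i₀ S.c / S.a x l S.c

/-- Column scaling. -/
def tor (x : M) : Fin S.n ⊕ S.U → L :=
  Sum.elim (fun l => (S.lam x l)⁻¹) (fun u => (S.a x S.i₀ u)⁻¹)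

/-- The coordinates: torus invariant entries of the normalised evaluation matrix. -/
def φ (q : Fin S.n × S.U) (x : M) : L :=
  S.a x q.1 q.2 * S.a x S.i₀ S.c / (S.a x q.1 S.c * S.a x S.i₀ q.2)

/-- The normalised rows. -/
def v (x : M) (l : Fin S.n) : Fin S.n ⊕ S.U → L :=
  Sum.elim (fun l' => if l = l' then 1 else 0) (fun u => S.φ (l, u) x)

lemma lam_isAUnit (x : M) (l : Fin S.n) : IsAUnit C (S.lam x l) :=
  (S.a_isAUnit x _ _).div (S.a_isAUnit x _ _)

lemma tor_isAUnit (x : M) (t : Fin S.n ⊕ S.U) : IsAUnit C (S.tor x t) := by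
  cases t with
  | inl l => exact (S.lam_isAUnit x l).inv
  | inr u => exact (S.a_isAUnit x S.i₀ u).inv

lemma φ_isAUnit (x : M) (q : Fin S.n × S.U) : IsAUnit C (S.φ q x) :=
  ((S.a_isAUnit x _ _).mul (S.a_isAUnit x _ _)).div ((S.a_isAUnit x _ _).mul (S.a_isAUnit x _ _))

lemma v_eq (x : M) (l : Fin S.n) (t : Fin S.n ⊕ S.U) :
    S.v x l t = S.tor x t * (S.lam x l * evalPt (S.pt t) (S.f x l)) := by
  cases t with
  | inl l' =>
    simp only [v, tor, Sum.elim_inl, S.evalPt_f]
    split_ifs with h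
    · subst h
      rw [mul_one, inv_mul_cancel₀ (S.lam_isAUnit x l).ne_zero]
    · simp
  | inr u =>
    simp only [v, tor, Sum.elim_inr, φ, lam, a]
    rw [div_eq_mul_inv, div_eq_mul_inv, mul_inv]
    ring

end CoordSetup

end FLTAgent.FiniteFlat
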