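import Fermat.Agent.FiniteFlat.CoordSupply
import Fermat.Agent.FiniteFlat.CoordBasis

/-!
# Existence of a coordinate setup

`exists_coordSetup`: given enough fibres with distinct reductions (`FibreSupply`), the auxiliary
divisor and the marked places in general position exist.  The places are chosen one by one,
avoiding base loci and pivots.  Used in `JZeroModel`.
-/

set_option autoImplicit false

noncomputable section

open AlgebraicCurve FLTAgent.FFBasic FLTAgent.Deuring FLTAgent.FFRiemannRoch

namespace FLTAgent.FiniteFlat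

section OneField

variable {K G : Type} [Field K] [Field G] [Algebra K G] [IsAlgClosed K] [IsFunctionField K G]

lemma ell_le_ell_sub_single_add_one (X : Divisor K G) (Q : Place K G) :
    ell K G X ≤ ell K G (X - Finsupp.single Q 1) + 1 := by
  have := finiteDimensional_riemannRochSpace (X - Finsupp.single Q 1)
  have h := (finrank_riemannRochSpace_add_single (X - Finsupp.single Q 1) Q).2
  rwa [sub_add_cancel, deg_eq_one] at h

omit [IsAlgClosed K] in
lemma ell_sub_single_lt {X : Divisor K G} {f : G} (hf : f ∈ riemannRochSpace X) (hf0 : f ≠ 0)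
    {Q : Place K G} (hQ : (X + divOf (K := K) f) Q = 0) :
    ell K G (X - Finsupp.single Q 1) < ell K G X := by
  have := finiteDimensional_riemannRochSpace X
  refine Submodule.finrank_lt_finrank_of_lt (lt_of_le_of_ne
    (riemannRochSpace_mono (sub_le_self X (single_nonneg Q zero_le_one)))
    fun h => ?_)
  rw [← h] at hf
  have h2 := (mem_riemannRochSpace_iff.mp hf Q).resolve_left hf0
  rw [Finsupp.sub_apply, Finsupp.single_eq_same] at h2
  rw [Finsupp.add_apply, divOf_apply] at hQ
  omega

/-- The places where a fixed nonzero section of `L(X)` has a zero. -/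
def baseLocus (X : Divisor K G) : Finset (Place K G) :=
  if h : 0 < ell K G X then (X + divOf (K := K) (exists_ne_zero_of_ell_pos h).choose).support else ∅

lemma ell_sub_single_of_notMem {X : Divisor K G} (h : 0 < ell K G X) {Q : Place K G}
    (hQ : Q ∉ baseLocus X) : ell K G (X - Finsupp.single Q 1) + 1 = ell K G X := by
  rw [baseLocus, dif_pos h, Finsupp.notMem_support_iff] at hQ
  obtain ⟨hf, hf0⟩ := (exists_ne_zero_of_ell_pos h).choose_spec
  have := ell_sub_single_lt hf hf0 hQ
  have := ell_le_ell_sub_single_add_one X Q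
  omega

omit [IsAlgClosed K] in
lemma divOf_prod {ι : Type} (s : Finset ι) (g : ι → G) (hg : ∀ i ∈ s, g i ≠ 0) :
    divOf (K := K) (∏ i ∈ s, g i) = ∑ i ∈ s, divOf (K := K) (g i) := by
  classical
  induction s using Finset.induction_on with
  | empty =>
    ext v
    simp [divOf_apply]
  | insert a s ha ih =>
    rw [Finset.prod_insert ha, Finset.sum_insert ha,
      divOf_mul (hg a (Finset.mem_insert_self a s))
        (Finset.prod_ne_zero_iff.mpr fun i hi => hg i (Finset.mem_insert_of_mem hi)),
      ih fun i hi => hg i (Finset.mem_insert_of_mem hi)]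

end OneField

variable {L k F Fb : Type} [Field L] [Field k] [Field F] [Field Fb]
  [Algebra L F] [Algebra k Fb] [IsAlgClosed L] [IsAlgClosed k]
  [IsFunctionField L F] [IsFunctionField k Fb]
variable {C : Reduction L k F Fb} {r : Place L F → Place k Fb}

omit [IsAlgClosed L] [IsFunctionField L F] in
/-- General position: pivots of a family of divisors. -/
lemma exists_pivots {M : Type} [Finite M] {Good : Place L F → Prop}
    (pick : ∀ Bad : Set (Place k Fb), Bad.Finite → ∃ P, Good P ∧ r P ∉ Bad)
    (X : M → Divisor k Fb) (N : ℕ) (hX : ∀ x, ell k Fb (X x) = N)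
    (Bad : Set (Place k Fb)) (hBad : Bad.Finite) :
    ∀ j ≤ N, ∃ p : Fin j → Place L F, Function.Injective (r ∘ p) ∧
      (∀ i, Good (p i) ∧ r (p i) ∉ Bad) ∧
      ∀ x, ell k Fb (X x - ∑ i, Finsupp.single (r (p i)) 1) + j = N := by
  classical
  intro j
  induction j with
  | zero =>
    exact fun _ => ⟨Fin.elim0, fun a => a.elim0, fun i => i.elim0, fun x => by simp [hX]⟩
  | succ j ih =>
    intro hj
    obtain ⟨p, hinj, hgood, hell⟩ := ih (by omega)
    have hfin : (⋃ x, (↑(baseLocus (X x - ∑ i, Finsupp.single (r (p i)) 1)) :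
        Set (Place k Fb))).Finite := Set.finite_iUnion fun _ => Finset.finite_toSet _
    obtain ⟨P, hP, hPn⟩ := pick _ ((hBad.union (Set.finite_range (r ∘ p))).union hfin)
    simp only [Set.mem_union, Set.mem_iUnion, Finset.mem_coe, not_or, not_exists] at hPn
    refine ⟨Fin.snoc p P, ?_, fun i => ?_, fun x => ?_⟩
    · rw [Fin.comp_snoc]
      exact Fin.snoc_injective_iff.mpr ⟨hinj, hPn.1.2⟩
    · refine Fin.lastCases ?_ (fun i => ?_) i
      · rw [Fin.snoc_last]; exact ⟨hP, hPn.1.1⟩
      · rw [Fin.snoc_castSucc]; exact hgood i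
    · rw [Fin.sum_univ_castSucc]
      simp only [Fin.snoc_castSucc, Fin.snoc_last]
      rw [← sub_sub]
      have h1 := hell x
      have h2 := ell_sub_single_of_notMem (by omega) (hPn.2 x)
      omega

omit [IsAlgClosed L] [IsAlgClosed k] [IsFunctionField k Fb] in
/-- Finitely many members of a supply with disjoint reductions. -/
lemma exists_fibres {Base : Divisor L F} {Good : Place L F → Prop}
    (sup : FibreSupply r Base Good) (Bad : Set (Place k Fb)) (hBad : Bad.Finite) (j : ℕ) :
    ∃ (Z : Fin j → Finset (Place L F)) (h : Fin j → F), (∀ i, h i ≠ 0) ∧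
      (∀ i, divOf (K := L) (h i) = (∑ P ∈ Z i, Finsupp.single P 1) - Base) ∧
      (∀ i i', ∀ P ∈ Z i, ∀ P' ∈ Z i', r P = r P' → i = i' ∧ P = P') ∧
      (∀ i, ∀ P ∈ Z i, Good P ∧ r P ∉ Bad) := by
  classical
  induction j with
  | zero =>
    exact ⟨Fin.elim0, Fin.elim0, fun i => i.elim0, fun i => i.elim0, fun i => i.elim0,
      fun i => i.elim0⟩
  | succ j ih =>
    obtain ⟨Z, h, h0, hdiv, hinj, hgood⟩ := ih
    obtain ⟨Z', h', h'0, hdiv', hinj', hgood'⟩ := sup (Bad ∪ ⋃ i, r '' ↑(Z i))
      (hBad.union (Set.finite_iUnion fun i => (Finset.finite_toSet _).image r))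
    simp only [Set.mem_union, Set.mem_iUnion, Set.mem_image, Finset.mem_coe, not_or,
      not_exists, not_and] at hgood'
    refine ⟨Fin.snoc Z Z', Fin.snoc h h', fun i => ?_, fun i => ?_, fun i i' => ?_, fun i => ?_⟩
    · induction i using Fin.lastCases <;> simp [h0, h'0]
    · induction i using Fin.lastCases <;> simp [hdiv, hdiv']
    · induction i using Fin.lastCases with
      | last =>
        induction i' using Fin.lastCases with
        | last =>
          simp only [Fin.snoc_last]
          exact fun P hP P' hP' e => ⟨trivial, hinj' hP hP' e⟩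
        | cast i' =>
          simp only [Fin.snoc_last, Fin.snoc_castSucc]
          exact fun P hP P' hP' e => absurd e.symm ((hgood' P hP).1.2 i' P' hP')
      | cast i =>
        induction i' using Fin.lastCases with
        | last =>
          simp only [Fin.snoc_last, Fin.snoc_castSucc]
          exact fun P hP P' hP' e => absurd e ((hgood' P' hP').1.2 i P hP)
        | cast i' =>
          simp only [Fin.snoc_castSucc]
          intro P hP P' hP' e
          obtain ⟨rfl, rfl⟩ := hinj i i' P hP P' hP' e
          exact ⟨rfl, rfl⟩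
    · induction i using Fin.lastCases with
      | last => simp only [Fin.snoc_last]; exact fun P hP => ⟨(hgood' P hP).2, (hgood' P hP).1.1⟩
      | cast i => simp only [Fin.snoc_castSucc]; exact hgood i

/-- A coordinate setup for given representatives, all of whose marked places are good. -/
theorem exists_coordSetup {M : Type} [Finite M] (hr : C.IsReductionMap r)
    (hg : genusFF L F = genusFF k Fb) (D : M → Divisor L F) (hdeg : ∀ x, Divisor.degree (D x) = 0)
    {Base : Divisor L F} {Good : Place L F → Prop} (hμ : 0 < Divisor.degree Base)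
    (sup : FibreSupply r Base Good) :
    ∃ S : CoordSetup C r M, S.D = D ∧ (∃ a : ℕ, S.D₀ = a • Base) ∧ ∀ t, Good (S.pt t) := by
  classical
  -- the auxiliary divisor
  let a : ℕ := (rrBound L F).toNat + 4 * genusFF L F + 4 * genusFF k Fb + 1
  set D₀ : Divisor L F := a • Base with hD₀
  set m : ℕ := (Divisor.degree D₀).toNat
  have hdD₀ : Divisor.degree D₀ = a * Divisor.degree Base := by rw [hD₀, map_nsmul, nsmul_eq_mul]
  have ham : (a : ℤ) ≤ a * Divisor.degree Base := le_mul_of_one_le_right (by omega) (by omega)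
  have hm : (m : ℤ) = Divisor.degree D₀ := Int.toNat_of_nonneg (by rw [hdD₀]; omega)
  set n : ℕ := ((m : ℤ) + 1 - genusFF L F).toNat with hn
  have hn' : (n : ℤ) = m + 1 - genusFF L F := Int.toNat_of_nonneg (by omega)
  have hn0 : 0 < n := by omega
  let X : M → Divisor k Fb := fun x => Finsupp.mapDomain r (D x + D₀)
  have hX : ∀ x, ell k Fb (X x) = n := by
    intro x
    have hd : Divisor.degree (X x) = m := by
      rw [degree_mapDomain hr.1, map_add, hdeg, zero_add, hm]
    have h1 := finrank_rr_of_genus_eq hg (D := X x) (by rw [hd]; omega)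
    rw [hd] at h1
    rw [ell]
    omega
  let Bad₀ : Set (Place k Fb) := (⋃ x, r '' ↑(D x).support) ∪ r '' ↑D₀.support
  have hBad₀ : Bad₀.Finite :=
    (Set.finite_iUnion fun x => (Finset.finite_toSet _).image r).union
      ((Finset.finite_toSet _).image r)
  have pick : ∀ Bad : Set (Place k Fb), Bad.Finite → ∃ P, Good P ∧ r P ∉ Bad := by
    intro Bad hBad
    obtain ⟨Z, h, -, hdiv, -, hZ⟩ := sup Bad hBad
    obtain ⟨P, hP⟩ : Z.Nonempty := by
      by_contra hne
      rw [Finset.not_nonempty_iff_eq_empty] at hne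
      have := congrArg Divisor.degree hdiv
      rw [degree_divOf, hne, Finset.sum_empty, zero_sub, map_neg] at this
      omega
    exact ⟨P, (hZ P hP).2, (hZ P hP).1⟩
  obtain ⟨p, hpinj, hpgood, hpell⟩ := exists_pivots pick X n hX Bad₀ hBad₀ n le_rfl
  let Y : M → Fin n → Divisor k Fb := fun x i =>
    X x - ∑ l, Finsupp.single (r (p l)) 1 + Finsupp.single (r (p i)) 1
  let Bad₁ : Set (Place k Fb) := Bad₀ ∪ Set.range (r ∘ p) ∪ ⋃ x, ⋃ i, ↑(baseLocus (Y x i))
  have hBad₁ : Bad₁.Finite := (hBad₀.union (Set.finite_range _)).union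
    (Set.finite_iUnion fun _ => Set.finite_iUnion fun _ => Finset.finite_toSet _)
  obtain ⟨Z, h, h0, hdiv, hZinj, hZ⟩ := exists_fibres sup Bad₁ hBad₁ (4 * a + 1)
  have hcard : ∀ i, ((Z i).card : ℤ) = Divisor.degree Base := by
    intro i
    have := congrArg Divisor.degree (hdiv i)
    rw [degree_divOf, map_sub, map_sum] at this
    simp only [Divisor.degree_single, deg_eq_one, Nat.cast_one, mul_one, Finset.sum_const,
      nsmul_eq_mul] at this
    omega
  let U : Type := (i : Fin (4 * a + 1)) × {P // P ∈ Z i}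
  let pt : Fin n ⊕ U → Place L F := Sum.elim p fun u => (u.2 : Place L F)
  have hptgood : ∀ t, Good (pt t) ∧ r (pt t) ∉ Bad₀ := by
    rintro (l | ⟨i, P, hP⟩)
    · exact hpgood l
    · exact ⟨(hZ i P hP).1, fun h => (hZ i P hP).2 (Or.inl (Or.inl h))⟩
  have hptinj : Function.Injective (r ∘ pt) := by
    rintro (l | ⟨i, P, hP⟩) (l' | ⟨i', P', hP'⟩) e
    · exact congrArg Sum.inl (hpinj e)
    · exact absurd (Or.inl (Or.inr ⟨l, e⟩)) (hZ i' P' hP').2
    · exact absurd (Or.inl (Or.inr ⟨l', e.symm⟩)) (hZ i P hP).2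
    · obtain ⟨rfl, rfl⟩ := hZinj i i' P hP P' hP' e
      rfl
  let I : Bool → Finset (Fin (4 * a + 1)) := fun b => Finset.univ.filter fun i : Fin (4 * a + 1) =>
    if b then a ≤ (i : ℕ) ∧ (i : ℕ) < 2 * a else (i : ℕ) < a
  have hI : ∀ b, (I b).card = a := by
    intro b
    rw [← Finset.card_map Fin.valEmbedding]
    cases b
    · rw [show (I false).map Fin.valEmbedding = Finset.range a by
        ext i; simp only [I, Finset.mem_map, Finset.mem_filter, Finset.mem_univ, true_and,
          Finset.mem_range, Fin.valEmbedding_apply, Bool.false_eq_true, if_false]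
        exact ⟨by rintro ⟨l, hl, rfl⟩; exact hl, fun hi => ⟨⟨i, by omega⟩, hi, rfl⟩⟩,
        Finset.card_range]
    · rw [show (I true).map Fin.valEmbedding = Finset.Ico a (2 * a) by
        ext i; simp only [I, Finset.mem_map, Finset.mem_filter, Finset.mem_univ, true_and,
          Finset.mem_Ico, Fin.valEmbedding_apply, if_true]
        exact ⟨by rintro ⟨l, hl, rfl⟩; exact hl, fun hi => ⟨⟨i, by omega⟩, hi, rfl⟩⟩,
        Nat.card_Ico]
      omega
  obtain ⟨c₀, hc₀⟩ : (Z ⟨2 * a, by omega⟩).Nonempty := Finset.card_pos.mp (by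
    have := hcard ⟨2 * a, by omega⟩; omega)
  have hD₀app : ∀ t P, r P = r (pt t) → D₀ P = 0 := fun t P hP => by
    by_contra hne
    exact (hptgood t).2 (Or.inr ⟨P, Finsupp.mem_support_iff.mpr hne, hP⟩)
  refine ⟨{
    isReductionMap := hr
    genus_eq := hg
    D := D
    degree_D := hdeg
    D₀ := D₀
    m := m
    degree_D₀ := hm.symm
    n := n
    n_eq := hn'
    rr_bound := by omega
    genus_bound := by omega
    genus_bound' := by omega
    U := U
    pt := pt
    pt_injective := hptinj
    D_avoid := fun x t P hP => by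
      by_contra hne
      exact (hptgood t).2 (Or.inl (Set.mem_iUnion.mpr ⟨x, P, Finsupp.mem_support_iff.mpr hne, hP⟩))
    D₀_avoid := hD₀app
    minor := fun x => by simpa [pt, X] using hpell x
    minor' := ?_
    card_large := ?_
    i₀ := ⟨0, hn0⟩
    c := ⟨⟨2 * a, by omega⟩, c₀, hc₀⟩
    S := fun b => (I b).sigma fun _ => Finset.univ
    S_disjoint := ?_
    c_notMem := ?_
    h := fun b => ∏ i ∈ I b, h i
    h_ne_zero := fun b => Finset.prod_ne_zero_iff.mpr fun i _ => h0 i
    div_h := ?_ }, rfl, ⟨a, rfl⟩, fun t => (hptgood t).1⟩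
  · rintro x i ⟨j, P, hP⟩
    show ell k Fb (Y x i - Finsupp.single (r P) 1) = 0
    have hle : ell k Fb (Y x i) ≤ 1 := by
      have h1 := ell_le_ell_sub_single_add_one (Y x i) (r (p i))
      have h2 := hpell x
      simp only [Y, add_sub_cancel_right] at h1 ⊢
      omega
    rcases Nat.eq_zero_or_pos (ell k Fb (Y x i)) with h1 | h1
    · exact Nat.le_zero.mp (h1 ▸ ell_mono (sub_le_self _ (single_nonneg _ zero_le_one)))
    · have h2 : ell k Fb (Y x i - Finsupp.single (r P) 1) + 1 = ell k Fb (Y x i) :=
        ell_sub_single_of_notMem h1 fun hb => (hZ j P hP).2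
          (Or.inr (Set.mem_iUnion.mpr ⟨x, Set.mem_iUnion.mpr ⟨i, hb⟩⟩))
      omega
  · show 4 * m < n + Fintype.card U
    zify
    rw [Fintype.card_sigma]
    push_cast
    simp only [Fintype.card_coe, hcard, Finset.sum_const, Finset.card_univ, Fintype.card_fin,
      nsmul_eq_mul]
    rw [hm, hdD₀]
    push_cast
    linarith [show (1 : ℤ) ≤ n by omega]
  · rw [Finset.disjoint_left]
    rintro ⟨i, P⟩ h1 h2
    simp only [Finset.mem_sigma, I, Finset.mem_filter, Finset.mem_univ, true_and, and_true,
      Bool.false_eq_true, if_false, if_true] at h1 h2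
    omega
  · intro b hmem
    have ha : 0 < a := Nat.succ_pos _
    have h2 : (⟨2 * a, by omega⟩ : Fin (4 * a + 1)) ∈ I b := (Finset.mem_sigma.mp hmem).1
    cases b <;> simp [I] at h2
    omega
  · intro b
    rw [divOf_prod _ _ (fun i _ => h0 i), Finset.sum_congr rfl fun i _ => hdiv i,
      Finset.sum_sub_distrib, Finset.sum_const, hI, hD₀]
    congr 1
    rw [Finset.sum_sigma]
    exact Finset.sum_congr rfl fun i _ =>
      (Finset.sum_coe_sort (Z i) fun P => Finsupp.single P (1 : ℤ)).symm

end FLTAgent.FiniteFlat
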