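import Fermat.Agent.FiniteFlat.CoordProducts

/-!
# Equivariance of the coordinates for semilinear automorphisms fixing the marked places

`φ_map_eq`: if a semilinear automorphism fixes the marked places of a coordinate setup and maps
the representatives to those of the transformed classes, it maps the coordinates to those of the
transformed classes.  Used for inertia in `JZeroModel`.
-/

set_option autoImplicit false

noncomputable section

open AlgebraicCurve FLTAgent.FFBasic FLTAgent.Deuring FLTAgent.FFRiemannRoch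

namespace FLTAgent.FiniteFlat

variable {L k F Fb : Type} [Field L] [Field k] [Field F] [Field Fb]
  [Algebra L F] [Algebra k Fb] [IsAlgClosed L] [IsAlgClosed k]
  [IsFunctionField L F] [IsFunctionField k Fb]

namespace CoordSetup

variable {C : Reduction L k F Fb} {r : Place L F → Place k Fb} {M : Type}
variable (S : CoordSetup C r M)

theorem φ_map_eq (s : SemilinearAut L F) (τ : M → M) (hpt : ∀ t, s • S.pt t = S.pt t)
    (hD₀ : s • S.D₀ = S.D₀)
    (hD : ∀ x, ∃ g : F, g ≠ 0 ∧ divOf (K := L) g = s • S.D x - S.D (τ x))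
    (q : Fin S.n × S.U) (x : M) :
    S.φ q (τ x) = SemilinearAut.baseAut s (S.φ q x) := by
  classical
  obtain ⟨g, hg0, hg⟩ := hD x
  have hgE : divOf (K := L) g = s • S.E x - S.E (τ x) := by
    rw [hg, E, E, smul_add, hD₀]
    abel
  have hsE : ∀ t, (s • S.E x) (S.pt t) = 0 := fun t => by
    conv_lhs => rw [← hpt t]
    rw [SemilinearAut.divisor_smul_apply_smul]
    exact S.E_apply_eq_zero x t rfl
  have hgord : ∀ t, (S.pt t).ord g = 0 := fun t => by
    rw [← divOf_apply, hgE, Finsupp.sub_apply, hsE, S.E_apply_eq_zero _ t rfl, sub_zero]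
  have hgmem : ∀ t, g ∈ (S.pt t).toValuationSubring := fun t =>
    mem_of_ord_nonneg _ (hgord t).ge
  have hsmem : ∀ l t, s • S.f x l ∈ (S.pt t).toValuationSubring := fun l t =>
    mem_of_ord_nonneg' _ fun _ => by
      rw [← hpt t, SemilinearAut.ord_smul]
      exact ord_nonneg_of_mem _ (S.f_mem_pt x l t)
  have hval : ∀ l t, evalPt (S.pt t) (g * (s • S.f x l)) =
      evalPt (S.pt t) g * SemilinearAut.baseAut s (evalPt (S.pt t) (S.f x l)) := by
    intro l t
    rw [evalPt_mul _ (hgmem t) (hsmem l t)]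
    congr 1
    conv_lhs => rw [← hpt t]
    exact evalPt_smul_semilinear s _ (S.f_mem_pt x l t)
  have key : ∀ l t, evalPt (S.pt t) g * SemilinearAut.baseAut s (evalPt (S.pt t) (S.f x l)) =
      evalPt (S.pt (Sum.inl l)) g * evalPt (S.pt t) (S.f (τ x) l) := by
    intro l t
    have hmem : g * (s • S.f x l) ∈ riemannRochSpace (S.E (τ x)) := by
      rw [mul_mem_riemannRochSpace_iff hg0, hgE, add_sub_cancel]
      refine mem_riemannRochSpace_iff.mpr fun v => or_iff_not_imp_left.mpr fun hne => ?_
      have hne' : S.f x l ≠ 0 := fun h => hne (by rw [h, smul_zero])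
      have h1 := (mem_riemannRochSpace_iff.mp (S.f_mem x l) (s⁻¹ • v)).resolve_left hne'
      have h2 := SemilinearAut.ord_smul s (s⁻¹ • v) (S.f x l)
      rw [smul_inv_smul] at h2
      rw [SemilinearAut.divisor_smul_apply, h2]
      exact h1
    rw [← hval, S.eq_of_evalPt_eq (τ x) hmem, evalPt_sum _ _ _ (fun l' _ => by
      rw [Algebra.smul_def]
      exact mul_mem ((S.pt t).algebraMap_mem' _) (S.f_mem_pt _ _ _))]
    rw [Finset.sum_eq_single l]
    · rw [evalPt_smul _ _ (S.f_mem_pt _ _ _), hval, S.evalPt_f, if_pos rfl, map_one, mul_one]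
    · intro l' _ hne
      rw [evalPt_smul _ _ (S.f_mem_pt _ _ _), hval, S.evalPt_f, if_neg (Ne.symm hne), map_zero,
        mul_zero, zero_mul]
    · exact fun hn => absurd (Finset.mem_univ _) hn
  obtain ⟨l, u⟩ := q
  have hγ : ∀ t, evalPt (S.pt t) g ≠ 0 := fun t =>
    evalPt_ne_zero_of_ord_eq_zero _ hg0 (hgord t)
  have hax : ∀ l' u', S.a (τ x) l' u' = evalPt (S.pt (Sum.inr u')) g *
      SemilinearAut.baseAut s (S.a x l' u') / evalPt (S.pt (Sum.inl l')) g := fun l' u' => by
    rw [a, a, key l' (Sum.inr u'), mul_div_cancel_left₀ _ (hγ _)]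
  have h1 := hγ (Sum.inl l); have h2 := hγ (Sum.inl S.i₀)
  have h3 := hγ (Sum.inr u); have h4 := hγ (Sum.inr S.c)
  have h5 : SemilinearAut.baseAut s (S.a x l S.c) ≠ 0 :=
    (map_ne_zero _).mpr (S.a_isAUnit x l S.c).ne_zero
  have h6 : SemilinearAut.baseAut s (S.a x S.i₀ u) ≠ 0 :=
    (map_ne_zero _).mpr (S.a_isAUnit x S.i₀ u).ne_zero
  simp only [φ, hax, map_div₀, map_mul]
  field_simp

end CoordSetup

end FLTAgent.FiniteFlat
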