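import Fermat.Agent.FiniteFlat.CoordGalois

/-!
# Coordinates of classes with linearly equivalent reductions

`φ_residue_eq`: if the reduced divisors of two classes differ by a principal divisor then their
coordinates are congruent.  Used in `JZeroModel`.
-/

set_option autoImplicit false

noncomputable section

open AlgebraicCurve FLTAgent.FFBasic FLTAgent.Deuring FLTAgent.FFRiemannRoch

namespace FLTAgent.FiniteFlat

variable {L k F Fb : Type} [Field L] [Field k] [Field F] [Field Fb]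
  [Algebra L F] [Algebra k Fb] [IsAlgClosed L] [IsAlgClosed k]
  [IsFunctionField L F] [IsFunctionField k Fb]

namespace CoordSetup

variable {C : Reduction L k F Fb} {r : Place L F → Place k Fb} {M : Type}
variable (S : CoordSetup C r M)

theorem φ_residue_eq {x y : M} {g : Fb} (hg0 : g ≠ 0)
    (hg : divOf (K := k) g = Finsupp.mapDomain r (S.D x - S.D y)) (q : Fin S.n × S.U) :
    C.π ⟨S.φ q x, (S.φ_isAUnit x q).mem⟩ = C.π ⟨S.φ q y, (S.φ_isAUnit y q).mem⟩ := by
  classical
  have hgE : divOf (K := k) g =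
      Finsupp.mapDomain r (S.E x) - Finsupp.mapDomain r (S.E y) := by
    rw [hg, ← Finsupp.mapDomain_sub]
    congr 1
    simp only [E]; abel
  have hord : ∀ t, (S.rpt t).ord g = 0 := fun t => by
    rw [← divOf_apply, hgE, Finsupp.sub_apply, S.rE_apply_eq_zero, S.rE_apply_eq_zero, sub_zero]
  have hgmem : ∀ t, g ∈ (S.rpt t).toValuationSubring := fun t =>
    mem_of_ord_nonneg _ (hord t).ge
  have hγ : ∀ t, evalPt (S.rpt t) g ≠ 0 := fun t =>
    evalPt_ne_zero_of_ord_eq_zero _ hg0 (hord t)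
  have hfm : ∀ z l t, S.fbar z l ∈ (S.rpt t).toValuationSubring := fun z l t =>
    mem_of_mem_rr _ (S.rE_apply_eq_zero z t).le (S.fbar_mem z l)
  have hval : ∀ l t, evalPt (S.rpt t) g * evalPt (S.rpt t) (S.fbar x l) =
      evalPt (S.rpt (Sum.inl l)) g * evalPt (S.rpt t) (S.fbar y l) := by
    intro l t
    have hmem : g * S.fbar x l ∈ riemannRochSpace (Finsupp.mapDomain r (S.E y)) := by
      rw [mul_mem_riemannRochSpace_iff hg0, hgE, add_sub_cancel]
      exact S.fbar_mem x l
    let c := evalPt (S.rpt (Sum.inl l)) g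
    have heq : (⟨g * S.fbar x l, hmem⟩ : riemannRochSpace (Finsupp.mapDomain r (S.E y))) =
        c • ⟨S.fbar y l, S.fbar_mem y l⟩ := by
      refine (S.specialEval_bijective y).1 (funext fun l' => ?_)
      rw [map_smul, Pi.smul_apply]
      show evalPt (S.rpt (Sum.inl l')) (g * S.fbar x l) =
        c • evalPt (S.rpt (Sum.inl l')) (S.fbar y l)
      rw [evalPt_mul _ (hgmem _) (hfm _ _ _), S.evalPt_fbar, S.evalPt_fbar, smul_eq_mul]
      split_ifs with h
      · subst h; rfl
      · simp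
    have h1 := congrArg Subtype.val heq
    simp only [SetLike.val_smul] at h1
    rw [← evalPt_mul _ (hgmem t) (hfm _ _ _), h1, evalPt_smul _ _ (hfm _ _ _)]
  have hmemA : ∀ z l u, S.a z l u ∈ C.A := fun z l u => (S.a_isAUnit z l u).mem
  let b : M → Fin S.n → S.U → k := fun z l u => C.π ⟨S.a z l u, hmemA z l u⟩
  have hb : ∀ z l u, b z l u = evalPt (S.rpt (Sum.inr u)) (S.fbar z l) := fun z l u => by
    obtain ⟨a, ha, hπ, -⟩ := S.evalPt_f_residue z l (Sum.inr u)
    rw [← hπ]
    exact congrArg C.π (Subtype.ext ha.symm)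
  have hb0 : ∀ z l u, b z l u ≠ 0 := fun z l u => by
    obtain ⟨a, ha, hne⟩ := S.a_isAUnit z l u
    show C.π ⟨S.a z l u, hmemA z l u⟩ ≠ 0
    rw [show (⟨S.a z l u, hmemA z l u⟩ : C.A) = a from Subtype.ext ha.symm]
    exact hne
  obtain ⟨l, u⟩ := q
  have hφ : ∀ z, C.π ⟨S.φ (l, u) z, (S.φ_isAUnit z (l, u)).mem⟩ =
      b z l u * b z S.i₀ S.c / (b z l S.c * b z S.i₀ u) := by
    intro z
    rw [eq_div_iff (mul_ne_zero (hb0 _ _ _) (hb0 _ _ _))]
    simp only [b, ← map_mul]
    refine congrArg C.π (Subtype.ext ?_)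
    show S.φ (l, u) z * (S.a z l S.c * S.a z S.i₀ u) = S.a z l u * S.a z S.i₀ S.c
    exact div_mul_cancel₀ _
      (mul_ne_zero (S.a_isAUnit _ _ _).ne_zero (S.a_isAUnit _ _ _).ne_zero)
  have hax : ∀ l' u', b y l' u' =
      evalPt (S.rpt (Sum.inr u')) g * b x l' u' / evalPt (S.rpt (Sum.inl l')) g := fun l' u' => by
    rw [hb, hb, hval, mul_div_cancel_left₀ _ (hγ _)]
  rw [hφ, hφ, hax, hax, hax, hax]
  have h1 := hγ (Sum.inl l); have h2 := hγ (Sum.inl S.i₀)
  have h3 := hγ (Sum.inr u); have h4 := hγ (Sum.inr S.c)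
  have h5 := hb0 x l S.c; have h6 := hb0 x S.i₀ u
  field_simp

end CoordSetup

end FLTAgent.FiniteFlat
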