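import Fermat.Agent.FiniteFlat.CoordProducts

/-!
# The coordinates separate the classes

`eq_of_φ_eq`: two classes of a coordinate setup with the same coordinates are equal.  This is
the separation hypothesis of the descent theorem, used in `JZeroModel`.
-/

set_option autoImplicit false

noncomputable section

open AlgebraicCurve FLTAgent.FFBasic FLTAgent.Deuring FLTAgent.FFRiemannRoch

namespace FLTAgent.FiniteFlat

variable {L k F Fb : Type} [Field L] [Field k] [Field F] [Field Fb]
  [Algebra L F] [Algebra k Fb] [IsAlgClosed L] [IsAlgClosed k]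
  [IsFunctionField L F] [IsFunctionField k Fb]

namespace CoordSetup

variable {C : Reduction L k F Fb} {r : Place L F → Place k Fb} {M : Type}
variable (S : CoordSetup C r M)

lemma f_ne_zero (x : M) (l : Fin S.n) : S.f x l ≠ 0 := fun h => by
  have := S.evalPt_f x l l
  rw [h, evalPt_zero, if_pos rfl] at this
  exact zero_ne_one this

theorem eq_of_φ_eq {x y : M} (h : ∀ q, S.φ q x = S.φ q y) :
    ∃ g : F, g ≠ 0 ∧ divOf (K := L) g = S.D x - S.D y := by
  classical
  have hv : ∀ l t, S.v x l t = S.v y l t := by
    intro l t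
    cases t with
    | inl l' => rfl
    | inr u => exact h (l, u)
  let g : Fin S.n → F := fun l => (S.lam y l / S.lam x l) • S.f y l
  have hgmem : ∀ l, g l ∈ riemannRochSpace (S.E y) := fun l =>
    Submodule.smul_mem _ _ (S.f_mem y l)
  have hgt : ∀ l t, evalPt (S.pt t) (g l) =
      S.tor x t / S.tor y t * evalPt (S.pt t) (S.f x l) := by
    intro l t
    have h1 := hv l t
    rw [S.v_eq, S.v_eq] at h1
    have hty := (S.tor_isAUnit y t).ne_zero
    have hlx := (S.lam_isAUnit x l).ne_zero
    simp only [g]
    rw [evalPt_smul _ _ (S.f_mem_pt y l t)]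
    field_simp
    linear_combination -h1
  have hcross : ∀ l, S.f x l * g S.i₀ = S.f x S.i₀ * g l := by
    intro l
    have hmem : S.f x l * g S.i₀ - S.f x S.i₀ * g l ∈ riemannRochSpace (S.E x + S.E y) :=
      Submodule.sub_mem _ (mul_mem_riemannRochSpace (S.f_mem _ _) (hgmem _))
        (mul_mem_riemannRochSpace (S.f_mem _ _) (hgmem _))
    have h0 := mem_rr_sub_of_evalPt_eq_zero Finset.univ (pt := S.pt)
      (S.pt_injective.of_comp) (fun t _ => by
        rw [Finsupp.add_apply, S.E_apply_eq_zero x t rfl, S.E_apply_eq_zero y t rfl, add_zero])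
      hmem (fun t _ => by
        have hg : ∀ j, g j ∈ (S.pt t).toValuationSubring := fun j =>
          mem_of_mem_rr _ (S.E_apply_eq_zero y t rfl).le (hgmem j)
        rw [sub_eq_add_neg, evalPt_add _ (mul_mem (S.f_mem_pt _ _ _) (hg _))
          (neg_mem (mul_mem (S.f_mem_pt _ _ _) (hg _))), neg_eq_neg_one_mul,
          show (-1 : F) = algebraMap L F (-1) by simp,
          ← Algebra.smul_def, evalPt_smul _ _ (mul_mem (S.f_mem_pt _ _ _) (hg _)),
          evalPt_mul _ (S.f_mem_pt _ _ _) (hg _), evalPt_mul _ (S.f_mem_pt _ _ _) (hg _),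
          hgt, hgt]
        ring)
    rw [← sub_eq_zero]
    have hd : Divisor.degree (S.E x + S.E y - ∑ t, Finsupp.single (S.pt t) 1) < 0 := by
      have hcard := S.card_large
      rw [map_sub, map_add, S.degree_E, S.degree_E, map_sum]
      simp only [Divisor.degree_single, deg_eq_one, Nat.cast_one, mul_one, Finset.sum_const,
        Finset.card_univ, Fintype.card_sum, Fintype.card_fin, nsmul_eq_mul]
      omega
    rw [eq_zero_of_degree_neg hd, Submodule.mem_bot] at h0
    exact h0
  let G : F := g S.i₀ / S.f x S.i₀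
  have hG0 : G ≠ 0 := div_ne_zero (smul_ne_zero
    (div_ne_zero (S.lam_isAUnit y _).ne_zero (S.lam_isAUnit x _).ne_zero) (S.f_ne_zero y _))
    (S.f_ne_zero x _)
  have hGf : ∀ l, G * S.f x l = g l := by
    intro l
    have hf0 := S.f_ne_zero x S.i₀
    simp only [G]
    rw [div_mul_eq_mul_div, div_eq_iff hf0]
    linear_combination hcross l
  have hle : riemannRochSpace (S.E x) ≤ riemannRochSpace (S.E y + divOf (K := L) G) := by
    intro f hf
    rw [← mul_mem_riemannRochSpace_iff hG0, S.eq_of_evalPt_eq x hf, Finset.mul_sum]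
    refine Submodule.sum_mem _ fun l _ => ?_
    rw [mul_smul_comm, hGf]
    exact Submodule.smul_mem _ _ (hgmem l)
  have hE : S.E x = S.E y + divOf (K := L) G := by
    refine eq_of_le_of_degree_le (fun v => ?_)
      (by rw [map_add, degree_divOf, S.degree_E, S.degree_E, add_zero])
    obtain ⟨f, hf, hf0, hord⟩ := exists_ord_eq_neg_of_two_mul_le (D := S.E x) v
      (by rw [S.degree_E]; have := S.genus_bound; omega)
    have := (mem_riemannRochSpace_iff.mp (hle hf) v).resolve_left hf0
    omega
  refine ⟨G, hG0, ?_⟩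
  have hD : S.D x + S.D₀ = S.D y + S.D₀ + divOf (K := L) G := hE
  rw [add_right_comm, add_left_inj] at hD
  rw [hD]
  abel

end CoordSetup

end FLTAgent.FiniteFlat
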