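import Fermat.Agent.Igusa.ExpansionDegree

/-!
# The special fibre is separable over the `j`-line

`isSeparable_fullC`: over an algebraically closed field in which `N` is invertible the function
field of level `N` is separable over the field of the `j`-invariant.  It supplies the separating
function behind the fibre supply in `JZeroModel`.
-/

set_option autoImplicit false

noncomputable section

open ModularCurve IntermediateField

namespace FLTAgent.FiniteFlat

/-- Separability is preserved and reflected by embeddings. -/
lemma isSeparable_algHom_iff {k E E' : Type} [Field k] [Field E] [Field E'] [Algebra k E]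
    [Algebra k E'] (f : E →ₐ[k] E') (x y : E) :
    IsSeparable (adjoin k ({f x} : Set E')) (f y) ↔ IsSeparable (adjoin k ({x} : Set E)) y := by
  have hmap : (adjoin k ({x} : Set E)).map f = adjoin k ({f x} : Set E') := by
    rw [adjoin_map, Set.image_singleton]
  let e : adjoin k ({x} : Set E) ≃+* adjoin k ({f x} : Set E') :=
    ((IntermediateField.equivMap (adjoin k ({x} : Set E)) f).trans
      (IntermediateField.equivOfEq hmap)).toRingEquiv
  have he : ∀ z, ((e z : adjoin k ({f x} : Set E')) : E') = f (z : E) := fun z => rfl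
  have key : ∀ P : Polynomial (adjoin k ({x} : Set E)),
      Polynomial.aeval (f y) (P.map e.toRingHom) = f (Polynomial.aeval y P) := by
    intro P
    show _ = f.toRingHom _
    rw [Polynomial.aeval_def, Polynomial.aeval_def, Polynomial.eval₂_map, Polynomial.hom_eval₂]
    congr 1
  constructor
  · intro h
    set P := (minpoly (adjoin k ({f x} : Set E')) (f y)).map e.symm.toRingHom
    have hP : P.map e.toRingHom = minpoly (adjoin k ({f x} : Set E')) (f y) := by
      rw [Polynomial.map_map]
      simp
    have h0 : Polynomial.aeval y P = 0 := f.injective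
        ((key P).symm.trans (by rw [hP, minpoly.aeval, map_zero]))
    exact Polynomial.Separable.of_dvd (Polynomial.Separable.map h) (minpoly.dvd _ _ h0)
  · intro h
    have h0 : Polynomial.aeval (f y)
        ((minpoly (adjoin k ({x} : Set E)) y).map e.toRingHom) = 0 := by
      rw [key, minpoly.aeval, map_zero]
    exact Polynomial.Separable.of_dvd (Polynomial.Separable.map h) (minpoly.dvd _ _ h0)

/-- The function field in characteristic prime to `N` is separable over `k(j)`. -/
theorem isSeparable_fullC (k : Type) [Field k] [IsAlgClosed k] {N : ℕ} (hN : (N : k) ≠ 0)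
    (j : modularFunctionFieldFullC k N) (hj : (j : LaurentSeries k) = jqModC k) :
    Algebra.IsSeparable (adjoin k ({j} : Set (modularFunctionFieldFullC k N)))
      (modularFunctionFieldFullC k N) := by
  classical
  obtain ⟨C⟩ := FLTAgent.Igusa.exists_ctx k hN
  have : NeZero N := ⟨C.hM⟩
  let φ := qExpandAlgHomC k N
  let ν : FLTAgent.Igusa.algPart k N →ₐ[k] LaurentSeries k :=
    (FLTAgent.Igusa.algPart k N).val.restrictScalars k
  have hgen : ∀ d, d ∣ N → IsSeparable (adjoin k ({jqModC k} : Set (LaurentSeries k)))
      (FLTAgent.Igusa.jv (1 : kˣ) d) := by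
    intro d hd
    have hφ : ∀ e, e ∣ N → φ (FLTAgent.Igusa.jv (1 : kˣ) e) = FLTAgent.Igusa.jv 1 (N * e) := by
      intro e he
      rw [show φ = qExpandAlgHomC k N from rfl, qExpandAlgHomC_apply, ← FLTAgent.Igusa.qx_eq,
        FLTAgent.Igusa.qx_jv 1 C.hM fun h => C.hM (Nat.eq_zero_of_zero_dvd (h ▸ he))]
    let el : ∀ e, e ∣ N → FLTAgent.Igusa.algPart k N := fun e he => ⟨_, (C.isVx_std he).2.1⟩
    have hel : ∀ e, ∀ he : e ∣ N, ν (el e he) = φ (FLTAgent.Igusa.jv (1 : kˣ) e) :=
      fun e he => (hφ e he).symm
    have hemb : ∀ e, ∀ he : e ∣ N, FLTAgent.Igusa.emb k N (el e he) = C.std e := fun e he =>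
      (FLTAgent.Igusa.vx_eq _).symm
    have h1 : IsSeparable (adjoin k ({C.std 1} : Set (FLTAgent.Igusa.Amb k N))) (C.std d) :=
      C.isSeparable_std hd
    rw [← hemb 1 (one_dvd N), ← hemb d hd,
      isSeparable_algHom_iff (FLTAgent.Igusa.emb k N) (el 1 (one_dvd N)) (el d hd),
      ← isSeparable_algHom_iff ν, hel 1 (one_dvd N), hel d hd, isSeparable_algHom_iff φ,
      FLTAgent.Igusa.jv_one_one] at h1
    exact h1
  have hle : modularFunctionFieldFullC k N ≤
      (separableClosure (adjoin k ({jqModC k} : Set (LaurentSeries k)))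
        (LaurentSeries k)).restrictScalars k := by
    rw [modularFunctionFieldFullC, adjoin_le_iff, FLTAgent.Igusa.divisorExpansionsC_eq k C.hM]
    rintro _ ⟨d, hd, rfl⟩
    exact mem_separableClosure_iff.mpr (hgen d hd)
  refine ⟨fun z => (isSeparable_algHom_iff (modularFunctionFieldFullC k N).val j z).mp ?_⟩
  have := mem_separableClosure_iff.mp (hle z.2)
  rw [← hj] at this
  exact this

end FLTAgent.FiniteFlat
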