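import Fermat.Agent.FiniteFlat.Family
import Fermat.Agent.FiniteFlat.CoordAdd
import Fermat.Agent.FiniteFlat.CoordSep
import Fermat.Agent.FiniteFlat.CoordGalois
import Fermat.Agent.FiniteFlat.CoordExists
import Fermat.Agent.FiniteFlat.CoordResidue
import Fermat.Agent.FiniteFlat.SpecialSeparable
import Fermat.Agent.Deuring.ModL
import Fermat.Agent.CongruenceRel.Assembly
import Fermat.Agent.GaloisAttach.Stabilizer
import Fermat.Prelude.Def_ModularCurve_ArithmeticGalois

/-!
# Finite flat models of finite Galois submodules of `J₀(N)` at a prime of good reduction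

`exists_coordinates_jZero` runs the coordinate construction on the modular curve with marked
places over inertia-fixed roots of unity, and `hasFlatModel_jZero` applies the descent theorem:
every finite Galois submodule of `J₀(N)` has a flat model at a prime `ℓ ∤ N`.
-/

set_option autoImplicit false

noncomputable section

open AlgebraicCurve ModularCurve GaloisRep
open FLTAgent.FFBasic FLTAgent.Density FLTAgent.Deuring FLTAgent.GoodReduction
open FLTAgent.FFRiemannRoch (divOf divOf_apply)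
open FLTAgent.Deuring.Modular

namespace FLTAgent.FiniteFlat

section Roots

variable {ℓ : ℕ} [hℓ : Fact ℓ.Prime] {A : ValuationSubring Qbar}

/-- Roots of unity of order prime to `ℓ` in `A`. -/
def goodRoots (ℓ : ℕ) (A : ValuationSubring Qbar) : Set A :=
  {c | ∃ n : ℕ, ¬ ℓ ∣ n ∧ c ^ n = 1}

lemma eq_one_of_residue_eq_one (hA : A.LiesOverPrime ℓ) {c : A} {n : ℕ} (hn : ¬ ℓ ∣ n)
    (hc : c ^ n = 1) (hres : IsLocalRing.residue A c = 1) : c = 1 := by
  by_contra hne
  have h0 : ∑ i ∈ Finset.range n, c ^ i = 0 :=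
    (mul_eq_zero.mp (show (c - 1) * ∑ i ∈ Finset.range n, c ^ i = 0 by
      rw [mul_geom_sum, hc, sub_self])).resolve_left (sub_ne_zero.mpr hne)
  have := congrArg (IsLocalRing.residue A) h0
  rw [map_sum, map_zero, Finset.sum_congr rfl (fun i _ => by rw [map_pow, hres, one_pow]),
    Finset.sum_const, Finset.card_range, nsmul_one] at this
  exact natCast_residue_ne_zero hA hn this

lemma infinite_residue_goodRoots (hA : A.LiesOverPrime ℓ) :
    (IsLocalRing.residue A '' goodRoots ℓ A).Infinite := by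
  intro hfin
  have hroot : ∀ q : {q : ℕ // q.Prime ∧ q ≠ ℓ}, ∃ c : A,
      c ∈ goodRoots ℓ A ∧ orderOf (IsLocalRing.residue A c) = (q : ℕ) := by
    rintro ⟨q, hq, hqℓ⟩
    have : NeZero ((q : ℕ) : Qbar) := ⟨Nat.cast_ne_zero.mpr hq.ne_zero⟩
    have : Fact q.Prime := ⟨hq⟩
    obtain ⟨z, hz⟩ := HasEnoughRootsOfUnity.exists_primitiveRoot Qbar q
    have hzA : z ∈ A := mem_of_isIntegral A (hz.isIntegral hq.pos)
    have hndvd : ¬ ℓ ∣ q := fun h => hqℓ ((Nat.prime_dvd_prime_iff_eq hℓ.out hq).mp h).symm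
    have hpow : (⟨z, hzA⟩ : A) ^ q = 1 := Subtype.ext hz.pow_eq_one
    refine ⟨⟨z, hzA⟩, ⟨q, hndvd, hpow⟩,
      orderOf_eq_prime (by rw [← map_pow, hpow, map_one]) fun h => ?_⟩
    exact hz.ne_one hq.one_lt (congrArg Subtype.val (eq_one_of_residue_eq_one hA hndvd hpow h))
  choose c hc hord using hroot
  have : Infinite {q : ℕ // q.Prime ∧ q ≠ ℓ} :=
    Set.infinite_coe_iff.mpr (Nat.infinite_setOfPred_prime.sdiff (Set.finite_singleton ℓ))
  exact (Set.infinite_range_of_injective (f := fun q => IsLocalRing.residue A (c q))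
    fun q q' h => Subtype.ext (by rw [← hord q, ← hord q']; exact congrArg orderOf h))
      (hfin.subset (Set.range_subset_iff.mpr fun q => Set.mem_image_of_mem _ (hc q)))

variable {τ : GalQ}

lemma inertia_apply_mem (hτ : τ ∈ A.inertiaSubgroupIn ℚ) {x : Qbar} (hx : x ∈ A) : τ x ∈ A :=
  (apply_mem_iff (mem_inertiaSubgroupIn_iff.mp hτ).1 x).mpr hx

lemma residue_inertia_apply (hτ : τ ∈ A.inertiaSubgroupIn ℚ) (x : A) :
    IsLocalRing.residue A ⟨τ x, inertia_apply_mem hτ x.2⟩ = IsLocalRing.residue A x := by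
  obtain ⟨h1, h2⟩ :=
    ValuationSubring.mem_nonunits_iff_exists_mem_maximalIdeal.mp
      ((mem_inertiaSubgroupIn_iff.mp hτ).2 x x.2)
  rw [← sub_eq_zero, ← map_sub, IsLocalRing.residue_eq_zero_iff]
  exact h2

lemma inertia_fixes_goodRoots (hA : A.LiesOverPrime ℓ) (hτ : τ ∈ A.inertiaSubgroupIn ℚ) {c : A}
    (hc : c ∈ goodRoots ℓ A) : τ (c : Qbar) = c := by
  obtain ⟨n, hn, hcn⟩ := hc
  have hn0 : n ≠ 0 := fun h => hn (h ▸ dvd_zero ℓ)
  have hcu : IsUnit c := IsUnit.of_pow_eq_one hcn hn0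
  let t : A := ⟨τ c, inertia_apply_mem hτ c.2⟩
  have htn : t ^ n = 1 := Subtype.ext (by
    show (τ (c : Qbar)) ^ n = 1
    rw [← map_pow, show (c : Qbar) ^ n = 1 from congrArg Subtype.val hcn, map_one])
  have hmul : t * (hcu.unit⁻¹ : Aˣ) = 1 := by
    refine eq_one_of_residue_eq_one hA hn ?_ ?_
    · rw [mul_pow, htn, one_mul, ← Units.val_pow_eq_pow_val, inv_pow,
        Units.val_eq_one, inv_eq_one]
      exact Units.ext (by rw [Units.val_pow_eq_pow_val, IsUnit.unit_spec, hcn, Units.val_one])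
    · rw [map_mul, residue_inertia_apply hτ, ← map_mul, IsUnit.mul_val_inv, map_one]
  have : t = c := by
    have := congrArg (· * c) hmul
    simpa [mul_assoc] using this
  exact congrArg Subtype.val this

end Roots

variable {ℓ : ℕ} [hℓ : Fact ℓ.Prime] {A : ValuationSubring Qbar} {N : ℕ}

lemma arithmeticGalois_smul_jF (τ : GalQ) :
    arithmeticGalois (modularFunctionFieldFull N) τ • jF (L := Qbar) N = jF N :=
  Subtype.ext (by
    rw [coe_arithmeticGalois_smul, coe_jF]
    exact coeffMap_jqModC _)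

/-- Inertia acts trivially on the residues of the integral series. -/
lemma seriesRing_inertia (H : X0GoodReduction A (IsLocalRing.residue A) N) {τ : GalQ}
    (hτ : τ ∈ A.inertiaSubgroupIn ℚ) (s : seriesRing A N) :
    ∃ h : arithmeticGalois (modularFunctionFieldFull N) τ • (s : FF Qbar N) ∈ seriesRing A N,
      red H ⟨_, h⟩ = red H s := by
  obtain ⟨y, hy⟩ := (mem_seriesRing A N).mp s.2
  let σ : A →+* A :=
    ((τ : Qbar →+* Qbar).comp A.subtype).codRestrict A.toSubring fun a =>
      inertia_apply_mem hτ a.2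
  have hy' : coeffMap A.subtype (coeffMap σ y) =
      ((arithmeticGalois (modularFunctionFieldFull N) τ • (s : FF Qbar N) : FF Qbar N) :
        LaurentSeries Qbar) := by
    rw [coe_arithmeticGalois_smul, ← hy, coeffMap_coeffMap, coeffMap_coeffMap]
    exact coeffMap_congr (RingHom.ext fun a => rfl) y
  have hmem := (mem_seriesRing A N).mpr ⟨_, hy'⟩
  refine ⟨hmem, Subtype.ext ?_⟩
  rw [red_eq H (s := ⟨_, hmem⟩) hy', red_eq H hy, coeffMap_coeffMap]
  exact coeffMap_congr (RingHom.ext fun a => residue_inertia_apply hτ a) y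

/-- Integral coordinates at a good place for a finite family of points of `J₀(N)`: equivariant
for inertia, separating, congruent at classes with the same reduction, and polynomial in the
coordinates of the summands on sums. -/
theorem exists_coordinates_jZero [NeZero N] (hℓN : ¬ ℓ ∣ N) (hA : A.LiesOverPrime ℓ)
    (H : X0GoodReduction A (IsLocalRing.residue A) N) {W : Type} [Finite W] (cl : W → JZero N) :
    ∃ (ι : Type) (φ : ι → W → Qbar), (∀ q x, φ q x ∈ A) ∧
      (∀ τ ∈ A.inertiaSubgroupIn ℚ, ∀ f : W → W, (∀ x, cl (f x) = τ • cl x) →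
        ∀ q x, φ q (f x) = τ (φ q x)) ∧
      (∀ x y, (∀ q, φ q x = φ q y) → cl x = cl y) ∧
      (∀ x y, reductionModL A N (cl x) = reductionModL A N (cl y) →
        ∀ q, φ q x - φ q y ∈ A.nonunits) ∧
      ∀ {P : Type} [Finite P] (fa fb fc : P → W), (∀ i, cl (fa i) + cl (fb i) = cl (fc i)) →
        ∀ q, (fun i => φ q (fc i)) ∈ Algebra.adjoin A
          (Set.range (fun q i => φ q (fa i)) ∪ Set.range (fun q i => φ q (fb i))) := by
  classical
  have := isAlgClosed_residueField A
  have hF := isFunctionFieldL H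
  have hFb := isFunctionFieldk H
  choose D hD using fun x => Pic0.mk_surjective (cl x)
  have hprinc : ∀ E : Divisor.degZero (K := Qbar) (F := FF Qbar N), Pic0.mk E = 0 ↔
      ∃ g : FF Qbar N, g ≠ 0 ∧ divOf (K := Qbar) g = (E : Divisor Qbar (FF Qbar N)) := by
    intro E
    rw [Pic0.mk, QuotientAddGroup.eq_zero_iff, AddSubgroup.mem_addSubgroupOf]
    exact ⟨fun ⟨g, hg, h⟩ => ⟨g, hg, Finsupp.ext fun v => by rw [divOf_apply, h v]⟩,
      fun ⟨g, hg, h⟩ => ⟨g, hg, fun v => by rw [← h, divOf_apply]⟩⟩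
  -- the constant reduction and its supply of fibres
  have hπ : Function.Surjective (IsLocalRing.residue A) := IsLocalRing.residue_surjective
  set C := reduction H hπ
  set T := atlasX0 H hπ
  have hr : C.IsReductionMap T.placeMap := T.isReductionMap
  have hresx : C.res T.X.x = jFb (k := IsLocalRing.ResidueField A) N :=
    ((model H hπ).res_toO _).trans (red_jF H)
  have hxF : (T.X.x : FF Qbar N) = jF N := rfl
  have sup := fibreSupply_of_function hr T.X.x (by rw [hresx]; exact transcendental_jFb N)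
    (by
      rw [hresx]
      exact isSeparable_fullC _ (natCast_residue_ne_zero hA hℓN) _ (coe_jFb N))
    T.mapDomain_pol (Cst := goodRoots ℓ A) (infinite_residue_goodRoots hA)
  obtain ⟨S, hSD, ⟨a, hSD₀⟩, hgood⟩ := exists_coordSetup hr T.genus_eq
    (fun x => (D x : Divisor Qbar (FF Qbar N)))
    (fun x => Divisor.mem_degZero.mp (D x).2)
    (degree_pol_pos (by rw [hxF]; exact transcendental_jF N)) sup
  refine ⟨Fin S.n × S.U, fun q x => S.φ q x, fun q x => (S.φ_isAUnit x q).mem,
    fun τ hτ f hf q x => ?_, fun x y h => ?_, fun x y h q => ?_, fun {P} _ fa fb fc hsum q =>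
      S.φ_add_mem (fun i => ?_) q⟩
  rotate_left
  · obtain ⟨g, hg0, hg⟩ := S.eq_of_φ_eq h
    rw [hSD] at hg
    rw [← hD x, ← hD y, ← sub_eq_zero]
    exact (hprinc (D x - D y)).mpr ⟨g, hg0, hg⟩
  · obtain ⟨h0, hI0⟩ := CongruenceRel.fibreInputs N hℓ.out hℓN A hA
    have hr0 : C.IsReductionMap (placeReductionModL h0) :=
      isReductionMap_of_isPlaceReductionAlong H hπ (isPlaceReductionModL_placeReductionModL h0)
    have hmap : placeReductionModL h0 = T.placeMap :=
      funext fun P => isReductionMap_unique hr0 hr T.genus_eq P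
    rw [← hD x, ← hD y, ← sub_eq_zero, ← map_sub,
      show Pic0.mk (D x) - Pic0.mk (D y) = Pic0.mk (D x - D y) from rfl, reductionModL_mk h0,
      CongruenceRel.pic0_mk_eq_zero] at h
    obtain ⟨g, hg0, hg⟩ := h
    have key := S.φ_residue_eq (x := x) (y := y) hg0 (by
      refine Finsupp.ext fun v => ?_
      rw [divOf_apply, ← hg v, hSD, ← hmap]
      rfl) q
    have key' : IsLocalRing.residue A ⟨S.φ q x, (S.φ_isAUnit x q).mem⟩ =
        IsLocalRing.residue A ⟨S.φ q y, (S.φ_isAUnit y q).mem⟩ := key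
    rw [← sub_eq_zero, ← map_sub, IsLocalRing.residue_eq_zero_iff,
      ← ValuationSubring.coe_mem_nonunits_iff] at key'
    exact key'
  · rw [CoordSetup.IsSum, hSD]
    refine (hprinc (D (fa i) + D (fb i) - D (fc i))).mp ?_
    rw [show Pic0.mk (D (fa i) + D (fb i) - D (fc i)) =
      Pic0.mk (D (fa i)) + Pic0.mk (D (fb i)) - Pic0.mk (D (fc i)) from rfl, hD, hD, hD, hsum,
      sub_self]
  set s := arithmeticGalois (modularFunctionFieldFull N) τ
  have hsx : s • (T.X.x : FF Qbar N) = T.X.x := by rw [hxF]; exact arithmeticGalois_smul_jF τ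
  have hsO : ∀ u : C.O, ∃ h : s • (u : FF Qbar N) ∈ C.O,
      C.res ⟨s • (u : FF Qbar N), h⟩ = C.res u := by
    intro u
    obtain ⟨(t : seriesRing A N), (w : seriesRing A N), ht, he⟩ := (model H hπ).mem_O.mp u.2
    obtain ⟨ht', htr⟩ := seriesRing_inertia H hτ t
    obtain ⟨hw', hwr⟩ := seriesRing_inertia H hτ w
    have he' : (s • (u : FF Qbar N)) * (s • (t : FF Qbar N)) = s • (w : FF Qbar N) := by
      rw [← he, smul_mul']
    have hne : red H ⟨_, ht'⟩ ≠ 0 := by rw [htr]; exact ht
    have hmem : s • (u : FF Qbar N) ∈ (model H hπ).O :=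
      (model H hπ).mem_O.mpr ⟨⟨_, ht'⟩, ⟨_, hw'⟩, hne, he'⟩
    refine ⟨hmem, ?_⟩
    show (model H hπ).res ⟨_, hmem⟩ = (model H hπ).res u
    rw [(model H hπ).res_eq ⟨_, hmem⟩ (t := ⟨_, ht'⟩) (s := ⟨_, hw'⟩) hne he',
      (model H hπ).res_eq u ht he]
    show red H _ / red H _ = red H _ / red H _
    exact congrArg₂ (· / ·) hwr htr
  refine S.φ_map_eq s f (fun t => hgood t s hsx
    (fun c hc => inertia_fixes_goodRoots hA hτ hc) (reduction_smul hr T.genus_eq s hsO)) ?_
    (fun y => ?_) q x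
  · rw [hSD₀, smul_comm, smul_pol hsx]
  · rw [hSD]
    refine (hprinc (SemilinearAut.degZeroSMulHom s (D y) - D (f y))).mp ?_
    rw [show Pic0.mk (SemilinearAut.degZeroSMulHom s (D y) - D (f y)) =
      Pic0.mk (SemilinearAut.degZeroSMulHom s (D y)) - Pic0.mk (D (f y)) from rfl, hD, hf,
      ← hD y, galois_smul_pic0_def, SemilinearAut.pic0_smul_mk, sub_self]

/-- A finite Galois submodule of `J₀(N)` has a finite flat model at a good prime. -/
theorem hasFlatModel_jZero [NeZero N] (hℓN : ¬ ℓ ∣ N) (hA : A.LiesOverPrime ℓ)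
    (H : X0GoodReduction A (IsLocalRing.residue A) N)
    {M : Type} [AddCommGroup M] [Finite M] (act : GalQ →* AddMonoid.End M) (ι : M →+ JZero N)
    (hι : Function.Injective ι) (heq : ∀ (σ : GalQ) x, ι (act σ x) = σ • ι x) :
    HasFlatModel ℓ act := by
  classical
  have hcont : GaloisFactorsThroughFiniteLevel act := by
    choose L hLfd hL using fun x => GaloisAttach.openStabilizers N (ι x)
    have : ∀ x, FiniteDimensional ℚ (L x) := hLfd
    refine ⟨⨆ x, L x, IntermediateField.finiteDimensional_iSup_of_finite, fun σ hσ => ?_⟩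
    exact DFunLike.ext _ _ fun x =>
      hι ((heq σ x).trans (hL x σ fun y hy => hσ y (le_iSup L x hy)))
  obtain ⟨κ, φ, hint, hfix, hsep, -, hadd⟩ := exists_coordinates_jZero hℓN hA H ι
  exact hasFlatModel_of_coordinates hℓ.out hA hcont φ hint
    (fun q τ hτ x => hfix τ hτ _ (fun y => heq τ y) q x) (fun x y h => hι (hsep x y h))
    (fun q => hadd Prod.fst Prod.snd (fun p : M × M => p.1 + p.2)
      (fun p => (map_add ι p.1 p.2).symm) q)

end FLTAgent.FiniteFlat
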