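import Fermat.Agent.FiniteFlat.Model
import Mathlib.RingTheory.Polynomial.Basic
import Mathlib.Algebra.Polynomial.Lifts

/-!
# Points of a flat model, and the finite flat group scheme it gives

Evaluation identifies the module with the `ℚ̄`-points of a model (`evalPoint_bijective`), so a
flat model yields a finite flat cocommutative Hopf algebra (`HasFlatModel.exists_hopfAlgebra`).
-/

set_option autoImplicit false

open scoped TensorProduct
open Polynomial

namespace FLTAgent.FiniteFlat

open GaloisRep

variable {ℓ : ℕ} {M : Type} [AddCommGroup M] [Finite M]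
variable {act : (AlgebraicClosure ℚ ≃ₐ[ℚ] AlgebraicClosure ℚ) →* AddMonoid.End M}
variable {H : Subalgebra (ratLocalizedAt ℓ) (M → AlgebraicClosure ℚ)}

/-- Evaluation at a point. -/
noncomputable def evalPoint (H : Subalgebra (ratLocalizedAt ℓ) (M → AlgebraicClosure ℚ)) (x : M) :
    H →ₐ[ratLocalizedAt ℓ] AlgebraicClosure ℚ :=
  (Pi.evalAlgHom (ratLocalizedAt ℓ) (fun _ : M => AlgebraicClosure ℚ) x).comp H.val

omit [AddCommGroup M] [Finite M] in
@[simp] lemma evalPoint_apply (x : M) (f : H) : evalPoint H x f = f.1 x := rfl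

namespace IsFlatModel

omit [Finite M] in
lemma exists_value_eq [Fintype M] (h : IsFlatModel ℓ act H)
    (χ : H →ₐ[ratLocalizedAt ℓ] AlgebraicClosure ℚ) (f : H) : ∃ y : M, χ f = f.1 y := by
  classical
  let C := integralClosure (ratLocalizedAt ℓ) (AlgebraicClosure ℚ)
  let c : M → C := fun y => ⟨f.1 y, h.integral f.1 f.2 y⟩
  let P : Polynomial C := ∏ y, (X - Polynomial.C (c y))
  have hPmap : P.map (C.val.toRingHom) = ∏ y, (X - Polynomial.C (f.1 y)) := by
    simp [P, Polynomial.map_prod, c]
  have hlift : P.map C.val.toRingHom ∈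
      Polynomial.lifts (algebraMap (ratLocalizedAt ℓ) (AlgebraicClosure ℚ)) := by
    rw [Polynomial.lifts_iff_coeff_lifts]
    intro n
    refine exists_algebraMap_eq_of_fixed (fun σ => ?_) ?_
    · have hσ : (P.map C.val.toRingHom).map σ.toAlgHom.toRingHom = P.map C.val.toRingHom := by
        rw [hPmap, Polynomial.map_prod]
        simp only [Polynomial.map_sub, map_X, map_C]
        refine Fintype.prod_bijective (act σ)
          ⟨Finite.injective_iff_surjective.mpr (act_surjective σ), act_surjective σ⟩ _ _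
          fun y => ?_
        have := h.equivariant f.1 f.2 σ y
        simp [this]
      conv_rhs => rw [← hσ]
      rw [Polynomial.coeff_map, Polynomial.coeff_map, Polynomial.coeff_map]
      rfl
    · rw [Polynomial.coeff_map]
      exact (P.coeff n).2
  obtain ⟨Q, hQ⟩ := hlift
  have hQ0 : Polynomial.aeval f Q = 0 := by
    refine Subtype.ext (funext fun x => ?_)
    have h1 : evalPoint H x (Polynomial.aeval f Q) = Polynomial.aeval (evalPoint H x f) Q :=
      (Polynomial.aeval_algHom_apply (evalPoint H x) f Q).symm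
    conv_rhs at h1 => rw [Polynomial.aeval_def, ← Polynomial.eval_map, ← Polynomial.coe_mapRingHom,
      hQ, hPmap, Polynomial.eval_prod]
    rw [evalPoint_apply] at h1
    rw [h1]
    exact Finset.prod_eq_zero (Finset.mem_univ x) (by simp)
  have h2 := Polynomial.aeval_algHom_apply χ f Q
  rw [hQ0, map_zero, Polynomial.aeval_def, ← Polynomial.eval_map, ← Polynomial.coe_mapRingHom,
    hQ, hPmap, Polynomial.eval_prod, Finset.prod_eq_zero_iff] at h2
  obtain ⟨y, -, hy⟩ := h2
  exact ⟨y, by simpa [sub_eq_zero] using hy⟩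

lemma exists_point (h : IsFlatModel ℓ act H)
    (χ : H →ₐ[ratLocalizedAt ℓ] AlgebraicClosure ℚ) : ∃ y : M, χ = evalPoint H y := by
  classical
  have := Fintype.ofFinite M
  by_contra hne
  push Not at hne
  have hg : ∀ y : M, ∃ g : H, χ g - g.1 y ≠ 0 := fun y => by
    by_contra hc
    push Not at hc
    exact hne y (AlgHom.ext fun g => sub_eq_zero.mp (hc g))
  choose g hg using hg
  let n := Fintype.equivFin M
  let p : M → Polynomial (AlgebraicClosure ℚ) := fun y =>
    ∑ z : M, Polynomial.C (χ (g z) - (g z).1 y) * X ^ (n z : ℕ)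
  have hp : ∀ y, p y ≠ 0 := fun y h0 => by
    have := congrArg (fun q => Polynomial.coeff q (n y : ℕ)) h0
    simp only [p, Polynomial.finsetSum_coeff, coeff_C_mul_X_pow, coeff_zero] at this
    rw [Finset.sum_eq_single y (fun z _ hz => if_neg (fun e => hz (n.injective (Fin.ext e.symm))))
      (fun hc => absurd (Finset.mem_univ y) hc), if_pos rfl] at this
    exact hg y this
  have hP : (∏ y, p y) ≠ 0 := Finset.prod_ne_zero_iff.mpr fun y _ => hp y
  obtain ⟨t, ht⟩ : ∃ t : ℕ, (∏ y, p y).eval (t : AlgebraicClosure ℚ) ≠ 0 := by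
    by_contra hc
    push Not at hc
    exact hP (Polynomial.eq_zero_of_infinite_isRoot _
      (Set.Infinite.mono (s := Set.range (Nat.cast : ℕ → AlgebraicClosure ℚ))
        (by rintro _ ⟨t, rfl⟩; exact hc t)
        (Set.infinite_range_of_injective Nat.cast_injective)))
  let G : H := ∑ z : M, (t ^ (n z : ℕ)) • g z
  obtain ⟨y, hy⟩ := h.exists_value_eq χ G
  apply ht
  rw [Polynomial.eval_prod]
  refine Finset.prod_eq_zero (Finset.mem_univ y) ?_
  have hχ : χ G = ∑ z : M, (t : AlgebraicClosure ℚ) ^ (n z : ℕ) * χ (g z) := by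
    simp [G, map_sum, nsmul_eq_mul]
  have hy' : G.1 y = ∑ z : M, (t : AlgebraicClosure ℚ) ^ (n z : ℕ) * (g z).1 y := by
    simp [G, nsmul_eq_mul, Finset.sum_apply]
  rw [hχ, hy'] at hy
  simp only [p, eval_finsetSum, eval_mul, eval_C, eval_pow, eval_X]
  rw [← sub_eq_zero.mpr hy, ← Finset.sum_sub_distrib]
  exact Finset.sum_congr rfl fun z _ => by ring

lemma evalPoint_bijective (h : IsFlatModel ℓ act H) : Function.Bijective (evalPoint H) :=
  ⟨fun x y hxy => h.separates x y fun f hf => DFunLike.congr_fun hxy ⟨f, hf⟩,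
    fun χ => (h.exists_point χ).imp fun _ hy => hy.symm⟩

end IsFlatModel

/-- A flat model gives a finite flat cocommutative Hopf algebra with the given points. -/
theorem HasFlatModel.exists_hopfAlgebra (hM : HasFlatModel ℓ act) :
    ∃ (A : Type) (_ : CommRing A) (_ : HopfAlgebra (ratLocalizedAt ℓ) A),
      Module.Finite (ratLocalizedAt ℓ) A ∧ Module.Flat (ratLocalizedAt ℓ) A ∧
      Coalgebra.IsCocomm (ratLocalizedAt ℓ) A ∧
      ∃ e : WithConv (A →ₐ[ratLocalizedAt ℓ] AlgebraicClosure ℚ) ≃ M,
        (∀ f g, e (f * g) = e f + e g) ∧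
        ∀ (σ : AlgebraicClosure ℚ ≃ₐ[ℚ] AlgebraicClosure ℚ)
          (f g : WithConv (A →ₐ[ratLocalizedAt ℓ] AlgebraicClosure ℚ)),
          (∀ a : A, g a = σ (f a)) → e g = act σ (e f) := by
  obtain ⟨H, h⟩ := hM
  obtain ⟨_, _⟩ := h.finite_and_free
  let := h.hopfAlgebra
  refine ⟨H, inferInstance, h.hopfAlgebra, inferInstance, inferInstance, ?_, ?_⟩
  · refine ⟨LinearMap.ext fun f => h.mulMap_injective (funext fun p => ?_)⟩
    obtain ⟨x, y⟩ := p
    have key : ∀ t : H ⊗[ratLocalizedAt ℓ] H,
        IsFlatModel.mulMap H (TensorProduct.comm (ratLocalizedAt ℓ) H H t) (x, y) =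
          IsFlatModel.mulMap H t (y, x) := by
      intro t
      induction t using TensorProduct.induction_on with
      | zero => simp
      | tmul a b => simp [mul_comm]
      | add u v hu hv => simp [map_add, hu, hv]
    show IsFlatModel.mulMap H (TensorProduct.comm (ratLocalizedAt ℓ) H H (h.comulHom f)) (x, y) =
      IsFlatModel.mulMap H (h.comulHom f) (x, y)
    rw [key, h.mulMap_comulHom, h.mulMap_comulHom, add_comm y x]
  let E : M ≃ WithConv (H →ₐ[ratLocalizedAt ℓ] AlgebraicClosure ℚ) :=
    (Equiv.ofBijective _ h.evalPoint_bijective).trans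
      ⟨WithConv.toConv, WithConv.ofConv, fun _ => rfl, fun _ => rfl⟩
  refine ⟨E.symm, fun f g => ?_, fun σ f g hfg => ?_⟩
  · obtain ⟨x, rfl⟩ := E.surjective f
    obtain ⟨y, rfl⟩ := E.surjective g
    rw [E.symm_apply_apply, E.symm_apply_apply, Equiv.symm_apply_eq]
    refine WithConv.ext (AlgHom.ext fun a => ?_)
    have key : ∀ t : H ⊗[ratLocalizedAt ℓ] H,
        Algebra.TensorProduct.lift (evalPoint H x) (evalPoint H y) (fun _ _ => Commute.all _ _) t =
          IsFlatModel.mulMap H t (x, y) := by
      intro t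
      induction t using TensorProduct.induction_on with
      | zero => simp
      | tmul u v => simp
      | add u v hu hv => simp [map_add, hu, hv]
    show (E x * E y) a = a.1 (x + y)
    rw [AlgHom.convMul_apply]
    exact (key (h.comulHom a)).trans (h.mulMap_comulHom a (x, y))
  · obtain ⟨x, rfl⟩ := E.surjective f
    rw [E.symm_apply_apply, Equiv.symm_apply_eq]
    refine WithConv.ext (AlgHom.ext fun a => ?_)
    show g a = a.1 (act σ x)
    rw [hfg a]
    exact (h.equivariant a.1 a.2 σ x).symm

end FLTAgent.FiniteFlat
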