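import Fermat.Agent.FiniteFlat.Subquotient
import Fermat.Agent.FiniteFlat.Points
import Fermat.Agent.GaloisAttach.ModularTrace
import Fermat.Agent.GaloisAttach.DatumUnramified
import Fermat.Prelude.Def_GaloisRep_Flat
import Mathlib.RingTheory.LocalRing.Quotient

/-!
# The Galois representations of a Hecke datum are flat at a good residue characteristic

Relations between Galois and Hecke operators on the torsion of `J₀(N)` hold on the quotients of
the representation; hence these quotients are subquotients of powers of the torsion.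
`isFlatAt_datum` concludes flatness from models of the torsion modules `torsAct N m`.
-/

set_option autoImplicit false

noncomputable section

open ModularCurve GaloisRep Polynomial

namespace FLTAgent.FiniteFlat

open FLTAgent.GaloisAttach
open FLTAgent.Density (GalQ Qbar)

theorem nsmul_smul_eq_zero {G J : Type} [Group G] [AddCommGroup J] [DistribMulAction G J]
    (g : G) {m : ℕ} {x : J} (hx : m • x = 0) : m • g • x = 0 := by
  rw [smul_comm m g x, hx, smul_zero]

/-- The points killed by `m`. -/
def jTors (N m : ℕ) : AddSubgroup (JZero N) where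
  carrier := {x | m • x = 0}
  zero_mem' := smul_zero m
  add_mem' {x y} hx hy := by
    show m • (x + y) = 0
    rw [nsmul_add, show m • x = 0 from hx, show m • y = 0 from hy, add_zero]
  neg_mem' {x} hx := by
    show m • (-x) = 0
    rw [neg_nsmul, show m • x = 0 from hx, neg_zero]

/-- The Galois action on the points killed by `m`. -/
def torsAct (N m : ℕ) : GalQ →* AddMonoid.End (jTors N m) where
  toFun σ :=
    { toFun := fun x => ⟨σ • (x : JZero N), by
        show m • σ • (x : JZero N) = 0
        exact nsmul_smul_eq_zero (J := JZero N) σ x.2⟩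
      map_zero' := Subtype.ext (smul_zero (A := JZero N) σ)
      map_add' := fun x y => Subtype.ext (smul_add (A := JZero N) σ _ _) }
  map_one' := DFunLike.ext _ _ fun x => Subtype.ext (one_smul _ _)
  map_mul' σ τ := DFunLike.ext _ _ fun x => Subtype.ext (mul_smul σ τ _)

section Relations

variable {G R J : Type} [Group G] [CommRing R] [AddCommGroup J] [Module R J]
  [DistribMulAction G J] [SMulCommClass G R J]
variable {p : ℕ} [Fact p.Prime] {χ : G →* ℤ_[p]}

/-- If `Σ rᵢ gᵢ` kills the torsion of level `n`, the combination of witnesses times a commutator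
of witnesses does as well. -/
theorem kill_mul_commutator {n : ℕ} {t : G → R} (ht : ∀ g, IsWit J χ n g (t g)) {ι : Type}
    (s : Finset ι) (r : ι → R) (gs : ι → G)
    (hrel : ∀ x : J, (p ^ n) • x = 0 → ∑ i ∈ s, r i • gs i • x = 0)
    (g h z : G) (x : J) (hx : (p ^ n) • x = 0) :
    ((∑ i ∈ s, r i * t (gs i)) * (t (g * h * z) - t (h * g * z))) • x = 0 := by
  classical
  set ν : G → ℕ := fun g => chiNat χ n g with hν
  have hνmul : ∀ g h (y : J), (p ^ n) • y = 0 → ν (g * h) • y = ν g • ν h • y := by
    intro g h y hy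
    rw [← mul_nsmul']
    refine nsmul_eq_of_natCast_eq ?_ hy
    rw [Nat.cast_mul, hν]
    simp only [natCast_chiNat, map_mul]
  have htor : ∀ (g : G) {x : J}, (p ^ n) • x = 0 → (p ^ n) • g • x = 0 := fun g x hx =>
    pow_nsmul_smul_zero g hx
  have hν1 : ∀ (g : G) (y : J), (p ^ n) • y = 0 → g = 1 → ν g • y = y := by
    rintro g y hy rfl
    conv_rhs => rw [← one_nsmul y]
    refine nsmul_eq_of_natCast_eq ?_ hy
    rw [hν]
    simp [natCast_chiNat]
  set u : R := ∑ i ∈ s, r i * t (gs i) with hudef
  let v : G → R := fun h => ∑ i ∈ s, r i * t (gs i * h)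
  have hadj : ∀ (h : G) (x : J), (p ^ n) • x = 0 →
      v h • x = ν h • h⁻¹ • ∑ i ∈ s, ν (gs i) • r i • (gs i)⁻¹ • x := by
    intro h x hx
    have h1 : ∀ i ∈ s, (r i * t (gs i * h)) • x =
        r i • gs i • h • x + ν h • h⁻¹ • ν (gs i) • r i • (gs i)⁻¹ • x := by
      intro i _
      rw [mul_smul, ← ht (gs i * h) x hx, smul_add, mul_smul]
      congr 1
      rw [mul_inv_rev, mul_smul, hνmul _ _ _ (htor _ (htor _ hx))]
      show r i • ν (gs i) • ν h • h⁻¹ • (gs i)⁻¹ • x = _
      rw [smul_comm (r i) (ν (gs i)), smul_comm (r i) (ν h), ← smul_comm h⁻¹ (r i),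
        smul_comm (ν (gs i)) (ν h), smul_comm h⁻¹ (ν (gs i))]
    rw [Finset.sum_smul, Finset.sum_congr rfl h1, Finset.sum_add_distrib,
      hrel (h • x) (htor h hx), zero_add, Finset.smul_sum, Finset.smul_sum]
  have hu : ∀ x : J, (p ^ n) • x = 0 → u • x = ∑ i ∈ s, ν (gs i) • r i • (gs i)⁻¹ • x := by
    intro x hx
    have h1 := hadj 1 x hx
    simp only [v, mul_one, inv_one, one_smul] at h1
    rw [hudef, h1]
    refine hν1 1 _ ?_ rfl
    rw [Finset.smul_sum]
    refine Finset.sum_eq_zero fun i _ => ?_
    rw [smul_comm (p ^ n) (ν (gs i)), smul_comm (p ^ n) (r i), htor _ hx, smul_zero, smul_zero]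
  -- multiplication by `u` makes every group element scalar
  have hscal : ∀ (g : G) (y : J), (p ^ n) • y = 0 → u • g • y = ν g • v g⁻¹ • y := by
    intro g y hy
    have h0 : (p ^ n) • g • u • y = 0 := htor g (by rw [smul_comm, hy, smul_zero])
    rw [hadj g⁻¹ y hy, ← hu y hy, inv_inv, ← smul_comm g u y, ← hνmul _ _ _ h0, mul_inv_cancel,
      hν1 1 _ h0 rfl]
  have hcomm : ∀ (g h : G) (y : J), (p ^ n) • y = 0 → u • g • h • y = u • h • g • y := by
    intro g h y hy
    rw [← smul_comm g u (h • y), hscal h y hy, hscal h (g • y) (htor g hy),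
      smul_comm g (ν h), smul_comm g (v h⁻¹)]
  rw [mul_smul, sub_smul, ← ht _ x hx, ← ht _ x hx, smul_sub, sub_eq_zero, smul_add, smul_add]
  have e1 : u • (g * h * z) • x = u • (h * g * z) • x := by
    simp only [mul_smul]
    exact hcomm g h _ (htor z hx)
  have e2 : u • (g * h * z)⁻¹ • x = u • (h * g * z)⁻¹ • x := by
    simp only [mul_inv_rev, mul_smul]
    rw [← smul_comm z⁻¹ u (h⁻¹ • g⁻¹ • x), ← smul_comm z⁻¹ u (g⁻¹ • h⁻¹ • x),
      hcomm h⁻¹ g⁻¹ x hx]
  have e3 : chiNat χ n (g * h * z) = chiNat χ n (h * g * z) := by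
    simp only [chiNat, map_mul, mul_comm (χ g)]
  rw [e1, e3, smul_comm u (chiNat χ n (h * g * z)), smul_comm u (chiNat χ n (h * g * z)), e2]

end Relations

section Traces

variable {N p : ℕ} [NeZero N] [hp : Fact p.Prime] {S : Set ℕ}
variable {A : Type} [CommRing A] {I : Ideal A} [IsAdicComplete I A]
variable {χ : CuspForm.heckeAlgebra N 2 S →+* A} {hpI : (p : A) ∈ I}
variable {T : AttachedTrace N p S I χ} {c : ℕ}

/-- A relation between Galois and Hecke operators on `J[p^(k+c)]` holds for the attached trace,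
up to `I^k`, once the trace is residually non-abelian. -/
theorem sum_trace_mem (hsc : letI := heckeModuleBar N; SMulCommClass GalQ HeckeAlg (JZero N))
    (hlink : TraceLink hpI T c) (hnc : ∃ g h z : GalQ, IsUnit (T.f (g * h * z) - T.f (h * g * z)))
    {k : ℕ} {ι : Type} (s : Finset ι) (r : ι → GoodRing N S) (gs : ι → GalQ)
    (hrel : letI := heckeModuleBar N;
      ∀ x : JZero N, (p ^ (k + c)) • x = 0 → ∑ i ∈ s, goodIncl N S (r i) • gs i • x = 0) :
    ∑ i ∈ s, χ (goodTheta N S (r i)) * T.f (gs i) ∈ I ^ k := by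
  classical
  let := heckeModuleBar N
  have := hsc
  let : Module (GoodRing N S) (JZero N) := Module.compHom (JZero N) (goodIncl N S)
  have : SMulCommClass GalQ (GoodRing N S) (JZero N) :=
    ⟨fun g r x => (smul_comm g (goodIncl N S r) x : _)⟩
  choose t ht using hlink.exists_wit (k + c)
  set u : GoodRing N S := ∑ i ∈ s, r i * t (gs i) with hu
  have hu_mem : χ (goodTheta N S u) - ∑ i ∈ s, χ (goodTheta N S (r i)) * T.f (gs i) ∈ I ^ k := by
    simp only [hu, map_sum, map_mul, ← Finset.sum_sub_distrib, ← mul_sub]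
    exact Ideal.sum_mem _ fun i _ => Ideal.mul_mem_left _ _ (hlink.spec k _ _ (ht (gs i)))
  obtain ⟨g, h, z, hunit⟩ := hnc
  have h1 := hlink.kill k (u * (t (g * h * z) - t (h * g * z)))
    (fun x hx => kill_mul_commutator (G := GalQ) (R := GoodRing N S) (J := JZero N) (χ := cyc p)
      ht s r gs hrel g h z x hx)
  rw [map_mul, map_mul, map_sub, map_sub] at h1
  have h2 : χ (goodTheta N S u) * (T.f (g * h * z) - T.f (h * g * z)) ∈ I ^ k := by
    have hd := sub_mem (hlink.spec k _ _ (ht (g * h * z))) (hlink.spec k _ _ (ht (h * g * z)))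
    have := sub_mem h1 (Ideal.mul_mem_left _ (χ (goodTheta N S u)) hd)
    convert this using 1
    ring
  rw [Ideal.mul_unit_mem_iff_mem _ hunit] at h2
  have := sub_mem h2 hu_mem
  rwa [sub_sub_cancel] at this

end Traces

/-- Commuting matrices cannot span. -/
lemma exists_trace_commutator_ne_zero {K G : Type} [Field K] (M : G → Matrix (Fin 2) (Fin 2) K)
    (hspan : Submodule.span K (Set.range M) = ⊤) :
    ∃ g h z, ((M g * M h - M h * M g) * M z).trace ≠ 0 := by
  by_contra! hne
  have hc : ∀ g h, M g * M h = M h * M g := fun g h => sub_eq_zero.mp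
    (eq_zero_of_trace_mul_eq_zero (RingHom.id K) (fun t ht => isUnit_iff_ne_zero.mpr ht) M
      (by simpa using hspan) (hne g h))
  have h1 : ∀ X g, X * M g = M g * X := by
    intro X g
    have hX : X ∈ Submodule.span K (Set.range M) := hspan ▸ Submodule.mem_top
    induction hX using Submodule.span_induction with
    | mem y hy => obtain ⟨h, rfl⟩ := hy; exact hc h g
    | zero => rw [zero_mul, mul_zero]
    | add y z _ _ hy hz => rw [add_mul, mul_add, hy, hz]
    | smul a y _ hy => rw [smul_mul_assoc, mul_smul_comm, hy]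
  have h2 : ∀ X Y : Matrix (Fin 2) (Fin 2) K, X * Y = Y * X := by
    intro X Y
    have hY : Y ∈ Submodule.span K (Set.range M) := hspan ▸ Submodule.mem_top
    induction hY using Submodule.span_induction with
    | mem y hy => obtain ⟨h, rfl⟩ := hy; exact h1 X h
    | zero => rw [zero_mul, mul_zero]
    | add y z _ _ hy hz => rw [add_mul, mul_add, hy, hz]
    | smul a y _ hy => rw [smul_mul_assoc, mul_smul_comm, hy]
  have h3 := congrArg (fun Q : Matrix (Fin 2) (Fin 2) K => Q 0 0)
    (h2 (Matrix.single 0 1 1) (Matrix.single 1 0 1))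
  simp [Matrix.mul_apply, Matrix.single_apply] at h3

/-- A quotient of a matrix representation with the attached trace and absolutely irreducible
reduction, on which the combinations congruent to zero modulo `I` vanish, is flat. -/
theorem hasFlatModel_of_attachedTrace {p N : ℕ} [NeZero N] [Fact p.Prime] {S : Finset ℕ}
    {T : Type} [CommRing T] [IsLocalRing T] [IsAdicComplete (IsLocalRing.maximalIdeal T) T]
    {π : CuspForm.heckeAlgebra N 2 (↑S : Set ℕ) →+* T}
    {hpT : (p : T) ∈ IsLocalRing.maximalIdeal T}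
    {A : AttachedTrace N p (↑S : Set ℕ) (IsLocalRing.maximalIdeal T) π} {c : ℕ}
    (hJ : JacobianInputs N p) (hlink : TraceLink hpT A c)
    (hflat : ∀ n, HasFlatModel p (torsAct N (p ^ n)))
    (M : GalQ →* Matrix (Fin 2) (Fin 2) T) (htr : ∀ g, (M g).trace = A.f g)
    {K : Type} [Field K] {φ : T →+* K} (hφ : ∀ t, φ t ≠ 0 → IsUnit t)
    (hspan : Submodule.span K (Set.range fun g => (M g).map φ) = ⊤)
    {I : Ideal T} {k : ℕ} (hk : IsLocalRing.maximalIdeal T ^ k ≤ I)
    {Q : Type} [AddCommGroup Q] [Module T Q] [Finite Q] (act : GalQ →* AddMonoid.End Q)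
    (hsmul : ∀ σ (t : T) q, act σ (t • q) = t • act σ q)
    (hzero : ∀ (s : Finset GalQ) (r : GalQ → T), (∀ i j, (∑ g ∈ s, r g • M g) i j ∈ I) →
      ∀ q, ∑ g ∈ s, r g • act g q = 0) :
    HasFlatModel p act := by
  classical
  have hnc : ∃ g h z : GalQ, IsUnit (A.f (g * h * z) - A.f (h * g * z)) := by
    obtain ⟨g, h, z, hne⟩ := exists_trace_commutator_ne_zero _ hspan
    refine ⟨g, h, z, hφ _ fun h0 => hne ?_⟩
    rw [← htr, ← htr, ← Matrix.trace_sub, map_mul, map_mul, map_mul, map_mul, ← sub_mul,
      AddMonoidHom.map_trace φ] at h0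
    rw [← h0]
    simp only [← RingHom.mapMatrix_apply, ← map_mul, ← map_sub]
  let := heckeModuleBar N
  have := hJ.smulComm
  set W := jTors N (p ^ (k + c))
  have : Finite W := (hJ.finite_torsion (k + c)).to_subtype
  let G := GoodRing N (↑S : Set ℕ)
  let lev : GalQ → G → AddMonoid.End W := fun g r =>
    { toFun := fun x => ⟨goodIncl N _ r • g • (x : JZero N), by
        show (p ^ (k + c)) • _ = 0
        rw [smul_comm (p ^ (k + c)) (goodIncl N _ r),
          nsmul_smul_eq_zero (J := JZero N) g x.2, smul_zero]⟩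
      map_zero' := Subtype.ext (by simp)
      map_add' := fun x y => Subtype.ext (by simp) }
  let evW : (GalQ →₀ G) →+ (W → W) := Finsupp.liftAddHom fun g =>
    { toFun := fun r => ⇑(lev g r)
      map_zero' := funext fun x => Subtype.ext (show goodIncl N ↑S 0 • g • (x : JZero N) = 0 by
        rw [map_zero (goodIncl N ↑S)]; exact zero_smul HeckeAlg (g • (x : JZero N)))
      map_add' := fun r r' => funext fun x => Subtype.ext
        (show goodIncl N _ (r + r') • g • (x : JZero N) =
            goodIncl N _ r • g • (x : JZero N) + goodIncl N _ r' • g • (x : JZero N) by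
          rw [map_add, add_smul]) }
  let evQ : (GalQ →₀ G) →+ (Q → Q) := Finsupp.liftAddHom fun g =>
    { toFun := fun r q => π (goodTheta N _ r) • act g q
      map_zero' := funext fun q => by simp
      map_add' := fun r r' => funext fun q => by simp [add_smul] }
  have hevW : ∀ e x, ((evW e x : W) : JZero N) =
      ∑ g ∈ e.support, goodIncl N _ (e g) • g • (x : JZero N) := fun e x => by
    simp only [evW, Finsupp.liftAddHom_apply, Finsupp.sum, Finset.sum_apply]
    push_cast
    rfl
  have hevQ : ∀ e q, evQ e q = ∑ g ∈ e.support, π (goodTheta N _ (e g)) • act g q :=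
    fun e q => by
    simp only [evQ, Finsupp.liftAddHom_apply, Finsupp.sum, Finset.sum_apply]
    rfl
  refine (hflat (k + c)).of_operators evW evQ (fun σ e => Finsupp.mapDomain (σ * ·) e) ?_ ?_ ?_ ?_
  · intro σ e x
    refine Subtype.ext ?_
    show _ = σ • ((evW e x : W) : JZero N)
    rw [hevW, hevW, Finset.smul_sum,
      Finsupp.mapDomain_support_of_injective (mul_right_injective σ),
      Finset.sum_image fun a _ a' _ h => mul_left_cancel h]
    refine Finset.sum_congr rfl fun g _ => ?_
    rw [Finsupp.mapDomain_apply (mul_right_injective σ), mul_smul,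
      smul_comm σ (goodIncl N _ (e g))]
  · intro σ e q
    rw [hevQ, hevQ, map_sum, Finsupp.mapDomain_support_of_injective (mul_right_injective σ),
      Finset.sum_image fun a _ a' _ h => mul_left_cancel h]
    refine Finset.sum_congr rfl fun g _ => ?_
    rw [Finsupp.mapDomain_apply (mul_right_injective σ), map_mul]
    exact (hsmul σ _ _).symm
  · intro e he
    have hrel : ∀ x : JZero N, (p ^ (k + c)) • x = 0 →
        ∑ g ∈ e.support, goodIncl N _ (e g) • g • x = 0 := fun x hx => by
      have := hevW e ⟨x, hx⟩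
      rw [he] at this
      exact this.symm
    set X := ∑ g ∈ e.support, π (goodTheta N _ (e g)) • M g with hX
    have hXI : ∀ h, (X * M h).trace ∈ I := fun h => hk (by
      have := sum_trace_mem hJ.smulComm hlink hnc (k := k) e.support (fun g => e g)
        (fun g => g * h) (fun x hx => by
          have := hrel (h • x) (nsmul_smul_eq_zero (J := JZero N) h hx)
          simpa only [mul_smul] using this)
      rw [hX, Finset.sum_mul, Matrix.trace_sum]
      refine (congrArg (· ∈ _) (Finset.sum_congr rfl fun g _ => ?_)).mpr this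
      rw [smul_mul_assoc, Matrix.trace_smul, smul_eq_mul, ← map_mul, htr])
    have hX0 : ∀ i j, X i j ∈ I := by
      rcases eq_or_ne I ⊤ with rfl | hIne
      · exact fun i j => Submodule.mem_top
      let ψ : T ⧸ I →+* K := Ideal.Quotient.lift I φ fun a ha => by
        by_contra h0
        exact hIne (Ideal.eq_top_of_isUnit_mem I ha (hφ a h0))
      have h0 := eq_zero_of_trace_mul_eq_zero ψ (fun a ha => by
          obtain ⟨a, rfl⟩ := Ideal.Quotient.mk_surjective a
          exact (hφ a ha).map (Ideal.Quotient.mk I))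
        (fun g => (M g).map (Ideal.Quotient.mk I))
        (by rw [← hspan]; congr 1)
        (X := X.map (Ideal.Quotient.mk I)) (fun h => by
          rw [← Matrix.map_mul]
          show ((X * M h).map (Ideal.Quotient.mk I).toAddMonoidHom).trace = 0
          rw [← AddMonoidHom.map_trace]
          exact Ideal.Quotient.eq_zero_iff_mem.mpr (hXI h))
      exact fun i j => Ideal.Quotient.eq_zero_iff_mem.mp (congrFun (congrFun h0 i) j)
    funext q
    rw [hevQ]
    exact hzero e.support _ hX0 q
  · refine ⟨Finsupp.single 1 1, fun q => ?_⟩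
    simp only [evQ, Finsupp.liftAddHom_apply_single]
    show π (goodTheta N _ 1) • act 1 q = q
    rw [map_one (goodTheta N _), map_one π, one_smul, map_one act]
    rfl

/-- The representation of a Hecke datum is flat at `p` when the torsion of `J₀(N)` is. -/
theorem isFlatAt_datum {p N : ℕ} [NeZero N] {S : Finset ℕ}
    {O : Type} [CommRing O] [IsDomain O] [IsDiscreteValuationRing O]
    [IsAdicComplete (IsLocalRing.maximalIdeal O) O] [Finite (IsLocalRing.ResidueField O)]
    {θ : CuspForm.heckeAlgebra N 2 (↑S : Set ℕ) →+* IsLocalRing.ResidueField O}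
    {T : Type} [CommRing T] [IsLocalRing T] [IsNoetherianRing T]
    [IsAdicComplete (IsLocalRing.maximalIdeal T) T] [Algebra O T] [IsLocalHom (algebraMap O T)]
    [Module.Finite O T] [Module.Free O T]
    (hp : p.Prime) (hpO : (p : O) ∈ IsLocalRing.maximalIdeal O)
    (hJ : JacobianInputs N p) (hF : FrobeniusDivisions)
    (hflat : ∀ n, HasFlatModel p (torsAct N (p ^ n)))
    (H : CuspForm.HeckeGaloisRepDatum N (↑S : Set ℕ) O θ T) :
    H.ρ.IsFlatAt p := by
  classical
  have : Fact p.Prime := ⟨hp⟩
  have hres : Finite (IsLocalRing.ResidueField T) := Finite.of_surjective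
    (IsLocalRing.ResidueField.map (algebraMap O T)) fun z => by
      obtain ⟨o, ho⟩ := H.residue_surjective z
      exact ⟨IsLocalRing.residue O o, ho⟩
  refine ⟨hres, fun I hI => ?_⟩
  have hpT : (p : T) ∈ IsLocalRing.maximalIdeal T := by
    rw [← map_natCast (algebraMap O T)]
    exact map_nonunit (algebraMap O T) _ hpO
  obtain ⟨A, c, hlink⟩ := exists_attachedTrace_link hJ hF S.finite_toSet
    (IsLocalRing.maximalIdeal T) hpT H.π
  have : IsArtinianRing (T ⧸ I) := inferInstance
  obtain ⟨k, hk⟩ := IsLocalRing.exists_maximalIdeal_pow_le_of_isArtinianRing_quotient I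
  let V := H.ρ.V
  let b : Module.Basis (Fin 2) T V := Module.finBasisOfFinrankEq T V H.ρ.finrank_eq
  let M : GalQ →* Matrix (Fin 2) (Fin 2) T :=
    (LinearMap.toMatrixAlgEquiv b).toMonoidHom.comp H.ρ.ρ
  let Q : Type := V ⧸ (I • (⊤ : Submodule T V))
  have : Finite Q := Module.finite_of_finite (T ⧸ I)
  let actQ : GalQ →* AddMonoid.End Q :=
    { toFun := fun σ => (H.ρ.levelAction I σ).toAddMonoidHom
      map_one' := by
        refine DFunLike.ext _ _ fun q => ?_
        obtain ⟨v, rfl⟩ := Submodule.mkQ_surjective _ q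
        show Submodule.Quotient.mk (H.ρ.ρ 1 v) = _
        rw [map_one]; rfl
      map_mul' := fun σ τ => by
        refine DFunLike.ext _ _ fun q => ?_
        obtain ⟨v, rfl⟩ := Submodule.mkQ_surjective _ q
        show Submodule.Quotient.mk (H.ρ.ρ (σ * τ) v) = _
        rw [map_mul]; rfl }
  have hQ : HasFlatModel p actQ := by
    refine hasFlatModel_of_attachedTrace hJ hlink hflat M
      (trace_toMatrix_eq_attached hF A H.ρ H.charpoly_frob b) isUnit_of_residueBar_ne_zero
      (span_residueBar_toMatrix_eq_top H.ρ H.residual_absIrr b) hk actQ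
      (fun σ t q => LinearMap.map_smul (H.ρ.levelAction I σ) t q) fun s r hX q => ?_
    obtain ⟨v, rfl⟩ := Submodule.mkQ_surjective _ q
    have hfX : LinearMap.toMatrix b b (∑ g ∈ s, r g • H.ρ.ρ g) = ∑ g ∈ s, r g • M g := by
      simp only [map_sum, map_smul]
      rfl
    have : ∑ g ∈ s, r g • actQ g (Submodule.mkQ _ v) =
        Submodule.mkQ (I • (⊤ : Submodule T V)) ((∑ g ∈ s, r g • H.ρ.ρ g) v) := by
      rw [LinearMap.sum_apply, map_sum]
      rfl
    rw [this]
    refine (Submodule.Quotient.mk_eq_zero _).mpr ?_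
    rw [← b.sum_repr ((∑ g ∈ s, r g • H.ρ.ρ g) v)]
    refine Submodule.sum_mem _ fun i _ => Submodule.smul_mem_smul ?_ Submodule.mem_top
    rw [← LinearMap.toMatrix_mulVec_repr b b _ v, hfX]
    simp only [Matrix.mulVec, dotProduct]
    exact Ideal.sum_mem _ fun j _ => I.mul_mem_right _ (hX i j)
  exact hQ.exists_hopfAlgebra

end FLTAgent.FiniteFlat
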