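import Fermat.Agent.FiniteFlat.JZeroModel
import Fermat.Agent.FiniteFlat.DatumFlat
import Fermat.Agent.FiniteFlat.Points
import Fermat.Agent.HeckeJacobian.KummerMap

/-!
# Finite flat models of the torsion of `J₀(N)`

`hasFlatModel_torsAct` gives flat models of `J₀(N)[m]` at `ℓ ∤ N`, and `exists_model_torsionBy`
repackages them as finite flat Hopf algebras over `ℤ_(ℓ)` with the given group of points.
-/

set_option autoImplicit false

noncomputable section

open ModularCurve GaloisRep FLTAgent.GoodReduction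

namespace FLTAgent.FiniteFlat

open FLTAgent.Density (GalQ Qbar)

variable {ℓ N : ℕ} [Fact ℓ.Prime] [NeZero N] {A : ValuationSubring Qbar}

/-- The `m`-torsion of `J₀(N)` has a finite flat model at a prime `ℓ ∤ N` of good reduction. -/
theorem hasFlatModel_torsAct (hℓN : ¬ ℓ ∣ N) (hA : A.LiesOverPrime ℓ)
    (H : X0GoodReduction A (IsLocalRing.residue A) N) {m : ℕ} (hm : m ≠ 0) :
    HasFlatModel ℓ (torsAct N m) :=
  haveI : Finite (jTors N m) := (HeckeJacobian.finite_torsion_jZero (N := N) hm).to_subtype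
  hasFlatModel_jZero hℓN hA H (torsAct N m) (jTors N m).subtype Subtype.val_injective
    fun _ _ => rfl

/-- The model of `J₀(N)[ℓ^k]` as a finite flat Hopf algebra over `ℤ_(ℓ)`. -/
theorem exists_model_torsionBy (hℓN : ¬ ℓ ∣ N) (hA : A.LiesOverPrime ℓ)
    (H : X0GoodReduction A (IsLocalRing.residue A) N) (k : ℕ) :
    ∃ (R : Type) (_ : CommRing R) (_ : HopfAlgebra (ratLocalizedAt ℓ) R),
      Module.Finite (ratLocalizedAt ℓ) R ∧ Module.Flat (ratLocalizedAt ℓ) R ∧
      Coalgebra.IsCocomm (ratLocalizedAt ℓ) R ∧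
      ∃ e : WithConv (R →ₐ[ratLocalizedAt ℓ] AlgebraicClosure ℚ) ≃
          ↥(Submodule.torsionBy ℤ (JZero N) ((ℓ : ℤ) ^ k)),
        (∀ f g, e (f * g) = e f + e g) ∧
        ∀ (σ : AlgebraicClosure ℚ ≃ₐ[ℚ] AlgebraicClosure ℚ)
          (f g : WithConv (R →ₐ[ratLocalizedAt ℓ] AlgebraicClosure ℚ)),
          (∀ h : R, g h = σ (f h)) → ((e g : JZero N)) = σ • (e f : JZero N) := by
  have hm : ℓ ^ k ≠ 0 := pow_ne_zero k (Fact.out : ℓ.Prime).ne_zero
  have : Finite (jTors N (ℓ ^ k)) :=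
    (HeckeJacobian.finite_torsion_jZero (N := N) hm).to_subtype
  obtain ⟨R, i1, i2, h1, h2, h3, e, hadd, hgal⟩ :=
    (hasFlatModel_torsAct hℓN hA H hm).exists_hopfAlgebra
  have hiff : ∀ x : JZero N, x ∈ Submodule.torsionBy ℤ (JZero N) ((ℓ : ℤ) ^ k) ↔
      x ∈ jTors N (ℓ ^ k) := fun x => by
    rw [Submodule.mem_torsionBy_iff, ← Nat.cast_pow, natCast_zsmul]
    rfl
  refine ⟨R, i1, i2, h1, h2, h3,
    e.trans (Equiv.subtypeEquivRight fun x => (hiff x).symm), ?_, fun σ f g h => ?_⟩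
  · intro f g
    exact Subtype.ext (congrArg Subtype.val (hadd f g))
  · exact congrArg Subtype.val (hgal σ f g h)

end FLTAgent.FiniteFlat
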