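import Fermat.Agent.FiniteFlat.Points
import Mathlib.RingTheory.Adjoin.Basic
import Mathlib.Algebra.Module.Projective

/-!
# Closure properties of modules with a finite flat model: joint embeddings and quotients

`HasFlatModel.of_jointly_injective`: a module embedded into a product of modules with models has
one.  `HasFlatModel.of_surjective`: so does a quotient, by the translation invariant functions.
These are the basic operations used by all consumers of `HasFlatModel`.
-/

set_option autoImplicit false

open scoped TensorProduct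

namespace FLTAgent.FiniteFlat

open GaloisRep IsFlatModel

variable {ℓ : ℕ}

/-- The algebra of equivariant functions with integral values. -/
noncomputable def equivIntegralFun {M : Type} [AddCommGroup M]
    (act : (AlgebraicClosure ℚ ≃ₐ[ℚ] AlgebraicClosure ℚ) →* AddMonoid.End M) :
    Subalgebra (ratLocalizedAt ℓ) (M → AlgebraicClosure ℚ) where
  carrier := {f | (∀ σ x, f (act σ x) = σ (f x)) ∧
    ∀ x, IsIntegral (ratLocalizedAt ℓ) (f x)}
  mul_mem' {f g} hf hg := ⟨fun σ x => by simp [hf.1, hg.1], fun x => (hf.2 x).mul (hg.2 x)⟩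
  one_mem' := ⟨fun σ x => by simp, fun _ => isIntegral_one⟩
  add_mem' {f g} hf hg := ⟨fun σ x => by simp [hf.1, hg.1], fun x => (hf.2 x).add (hg.2 x)⟩
  zero_mem' := ⟨fun σ x => by simp, fun _ => isIntegral_zero⟩
  algebraMap_mem' r := ⟨fun σ x => by
      simp only [Pi.algebraMap_apply, IsScalarTower.algebraMap_apply (ratLocalizedAt ℓ) ℚ
        (AlgebraicClosure ℚ), AlgEquiv.commutes],
    fun _ => isIntegral_algebraMap⟩

/-- A module with a jointly injective family of equivariant maps to modules with flat models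
has a flat model. -/
theorem HasFlatModel.of_jointly_injective {M ι : Type} [AddCommGroup M] {N : ι → Type}
    [∀ i, AddCommGroup (N i)]
    {act : (AlgebraicClosure ℚ ≃ₐ[ℚ] AlgebraicClosure ℚ) →* AddMonoid.End M}
    {actN : ∀ i, (AlgebraicClosure ℚ ≃ₐ[ℚ] AlgebraicClosure ℚ) →* AddMonoid.End (N i)}
    (hN : ∀ i, HasFlatModel ℓ (actN i)) (f : ∀ i, M →+ N i)
    (hf : ∀ i σ x, f i (act σ x) = actN i σ (f i x))
    (hinj : ∀ x y, (∀ i, f i x = f i y) → x = y) : HasFlatModel ℓ act := by
  choose H hH using hN
  let K : Subalgebra (ratLocalizedAt ℓ) (M → AlgebraicClosure ℚ) :=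
    ⨆ i, (H i).map (pullback ℓ (f i))
  have hK : ∀ i, (H i).map (pullback ℓ (f i)) ≤ K := fun i =>
    le_iSup (fun i => (H i).map (pullback ℓ (f i))) i
  have hKE : K ≤ equivIntegralFun act := by
    refine iSup_le fun i => Subalgebra.map_le.mpr fun g hg => ?_
    exact ⟨fun σ x => by
      show g (f i (act σ x)) = σ (g (f i x))
      rw [hf, (hH i).equivariant g hg], fun x => (hH i).integral g hg _⟩
  refine ⟨K, fun g hg => (hKE hg).1, fun g hg => (hKE hg).2, fun x y hxy => hinj x y fun i => ?_,
    fun g hg => ?_⟩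
  · exact (hH i).separates _ _ fun g hg => hxy _ (hK i ⟨g, hg, rfl⟩)
  · let T := K.map (pullback ℓ (Prod.fst : M × M → M)) ⊔ K.map (pullback ℓ (Prod.snd : M × M → M))
    suffices K ≤ T.comap (pullback ℓ (fun p : M × M => p.1 + p.2)) from this hg
    refine iSup_le fun i => Subalgebra.map_le.mpr fun u hu => ?_
    let g2 : M × M → N i × N i := fun p => (f i p.1, f i p.2)
    have h1 : pullback ℓ (fun p : M × M => p.1 + p.2) (pullback ℓ (f i) u) =
        pullback ℓ g2 (pullback ℓ (fun p : N i × N i => p.1 + p.2) u) :=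
      funext fun p => by simp [g2]
    show pullback ℓ (fun p : M × M => p.1 + p.2) (pullback ℓ (f i) u) ∈ T
    rw [h1]
    suffices (H i).map (pullback ℓ (Prod.fst : N i × N i → N i)) ⊔
        (H i).map (pullback ℓ (Prod.snd : N i × N i → N i)) ≤ T.comap (pullback ℓ g2) from
      this ((hH i).add_mem u hu)
    refine sup_le (Subalgebra.map_le.mpr fun v hv => ?_) (Subalgebra.map_le.mpr fun v hv => ?_)
    · exact (le_sup_left : _ ≤ T) ⟨pullback ℓ (f i) v, hK i ⟨v, hv, rfl⟩, rfl⟩
    · exact (le_sup_right : _ ≤ T) ⟨pullback ℓ (f i) v, hK i ⟨v, hv, rfl⟩, rfl⟩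

namespace IsFlatModel

variable {M : Type} [AddCommGroup M] [Finite M]
variable {act : (AlgebraicClosure ℚ ≃ₐ[ℚ] AlgebraicClosure ℚ) →* AddMonoid.End M}
variable {H : Subalgebra (ratLocalizedAt ℓ) (M → AlgebraicClosure ℚ)}

/-- The functions of a flat model span all functions over `ℚ̄`. -/
lemma span_eq_top (h : IsFlatModel ℓ act H) :
    Submodule.span (AlgebraicClosure ℚ) (H : Set (M → AlgebraicClosure ℚ)) = ⊤ := by
  classical
  have := Fintype.ofFinite M
  have hadj : Submodule.span (AlgebraicClosure ℚ) (H : Set (M → AlgebraicClosure ℚ)) =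
      Subalgebra.toSubmodule (Algebra.adjoin (AlgebraicClosure ℚ) (H : Set _)) := by
    rw [Algebra.adjoin_eq_span]
    exact (congrArg (fun m : Submonoid (M → AlgebraicClosure ℚ) =>
      Submodule.span (AlgebraicClosure ℚ) (m : Set (M → AlgebraicClosure ℚ)))
      (Submonoid.closure_eq H.toSubsemiring.toSubmonoid)).symm
  rw [hadj, Algebra.toSubmodule_eq_top]
  set S := Algebra.adjoin (AlgebraicClosure ℚ) (H : Set (M → AlgebraicClosure ℚ))
  rw [_root_.eq_top_iff]
  intro g _
  have hsingle : ∀ x : M, (Pi.single x 1 : M → AlgebraicClosure ℚ) ∈ S := by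
    intro x
    have hfac : ∀ y, ∃ u ∈ S, u x = 1 ∧ (y ≠ x → u y = 0) := by
      intro y
      by_cases hy : y = x
      · exact ⟨1, one_mem S, rfl, fun hne => absurd hy hne⟩
      · have hex : ∃ f ∈ H, f x ≠ f y := by
          by_contra hc
          push Not at hc
          exact hy (h.separates x y hc).symm
        obtain ⟨f, hf, hne⟩ := hex
        refine ⟨algebraMap (AlgebraicClosure ℚ) _ (f x - f y)⁻¹ *
          (f - algebraMap (AlgebraicClosure ℚ) _ (f y)),
          mul_mem (S.algebraMap_mem _) (sub_mem (Algebra.subset_adjoin hf) (S.algebraMap_mem _)),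
          ?_, fun _ => ?_⟩
        · simp [inv_mul_cancel₀ (sub_ne_zero.mpr hne)]
        · simp
    choose u huS hux huy using hfac
    have : (Pi.single x 1 : M → AlgebraicClosure ℚ) = ∏ y, u y := by
      funext z
      rw [Finset.prod_apply]
      by_cases hz : z = x
      · subst hz
        rw [Pi.single_eq_same, Finset.prod_eq_one fun y _ => hux y]
      · rw [Pi.single_eq_of_ne hz]
        exact (Finset.prod_eq_zero (f := fun y => u y z) (Finset.mem_univ z) (huy z hz)).symm
    rw [this]
    exact prod_mem fun y _ => huS y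
  rw [show g = ∑ x, algebraMap (AlgebraicClosure ℚ) _ (g x) * Pi.single x 1 from funext fun z => by
    simp [Finset.sum_apply, Pi.single_apply]]
  exact sum_mem fun x _ => mul_mem (S.algebraMap_mem _) (hsingle x)

/-- Summing translates over a Galois stable subset stays in the model. -/
lemma sum_translate_mem (h : IsFlatModel ℓ act H) (K : Finset M)
    (hK : ∀ σ, ∀ k ∈ K, act σ k ∈ K) (f : H) :
    (fun x => ∑ k ∈ K, f.1 (x + k)) ∈ H := by
  classical
  have hbij : ∀ (σ) (g : M → AlgebraicClosure ℚ), ∑ k ∈ K, g (act σ k) = ∑ k ∈ K, g k := by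
    intro σ g
    have hinj : Function.Injective (act σ) :=
      Finite.injective_iff_surjective.mpr (act_surjective σ)
    rw [← Finset.sum_image (f := g) (fun a _ b _ e => hinj e)]
    congr 1
    refine Finset.eq_of_subset_of_card_le (Finset.image_subset_iff.mpr (hK σ)) ?_
    rw [Finset.card_image_of_injective K hinj]
  have key : ∀ t : H ⊗[ratLocalizedAt ℓ] H, (fun x => ∑ k ∈ K, mulMap H t (x, k)) ∈ H := by
    intro t
    induction t using TensorProduct.induction_on with
    | zero =>
      rw [show (fun x => ∑ k ∈ K, mulMap H 0 (x, k)) = 0 from funext fun x => by simp]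
      exact H.zero_mem
    | tmul a b =>
      obtain ⟨r, hr⟩ := exists_algebraMap_eq_of_fixed (ℓ := ℓ) (x := ∑ k ∈ K, b.1 k)
        (fun σ => by
          rw [map_sum]
          simp only [← h.equivariant b.1 b.2 σ]
          exact hbij σ b.1)
        (IsIntegral.sum _ fun k _ => h.integral b.1 b.2 k)
      rw [show (fun x => ∑ k ∈ K, mulMap H (a ⊗ₜ b) (x, k)) =
          a.1 * algebraMap (ratLocalizedAt ℓ) _ r from funext fun x => by
        simp [← Finset.mul_sum, hr]]
      exact H.mul_mem a.2 (H.algebraMap_mem r)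
    | add u v hu hv =>
      rw [show (fun x => ∑ k ∈ K, mulMap H (u + v) (x, k)) =
          (fun x => ∑ k ∈ K, mulMap H u (x, k)) + fun x => ∑ k ∈ K, mulMap H v (x, k) from
        funext fun x => by simp [Finset.sum_add_distrib]]
      exact H.add_mem hu hv
  convert key (h.comulHom f) using 1
  funext x
  simp [h.mulMap_comulHom]

end IsFlatModel

section Quotient

variable {M N : Type} [AddCommGroup M] [AddCommGroup N] {π : M →+ N} {K : Finset M}
variable {act : (AlgebraicClosure ℚ ≃ₐ[ℚ] AlgebraicClosure ℚ) →* AddMonoid.End M}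
variable {H : Subalgebra (ratLocalizedAt ℓ) (M → AlgebraicClosure ℚ)}

/-- Sums over the kernel depend only on the class. -/
private lemma sum_add_ker_congr (hK0 : ∀ k, k ∈ K ↔ π k = 0) (g : M → AlgebraicClosure ℚ)
    (x y : M) (hxy : π x = π y) : ∑ k ∈ K, g (x + k) = ∑ k ∈ K, g (y + k) := by
  refine Finset.sum_nbij' (fun k => k + (x - y)) (fun k => k + (y - x)) ?_ ?_ ?_ ?_ ?_ <;>
    intros <;> simp_all <;> try abel_nf

/-- An invariant function of the model comes from the quotient. -/
private lemma exists_mem_comap_of_invariant (hsurj : Function.Surjective π) (f : H)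
    (hf : ∀ x y, π x = π y → f.1 x = f.1 y) :
    ∃ g ∈ H.comap (pullback ℓ π), pullback ℓ π g = f.1 := by
  refine ⟨fun n => f.1 (Function.surjInv hsurj n), ?_, ?_⟩
  · show pullback ℓ π _ ∈ H
    rw [show pullback ℓ π (fun n => f.1 (Function.surjInv hsurj n)) = f.1 from
      funext fun x => hf _ _ (Function.surjInv_eq hsurj (π x))]
    exact f.2
  · exact funext fun x => hf _ _ (Function.surjInv_eq hsurj (π x))

variable [Finite M]

/-- The functions coming from the quotient separate its points. -/
private lemma eq_of_forall_comap_eq (h : IsFlatModel ℓ act H)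
    (hK : ∀ σ, ∀ k ∈ K, act σ k ∈ K) (hK0 : ∀ k, k ∈ K ↔ π k = 0)
    (hsurj : Function.Surjective π) {x x' : M}
    (hnn' : ∀ g ∈ H.comap (pullback ℓ π), g (π x) = g (π x')) : π x = π x' := by
  classical
  by_contra hne
  let S : (M → AlgebraicClosure ℚ) →ₗ[AlgebraicClosure ℚ] AlgebraicClosure ℚ :=
    { toFun := fun u => ∑ k ∈ K, u (x + k) - ∑ k ∈ K, u (x' + k)
      map_add' := fun u v => by simp [Finset.sum_add_distrib]; ring
      map_smul' := fun c u => by simp [Finset.mul_sum, mul_sub] }
  have hS : ∀ u ∈ Submodule.span (AlgebraicClosure ℚ) (H : Set (M → AlgebraicClosure ℚ)),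
      S u = 0 := by
    intro u hu
    induction hu using Submodule.span_induction with
    | mem f hf =>
      obtain ⟨g, hg, hgu⟩ := exists_mem_comap_of_invariant hsurj
        ⟨_, h.sum_translate_mem K hK ⟨f, hf⟩⟩ (fun a b hab => sum_add_ker_congr hK0 f a b hab)
      have := hnn' g hg
      show ∑ k ∈ K, f (x + k) - ∑ k ∈ K, f (x' + k) = 0
      rw [sub_eq_zero]
      exact ((congrFun hgu x).symm.trans this).trans (congrFun hgu x')
    | zero => simp
    | add a b _ _ ha hb => rw [map_add, ha, hb, add_zero]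
    | smul c a _ ha => rw [map_smul, ha, smul_zero]
  have h1 := hS (Pi.single x 1) (by rw [h.span_eq_top]; exact Submodule.mem_top)
  have hA : ∑ k ∈ K, (Pi.single x 1 : M → AlgebraicClosure ℚ) (x + k) = 1 := by
    rw [Finset.sum_eq_single 0 (fun k _ hk => Pi.single_eq_of_ne (by simpa using hk) _)
      (fun hc => absurd (by simp [hK0]) hc), add_zero, Pi.single_eq_same]
  have hB : ∑ k ∈ K, (Pi.single x 1 : M → AlgebraicClosure ℚ) (x' + k) = 0 := by
    refine Finset.sum_eq_zero fun k hk => Pi.single_eq_of_ne (fun e => hne ?_) _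
    rw [hK0] at hk
    rw [← e, map_add, hk, add_zero]
  exact one_ne_zero ((sub_zero (1 : AlgebraicClosure ℚ)).symm.trans (hA ▸ hB ▸ h1))

/-- A projection of the model onto the invariant functions. -/
private lemma exists_projection (h : IsFlatModel ℓ act H) :
    ∃ p : H →ₗ[ratLocalizedAt ℓ] H, (∀ a : H, ∀ x y, π x = π y → (p a).1 x = (p a).1 y) ∧
      ∀ a : H, (∀ x y, π x = π y → a.1 x = a.1 y) → p a = a := by
  obtain ⟨_, _⟩ := h.finite_and_free
  let W : Submodule (ratLocalizedAt ℓ) H :=
    { carrier := {f | ∀ x y, π x = π y → f.1 x = f.1 y}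
      add_mem' := fun {a b} ha hb x y hxy => by simp [ha x y hxy, hb x y hxy]
      zero_mem' := fun x y _ => rfl
      smul_mem' := fun r a ha x y hxy => by simp [ha x y hxy] }
  have : Module.IsTorsionFree (ratLocalizedAt ℓ) (H ⧸ W) := by
    refine Module.IsTorsionFree.of_smul_eq_zero fun r q hrq => ?_
    induction q using Submodule.Quotient.induction_on with
    | _ a =>
      rw [← Submodule.Quotient.mk_smul, Submodule.Quotient.mk_eq_zero] at hrq
      refine or_iff_not_imp_left.mpr fun hr =>
        (Submodule.Quotient.mk_eq_zero _).mpr fun x y hxy => ?_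
      have := hrq x y hxy
      simp only [Algebra.smul_def] at this
      exact mul_left_cancel₀ ((map_ne_zero_iff _ (algebraMap_qbar_injective ℓ)).mpr hr) this
  have : Module.Free (ratLocalizedAt ℓ) (H ⧸ W) := Module.free_of_finite_type_torsion_free'
  obtain ⟨s, hs⟩ := Module.projective_lifting_property W.mkQ
      (LinearMap.id (R := ratLocalizedAt ℓ))
    (Submodule.mkQ_surjective W)
  let p : H →ₗ[ratLocalizedAt ℓ] H := LinearMap.id - s.comp W.mkQ
  have hpW : ∀ a, p a ∈ W := fun a => by
    rw [← Submodule.Quotient.mk_eq_zero W]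
    show W.mkQ (a - s (W.mkQ a)) = 0
    rw [map_sub, show W.mkQ (s (W.mkQ a)) = W.mkQ a from LinearMap.congr_fun hs (W.mkQ a),
      sub_self]
  have hpid : ∀ a ∈ W, p a = a := fun a ha => by
    show a - s (W.mkQ a) = a
    rw [show W.mkQ a = 0 from (Submodule.Quotient.mk_eq_zero W).mpr ha, map_zero, sub_zero]
  exact ⟨p, hpW, hpid⟩

/-- A linear endomorphism of the model extends to all functions. -/
private lemma exists_linear_extension (h : IsFlatModel ℓ act H)
    (p : H →ₗ[ratLocalizedAt ℓ] H) :
    ∃ Φ : (M → AlgebraicClosure ℚ) →ₗ[AlgebraicClosure ℚ] (M → AlgebraicClosure ℚ),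
      ∀ a : H, Φ a.1 = (p a).1 := by
  obtain ⟨_, _⟩ := h.finite_and_free
  let b := Module.Free.chooseBasis (ratLocalizedAt ℓ) H
  have hli := h.linearIndependent_basis b
  have hsp : ⊤ ≤ Submodule.span (AlgebraicClosure ℚ)
      (Set.range fun i => (b i : M → AlgebraicClosure ℚ)) := by
    rw [← h.span_eq_top, Submodule.span_le]
    intro f hf
    have h2 := congrArg Subtype.val (b.sum_repr ⟨f, hf⟩)
    simp only [AddSubmonoidClass.coe_finsetSum, Subalgebra.coe_smul] at h2
    rw [SetLike.mem_coe, ← h2]
    refine Submodule.sum_mem _ fun i _ => ?_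
    rw [← algebraMap_smul (AlgebraicClosure ℚ)]
    exact Submodule.smul_mem _ _ (Submodule.subset_span (Set.mem_range_self i))
  let bQ := Module.Basis.mk hli hsp
  let Φ := bQ.constr (AlgebraicClosure ℚ) fun i => (p (b i) : M → AlgebraicClosure ℚ)
  refine ⟨Φ, fun a => ?_⟩
  have h3 : (a.1 : M → AlgebraicClosure ℚ) =
      ∑ i, algebraMap (ratLocalizedAt ℓ) (AlgebraicClosure ℚ) (b.repr a i) • bQ i := by
    have h2 := congrArg Subtype.val (b.sum_repr a)
    simp only [AddSubmonoidClass.coe_finsetSum, Subalgebra.coe_smul] at h2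
    rw [← h2]
    refine Finset.sum_congr rfl fun i _ => ?_
    simp [bQ, algebraMap_smul, Module.Basis.mk_apply]
  have h4 : p a = ∑ i, b.repr a i • p (b i) := by
    conv_lhs => rw [← b.sum_repr a]
    rw [map_sum]
    simp only [map_smul]
  rw [h4, AddSubmonoidClass.coe_finsetSum]
  conv_lhs => rw [h3]
  simp [map_sum, Φ, algebraMap_smul]

/-- An extension of a projection onto the invariant functions fixes all invariant functions. -/
private lemma extension_apply_of_invariant (h : IsFlatModel ℓ act H)
    (hK : ∀ σ, ∀ k ∈ K, act σ k ∈ K) (hK0 : ∀ k, k ∈ K ↔ π k = 0)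
    {p : H →ₗ[ratLocalizedAt ℓ] H}
    (hpid : ∀ a : H, (∀ x y, π x = π y → a.1 x = a.1 y) → p a = a)
    {Φ : (M → AlgebraicClosure ℚ) →ₗ[AlgebraicClosure ℚ] (M → AlgebraicClosure ℚ)}
    (hΦ : ∀ a : H, Φ a.1 = (p a).1) {u : M → AlgebraicClosure ℚ}
    (hu : ∀ x y, π x = π y → u x = u y) : Φ u = u := by
  let Ssum : (M → AlgebraicClosure ℚ) →ₗ[AlgebraicClosure ℚ] (M → AlgebraicClosure ℚ) :=
    { toFun := fun u x => ∑ k ∈ K, u (x + k)
      map_add' := fun u v => funext fun x => by simp [Finset.sum_add_distrib]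
      map_smul' := fun c u => funext fun x => by simp [Finset.mul_sum] }
  have hΦS : ∀ u, Φ (Ssum u) = Ssum u := by
    intro u
    have hu : u ∈ Submodule.span (AlgebraicClosure ℚ) (H : Set (M → AlgebraicClosure ℚ)) := by
      rw [h.span_eq_top]; exact Submodule.mem_top
    induction hu using Submodule.span_induction with
    | mem f hf =>
      have hmem := h.sum_translate_mem K hK ⟨f, hf⟩
      have := hΦ ⟨_, hmem⟩
      rw [hpid _ (fun x y hxy => sum_add_ker_congr hK0 f x y hxy)] at this
      exact this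
    | zero => simp
    | add a c _ _ ha hc => simp [map_add, ha, hc]
    | smul c a _ ha => simp [map_smul, ha]
  have hcard : (K.card : AlgebraicClosure ℚ) ≠ 0 :=
    Nat.cast_ne_zero.mpr (Finset.card_ne_zero.mpr ⟨0, by simp [hK0]⟩)
  have hSu : Ssum u = (K.card : AlgebraicClosure ℚ) • u := funext fun x => by
    show ∑ k ∈ K, u (x + k) = _
    rw [Finset.sum_congr rfl fun k hk => hu (x + k) x (by
      rw [hK0] at hk
      rw [map_add, hk, add_zero])]
    simp
  have := hΦS u
  rw [hSu, map_smul] at this
  exact smul_right_injective _ hcard this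

omit [AddCommGroup M] [Finite M] in
/-- Applying `p` in the second factor is applying its extension in the second variable. -/
private lemma mulMap_map_right {p : H →ₗ[ratLocalizedAt ℓ] H}
    {Φ : (M → AlgebraicClosure ℚ) →ₗ[AlgebraicClosure ℚ] (M → AlgebraicClosure ℚ)}
    (hΦ : ∀ a : H, Φ a.1 = (p a).1) (u : H ⊗[ratLocalizedAt ℓ] H) (x y : M) :
    mulMap H (TensorProduct.map LinearMap.id p u) (x, y) =
      Φ (fun y' => mulMap H u (x, y')) y := by
  induction u using TensorProduct.induction_on with
  | zero => simp [show (fun _ : M => (0 : AlgebraicClosure ℚ)) = 0 from rfl]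
  | tmul a c =>
    rw [show (fun y' => mulMap H (a ⊗ₜ c) (x, y')) = a.1 x • c.1 from
      funext fun y' => by simp, map_smul, hΦ]
    simp
  | add u v hu hv =>
    rw [map_add, map_add, Pi.add_apply, hu, hv,
      show (fun y' => mulMap H (u + v) (x, y')) =
        (fun y' => mulMap H u (x, y')) + fun y' => mulMap H v (x, y') from
      funext fun y' => by simp, map_add, Pi.add_apply]

omit [AddCommGroup M] [Finite M] in
/-- Applying `p` in the first factor is applying its extension in the first variable. -/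
private lemma mulMap_map_left {p : H →ₗ[ratLocalizedAt ℓ] H}
    {Φ : (M → AlgebraicClosure ℚ) →ₗ[AlgebraicClosure ℚ] (M → AlgebraicClosure ℚ)}
    (hΦ : ∀ a : H, Φ a.1 = (p a).1) (u : H ⊗[ratLocalizedAt ℓ] H) (x y : M) :
    mulMap H (TensorProduct.map p LinearMap.id u) (x, y) =
      Φ (fun x' => mulMap H u (x', y)) x := by
  induction u using TensorProduct.induction_on with
  | zero => simp [show (fun _ : M => (0 : AlgebraicClosure ℚ)) = 0 from rfl]
  | tmul a c =>
    rw [show (fun x' => mulMap H (a ⊗ₜ c) (x', y)) = c.1 y • a.1 from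
      funext fun x' => by simp [mul_comm], map_smul, hΦ]
    simp [mul_comm]
  | add u v hu hv =>
    rw [map_add, map_add, Pi.add_apply, hu, hv,
      show (fun x' => mulMap H (u + v) (x', y)) =
        (fun x' => mulMap H u (x', y)) + fun x' => mulMap H v (x', y) from
      funext fun x' => by simp, map_add, Pi.add_apply]

omit [Finite M] in
/-- The comultiplication of a model restricts to the functions coming from the quotient. -/
private lemma exists_mem_pullback_sup (hsurj : Function.Surjective π)
    {p : H →ₗ[ratLocalizedAt ℓ] H} (hpW : ∀ a : H, ∀ x y, π x = π y → (p a).1 x = (p a).1 y)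
    (u : H ⊗[ratLocalizedAt ℓ] H) :
    ∃ v ∈ (H.comap (pullback ℓ π)).map (pullback ℓ (Prod.fst : N × N → N)) ⊔
        (H.comap (pullback ℓ π)).map (pullback ℓ (Prod.snd : N × N → N)),
      ∀ x y, v (π x, π y) = mulMap H (TensorProduct.map p p u) (x, y) := by
  set T := (H.comap (pullback ℓ π)).map (pullback ℓ (Prod.fst : N × N → N)) ⊔
    (H.comap (pullback ℓ π)).map (pullback ℓ (Prod.snd : N × N → N))
  induction u using TensorProduct.induction_on with
  | zero => exact ⟨0, T.zero_mem, fun x y => by simp⟩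
  | tmul a c =>
    obtain ⟨a', ha', hae⟩ := exists_mem_comap_of_invariant hsurj (p a) (hpW a)
    obtain ⟨c', hc', hce⟩ := exists_mem_comap_of_invariant hsurj (p c) (hpW c)
    refine ⟨pullback ℓ Prod.fst a' * pullback ℓ Prod.snd c',
      T.mul_mem ((le_sup_left : _ ≤ T) ⟨a', ha', rfl⟩)
        ((le_sup_right : _ ≤ T) ⟨c', hc', rfl⟩), fun x y => ?_⟩
    rw [TensorProduct.map_tmul, mulMap_tmul, ← hae, ← hce]
    rfl
  | add u v hu hv =>
    obtain ⟨u', hu', hue⟩ := hu
    obtain ⟨v', hv', hve⟩ := hv
    exact ⟨u' + v', T.add_mem hu' hv', fun x y => by simp [map_add, hue, hve]⟩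

end Quotient

/-- A Galois equivariant quotient of a module with a flat model has a flat model. -/
theorem HasFlatModel.of_surjective {M N : Type} [AddCommGroup M] [Finite M] [AddCommGroup N]
    {act : (AlgebraicClosure ℚ ≃ₐ[ℚ] AlgebraicClosure ℚ) →* AddMonoid.End M}
    {actN : (AlgebraicClosure ℚ ≃ₐ[ℚ] AlgebraicClosure ℚ) →* AddMonoid.End N}
    (hM : HasFlatModel ℓ act) (π : M →+ N) (hπ : ∀ σ x, π (act σ x) = actN σ (π x))
    (hsurj : Function.Surjective π) : HasFlatModel ℓ actN := by
  classical
  obtain ⟨H, h⟩ := hM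
  have := Fintype.ofFinite M
  let K : Finset M := Finset.univ.filter fun k => π k = 0
  have hK0 : ∀ k, k ∈ K ↔ π k = 0 := fun k => by simp [K]
  have hK : ∀ σ, ∀ k ∈ K, act σ k ∈ K := fun σ k hk => by
    rw [hK0] at hk ⊢
    rw [hπ, hk, map_zero (actN σ)]
  refine ⟨H.comap (pullback ℓ π), fun g hg σ n => ?_, fun g hg n => ?_, fun n n' hnn' => ?_,
    fun g hg => ?_⟩
  · obtain ⟨x, rfl⟩ := hsurj n
    rw [← hπ]
    exact h.equivariant _ hg σ x
  · obtain ⟨x, rfl⟩ := hsurj n
    exact h.integral _ hg x
  · obtain ⟨x, rfl⟩ := hsurj n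
    obtain ⟨x', rfl⟩ := hsurj n'
    exact eq_of_forall_comap_eq h hK hK0 hsurj hnn'
  · -- project the comultiplication onto the invariant functions
    obtain ⟨p, hpW, hpid⟩ := exists_projection (π := π) h
    obtain ⟨Φ, hΦ⟩ := exists_linear_extension h p
    set t := h.comulHom ⟨pullback ℓ π g, hg⟩ with ht_def
    have htv : ∀ x y, mulMap H t (x, y) = g (π x + π y) := fun x y => by
      rw [ht_def, h.mulMap_comulHom]
      simp
    have hright : TensorProduct.map LinearMap.id p t = t := by
      apply h.mulMap_injective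
      funext ⟨x, y⟩
      rw [mulMap_map_right hΦ, extension_apply_of_invariant h hK hK0 hpid hΦ
        fun a c hac => by rw [htv, htv, hac]]
    have hleft : TensorProduct.map p LinearMap.id t = t := by
      apply h.mulMap_injective
      funext ⟨x, y⟩
      rw [mulMap_map_left hΦ, extension_apply_of_invariant h hK hK0 hpid hΦ
        fun a c hac => by rw [htv, htv, hac]]
    have htt : TensorProduct.map p p t = t := by
      rw [show TensorProduct.map p p =
          (TensorProduct.map p (LinearMap.id (R := ratLocalizedAt ℓ) (M := H))).comp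
            (TensorProduct.map LinearMap.id p) by
        rw [← TensorProduct.map_comp, LinearMap.comp_id, LinearMap.id_comp],
        LinearMap.comp_apply, hright, hleft]
    obtain ⟨v, hv, hve⟩ := exists_mem_pullback_sup hsurj hpW t
    convert hv using 1
    funext z
    obtain ⟨n, n'⟩ := z
    obtain ⟨x, rfl⟩ := hsurj n
    obtain ⟨y, rfl⟩ := hsurj n'
    rw [hve, htt, htv]
    simp

end FLTAgent.FiniteFlat
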