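import Fermat.Agent.FiniteFlat.Independence
import Mathlib.RingTheory.DedekindDomain.IntegralClosure
import Mathlib.RingTheory.HopfAlgebra.Basic
import Mathlib.RingTheory.Bialgebra.Convolution
import Mathlib.RingTheory.Flat.Basic

/-!
# Finite flat models of finite Galois modules as rings of functions

`IsFlatModel ℓ act H` says that the algebra `H` of functions on the module is a model over
`ℤ_(ℓ)`, and `HasFlatModel` that one exists.  Such an algebra is finite free, and translation,
negation and Galois equivariance make it a Hopf algebra (`bialgebra`, `hopfAlgebra`).  This is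
the notion of flatness used by the modularity lifting files.
-/

set_option autoImplicit false

open scoped TensorProduct

namespace FLTAgent.FiniteFlat

open GaloisRep

variable (ℓ : ℕ) {M : Type} [AddCommGroup M]

/-- Pullback of `ℚ̄`-valued functions. -/
def pullback {X Y : Type} (g : X → Y) :
    (Y → AlgebraicClosure ℚ) →ₐ[ratLocalizedAt ℓ] (X → AlgebraicClosure ℚ) where
  toFun f := f ∘ g
  map_one' := rfl
  map_mul' _ _ := rfl
  map_zero' := rfl
  map_add' _ _ := rfl
  commutes' _ := rfl

@[simp] lemma pullback_apply {X Y : Type} (g : X → Y) (f : Y → AlgebraicClosure ℚ) (x : X) :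
    pullback ℓ g f x = f (g x) := rfl

/-- A ring of functions on `M` which is an order stable under the group law. -/
structure IsFlatModel
    (act : (AlgebraicClosure ℚ ≃ₐ[ℚ] AlgebraicClosure ℚ) →* AddMonoid.End M)
    (H : Subalgebra (ratLocalizedAt ℓ) (M → AlgebraicClosure ℚ)) : Prop where
  equivariant : ∀ f ∈ H, ∀ σ x, f (act σ x) = σ (f x)
  integral : ∀ f ∈ H, ∀ x, IsIntegral (ratLocalizedAt ℓ) (f x)
  separates : ∀ x y : M, (∀ f ∈ H, f x = f y) → x = y
  add_mem : ∀ f ∈ H, pullback ℓ (fun p : M × M => p.1 + p.2) f ∈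
    H.map (pullback ℓ (Prod.fst : M × M → M)) ⊔ H.map (pullback ℓ (Prod.snd : M × M → M))

/-- `M` has a finite flat model over `ℤ_(ℓ)`. -/
def HasFlatModel (act : (AlgebraicClosure ℚ ≃ₐ[ℚ] AlgebraicClosure ℚ) →* AddMonoid.End M) :
    Prop :=
  ∃ H : Subalgebra (ratLocalizedAt ℓ) (M → AlgebraicClosure ℚ), IsFlatModel ℓ act H

namespace IsFlatModel

variable {ℓ}
variable {act : (AlgebraicClosure ℚ ≃ₐ[ℚ] AlgebraicClosure ℚ) →* AddMonoid.End M}
variable {H : Subalgebra (ratLocalizedAt ℓ) (M → AlgebraicClosure ℚ)}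

lemma act_surjective (σ : AlgebraicClosure ℚ ≃ₐ[ℚ] AlgebraicClosure ℚ) :
    Function.Surjective (act σ) := fun x =>
  ⟨act σ⁻¹ x, by
    have h := DFunLike.congr_fun (map_mul act σ σ⁻¹) x
    rw [mul_inv_cancel, map_one] at h
    exact h.symm⟩

variable [Finite M]

lemma exists_valueField (h : IsFlatModel ℓ act H) :
    ∃ L : IntermediateField ℚ (AlgebraicClosure ℚ), FiniteDimensional ℚ L ∧
      (∀ σ : AlgebraicClosure ℚ ≃ₐ[ℚ] AlgebraicClosure ℚ, (∀ z ∈ L, σ z = z) → act σ = 1) ∧
      ∀ f ∈ H, ∀ x, f x ∈ L := by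
  classical
  have : IsGalois ℚ (AlgebraicClosure ℚ) := by
    have : IsAlgClosure ℚ (AlgebraicClosure ℚ) :=
      ⟨inferInstance, AlgebraicClosure.isAlgebraic ℚ⟩
    exact IsAlgClosure.isGalois ℚ (AlgebraicClosure ℚ)
  have hsep : ∀ p : M × M, ∃ f ∈ H, p.1 ≠ p.2 → f p.1 ≠ f p.2 := by
    intro p
    by_cases hp : p.1 = p.2
    · exact ⟨0, H.zero_mem, fun hne => absurd hp hne⟩
    · by_contra hne
      push Not at hne
      exact hp (h.separates _ _ fun f hf => (hne f hf).2)
  choose f hf hfp using hsep
  let T : Set (AlgebraicClosure ℚ) := Set.range fun q : (M × M) × M => f q.1 q.2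
  let L := IntermediateField.adjoin ℚ T
  have : FiniteDimensional ℚ L :=
    IntermediateField.finiteDimensional_adjoin (fun x _ => Algebra.IsIntegral.isIntegral x)
  have hone : ∀ σ : AlgebraicClosure ℚ ≃ₐ[ℚ] AlgebraicClosure ℚ,
      (∀ z ∈ L, σ z = z) → act σ = 1 := by
    intro σ hσ
    refine AddMonoidHom.ext fun x => ?_
    show act σ x = x
    by_contra hne
    refine hfp (act σ x, x) hne ?_
    simp only
    rw [h.equivariant _ (hf _) σ x]
    exact hσ _ (IntermediateField.subset_adjoin _ _ ⟨⟨_, x⟩, rfl⟩)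
  refine ⟨L, inferInstance, hone, fun g hg x => ?_⟩
  rw [← InfiniteGalois.fixedField_fixingSubgroup L]
  intro σ
  have h1 := hone (σ : AlgebraicClosure ℚ ≃ₐ[ℚ] AlgebraicClosure ℚ)
    ((IntermediateField.mem_fixingSubgroup_iff L _).mp σ.2)
  have h2 := h.equivariant g hg (σ : AlgebraicClosure ℚ ≃ₐ[ℚ] AlgebraicClosure ℚ) x
  rw [h1] at h2
  exact h2.symm

lemma finite_and_free (h : IsFlatModel ℓ act H) :
    Module.Finite (ratLocalizedAt ℓ) H ∧ Module.Free (ratLocalizedAt ℓ) H := by
  obtain ⟨L, hL, -, hval⟩ := h.exists_valueField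
  have := hL
  let C := integralClosure (ratLocalizedAt ℓ) L
  have : Module.Finite (ratLocalizedAt ℓ) C :=
    IsIntegralClosure.finite (ratLocalizedAt ℓ) ℚ L C
  have : IsScalarTower (ratLocalizedAt ℓ) L (AlgebraicClosure ℚ) :=
    IsScalarTower.of_algebraMap_eq fun _ => rfl
  let g : H →ₗ[ratLocalizedAt ℓ] (M → C) :=
    { toFun := fun f x => ⟨⟨f.1 x, hval f.1 f.2 x⟩,
        (isIntegral_algHom_iff ((IsScalarTower.toAlgHom (ratLocalizedAt ℓ) L (AlgebraicClosure ℚ)))
          (algebraMap L (AlgebraicClosure ℚ)).injective).mp (h.integral f.1 f.2 x)⟩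
      map_add' := fun _ _ => rfl
      map_smul' := fun _ _ => rfl }
  have hg : Function.Injective g := fun a b hab => Subtype.ext <| funext fun x =>
    congrArg (fun z : C => ((z : L) : AlgebraicClosure ℚ)) (congrFun hab x)
  have : Module.Finite (ratLocalizedAt ℓ) H := Module.Finite.of_injective g hg
  have : Module.IsTorsionFree (ratLocalizedAt ℓ) (M → AlgebraicClosure ℚ) := inferInstance
  have : Module.IsTorsionFree (ratLocalizedAt ℓ) H :=
    Function.Injective.moduleIsTorsionFree H.val Subtype.val_injective fun _ _ => rfl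
  exact ⟨inferInstance, Module.free_of_finite_type_torsion_free'⟩

omit [Finite M] in
lemma linearIndependent_basis (h : IsFlatModel ℓ act H) {ι : Type}
    (b : Module.Basis ι (ratLocalizedAt ℓ) H) :
    LinearIndependent (AlgebraicClosure ℚ) (fun i => (b i : M → AlgebraicClosure ℚ)) :=
  linearIndependent_qbar_of_equivariant (act := fun σ x => act σ x) act_surjective
    (fun i σ x => h.equivariant _ (b i).2 σ x)
    (b.linearIndependent.map' H.val.toLinearMap (LinearMap.ker_eq_bot.mpr Subtype.val_injective))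

/-- The multiplication map from `H ⊗ H` to functions on pairs. -/
noncomputable def mulMap (H : Subalgebra (ratLocalizedAt ℓ) (M → AlgebraicClosure ℚ)) :
    H ⊗[ratLocalizedAt ℓ] H →ₐ[ratLocalizedAt ℓ] (M × M → AlgebraicClosure ℚ) :=
  Algebra.TensorProduct.productMap
    ((pullback ℓ (Prod.fst : M × M → M)).comp H.val)
    ((pullback ℓ (Prod.snd : M × M → M)).comp H.val)

omit [AddCommGroup M] [Finite M] in
@[simp] lemma mulMap_tmul (a b : H) (p : M × M) :
    mulMap H (a ⊗ₜ b) p = a.1 p.1 * b.1 p.2 := by
  simp [mulMap]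

omit [AddCommGroup M] [Finite M] in
lemma range_mulMap : (mulMap H).range =
    H.map (pullback ℓ (Prod.fst : M × M → M)) ⊔ H.map (pullback ℓ (Prod.snd : M × M → M)) := by
  simp only [mulMap, Algebra.TensorProduct.productMap_range, AlgHom.range_comp,
    Subalgebra.range_val]

/-- The evaluation map from `H ⊗ (H ⊗ H)` to functions on triples. -/
noncomputable def mulMap₃ (H : Subalgebra (ratLocalizedAt ℓ) (M → AlgebraicClosure ℚ)) :
    H ⊗[ratLocalizedAt ℓ] (H ⊗[ratLocalizedAt ℓ] H) →ₐ[ratLocalizedAt ℓ]
      (M × (M × M) → AlgebraicClosure ℚ) :=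
  Algebra.TensorProduct.productMap
    ((pullback ℓ (Prod.fst : M × (M × M) → M)).comp H.val)
    ((pullback ℓ (Prod.snd : M × (M × M) → M × M)).comp (mulMap H))

omit [AddCommGroup M] [Finite M] in
@[simp] lemma mulMap₃_tmul (a : H) (u : H ⊗[ratLocalizedAt ℓ] H) (p : M × (M × M)) :
    mulMap₃ H (a ⊗ₜ u) p = a.1 p.1 * mulMap H u p.2 := by
  simp [mulMap₃]

lemma mulMap_injective (h : IsFlatModel ℓ act H) : Function.Injective (mulMap H) := by
  obtain ⟨_, _⟩ := h.finite_and_free
  let b := Module.Free.chooseBasis (ratLocalizedAt ℓ) H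
  refine injective_of_basis_independent (b.tensorProduct b) (mulMap H).toLinearMap ?_
  convert linearIndependent_prod_functions (h.linearIndependent_basis b)
    (h.linearIndependent_basis b) using 1
  funext p z
  simp [Module.Basis.tensorProduct_apply']

lemma mulMap₃_injective (h : IsFlatModel ℓ act H) : Function.Injective (mulMap₃ H) := by
  obtain ⟨_, _⟩ := h.finite_and_free
  let b := Module.Free.chooseBasis (ratLocalizedAt ℓ) H
  refine injective_of_basis_independent (b.tensorProduct (b.tensorProduct b))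
    (mulMap₃ H).toLinearMap ?_
  convert linearIndependent_prod_functions (h.linearIndependent_basis b)
    (linearIndependent_prod_functions (h.linearIndependent_basis b)
      (h.linearIndependent_basis b)) using 1
  funext p z
  simp [Module.Basis.tensorProduct_apply']

/-- Comultiplication. -/
noncomputable def comulHom (h : IsFlatModel ℓ act H) :
    H →ₐ[ratLocalizedAt ℓ] H ⊗[ratLocalizedAt ℓ] H :=
  (AlgEquiv.ofInjective (mulMap H) h.mulMap_injective).symm.toAlgHom.comp
    (((pullback ℓ (fun p : M × M => p.1 + p.2)).comp H.val).codRestrict (mulMap H).range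
      fun f => by rw [range_mulMap]; exact h.add_mem f.1 f.2)

lemma mulMap_comulHom (h : IsFlatModel ℓ act H) (f : H) (p : M × M) :
    mulMap H (h.comulHom f) p = f.1 (p.1 + p.2) := by
  have := congrArg Subtype.val ((AlgEquiv.ofInjective (mulMap H)
      h.mulMap_injective).apply_symm_apply
    ((((pullback ℓ (fun p : M × M => p.1 + p.2)).comp H.val).codRestrict (mulMap H).range
      (fun f => by rw [range_mulMap]; exact h.add_mem f.1 f.2)) f))
  exact congrFun this p

omit [Finite M] in
lemma counit_mem (h : IsFlatModel ℓ act H) (f : H) :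
    ∃ r : ratLocalizedAt ℓ, algebraMap _ (AlgebraicClosure ℚ) r = f.1 0 :=
  exists_algebraMap_eq_of_fixed
    (fun σ => by
      have h0 := h.equivariant f.1 f.2 σ 0
      rw [map_zero (act σ)] at h0
      exact h0.symm)
    (h.integral f.1 f.2 0)

/-- Counit. -/
noncomputable def counitHom (h : IsFlatModel ℓ act H) :
    H →ₐ[ratLocalizedAt ℓ] ratLocalizedAt ℓ :=
  (AlgEquiv.ofInjective (Algebra.ofId (ratLocalizedAt ℓ) (AlgebraicClosure ℚ))
    (algebraMap_qbar_injective ℓ)).symm.toAlgHom.comp
    (((Pi.evalAlgHom (ratLocalizedAt ℓ) (fun _ : M => AlgebraicClosure ℚ) 0).comp H.val).codRestrict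
      _ fun f => h.counit_mem f)

omit [Finite M] in
lemma algebraMap_counitHom (h : IsFlatModel ℓ act H) (f : H) :
    algebraMap (ratLocalizedAt ℓ) (AlgebraicClosure ℚ) (h.counitHom f) = f.1 0 := by
  exact congrArg Subtype.val
    ((AlgEquiv.ofInjective (Algebra.ofId (ratLocalizedAt ℓ) (AlgebraicClosure ℚ))
      (algebraMap_qbar_injective ℓ)).apply_symm_apply
      ((((Pi.evalAlgHom (ratLocalizedAt ℓ) (fun _ : M => AlgebraicClosure ℚ) 0).comp
        H.val).codRestrict _ fun f => h.counit_mem f) f))

lemma mulMap₃_map_id_comul (h : IsFlatModel ℓ act H) (t : H ⊗[ratLocalizedAt ℓ] H) (x y z : M) :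
    mulMap₃ H (Algebra.TensorProduct.map (AlgHom.id (ratLocalizedAt ℓ) H) h.comulHom t)
      (x, (y, z)) =
      mulMap H t (x, y + z) := by
  induction t using TensorProduct.induction_on with
  | zero => simp
  | tmul a b => simp [h.mulMap_comulHom]
  | add u v hu hv => simp [map_add, hu, hv]

omit [AddCommGroup M] [Finite M] in
lemma mulMap₃_assoc (u : H ⊗[ratLocalizedAt ℓ] H) (b : H) (x y z : M) :
    mulMap₃ H (Algebra.TensorProduct.assoc (ratLocalizedAt ℓ) (ratLocalizedAt ℓ) (ratLocalizedAt ℓ)
      H H H (u ⊗ₜ b)) (x, (y, z)) = mulMap H u (x, y) * b.1 z := by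
  induction u using TensorProduct.induction_on with
  | zero => simp
  | tmul a c => simp [mul_assoc]
  | add u v hu hv => simp [TensorProduct.add_tmul, map_add, hu, hv, add_mul]

lemma mulMap₃_map_comul_id (h : IsFlatModel ℓ act H) (t : H ⊗[ratLocalizedAt ℓ] H) (x y z : M) :
    mulMap₃ H (Algebra.TensorProduct.assoc (ratLocalizedAt ℓ) (ratLocalizedAt ℓ) (ratLocalizedAt ℓ)
      H H H (Algebra.TensorProduct.map h.comulHom (AlgHom.id (ratLocalizedAt ℓ) H) t)) (x, (y, z)) =
      mulMap H t (x + y, z) := by
  induction t using TensorProduct.induction_on with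
  | zero => simp
  | tmul a b => simp [mulMap₃_assoc, h.mulMap_comulHom]
  | add u v hu hv => simp [map_add, hu, hv]

omit [Finite M] in
lemma lid_map_counit (h : IsFlatModel ℓ act H) (t : H ⊗[ratLocalizedAt ℓ] H) (y : M) :
    (Algebra.TensorProduct.lid (ratLocalizedAt ℓ) H
      (Algebra.TensorProduct.map h.counitHom (AlgHom.id (ratLocalizedAt ℓ) H) t)).1 y =
        mulMap H t (0, y) := by
  induction t using TensorProduct.induction_on with
  | zero => simp
  | tmul a b => simp [Algebra.smul_def, h.algebraMap_counitHom]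
  | add u v hu hv => simp [map_add, hu, hv]

omit [Finite M] in
lemma rid_map_counit (h : IsFlatModel ℓ act H) (t : H ⊗[ratLocalizedAt ℓ] H) (y : M) :
    (Algebra.TensorProduct.rid (ratLocalizedAt ℓ) (ratLocalizedAt ℓ) H
      (Algebra.TensorProduct.map (AlgHom.id (ratLocalizedAt ℓ) H) h.counitHom t)).1 y =
        mulMap H t (y, 0) := by
  induction t using TensorProduct.induction_on with
  | zero => simp
  | tmul a b => simp [Algebra.smul_def, h.algebraMap_counitHom, mul_comm]
  | add u v hu hv => simp [map_add, hu, hv]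

/-- The bialgebra of a flat model. -/
@[implicit_reducible]
noncomputable def bialgebra (h : IsFlatModel ℓ act H) : Bialgebra (ratLocalizedAt ℓ) H :=
  Bialgebra.ofAlgHom h.comulHom h.counitHom
    (AlgHom.ext fun f => h.mulMap₃_injective <| funext fun p => by
      obtain ⟨x, y, z⟩ := p
      show mulMap₃ H (Algebra.TensorProduct.assoc (ratLocalizedAt ℓ) (ratLocalizedAt ℓ)
          (ratLocalizedAt ℓ) H H H
          (Algebra.TensorProduct.map h.comulHom (AlgHom.id (ratLocalizedAt ℓ) H)
            (h.comulHom f))) (x, (y, z)) =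
        mulMap₃ H (Algebra.TensorProduct.map (AlgHom.id (ratLocalizedAt ℓ) H) h.comulHom
          (h.comulHom f)) (x, (y, z))
      rw [h.mulMap₃_map_comul_id, h.mulMap₃_map_id_comul, h.mulMap_comulHom, h.mulMap_comulHom,
        add_assoc])
    (AlgHom.ext fun f => (Algebra.TensorProduct.lid (ratLocalizedAt ℓ) H).injective <|
      Subtype.ext <| funext fun y => by
        show (Algebra.TensorProduct.lid (ratLocalizedAt ℓ) H
          (Algebra.TensorProduct.map h.counitHom (AlgHom.id (ratLocalizedAt ℓ) H)
            (h.comulHom f))).1 y = _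
        rw [h.lid_map_counit, h.mulMap_comulHom, zero_add]
        simp)
    (AlgHom.ext fun f =>
      (Algebra.TensorProduct.rid (ratLocalizedAt ℓ) (ratLocalizedAt ℓ) H).injective <|
      Subtype.ext <| funext fun y => by
        show (Algebra.TensorProduct.rid (ratLocalizedAt ℓ) (ratLocalizedAt ℓ) H
          (Algebra.TensorProduct.map (AlgHom.id (ratLocalizedAt ℓ) H) h.counitHom
            (h.comulHom f))).1 y = _
        rw [h.rid_map_counit, h.mulMap_comulHom, add_zero]
        simp)

/-- Pullback by a multiple preserves a flat model. -/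
lemma nsmul_mem (h : IsFlatModel ℓ act H) (n : ℕ) :
    ∀ f : H, pullback ℓ (fun x : M => n • x) f.1 ∈ H := by
  induction n with
  | zero =>
    intro f
    obtain ⟨r, hr⟩ := h.counit_mem f
    have : pullback ℓ (fun x : M => 0 • x) f.1 = algebraMap (ratLocalizedAt ℓ) _ r := by
      funext x
      simp [hr]
    rw [this]
    exact H.algebraMap_mem r
  | succ n ih =>
    intro f
    have key : ∀ t : H ⊗[ratLocalizedAt ℓ] H,
        (fun x : M => mulMap H t (n • x, x)) ∈ H := by
      intro t
      induction t using TensorProduct.induction_on with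
      | zero =>
        have e : (fun x : M => mulMap H 0 (n • x, x)) = 0 := funext fun x => by simp
        rw [e]
        exact H.zero_mem
      | tmul a b =>
        have e : (fun x : M => mulMap H (a ⊗ₜ b) (n • x, x)) =
            pullback ℓ (fun x : M => n • x) a.1 * b.1 := funext fun x => by simp
        rw [e]
        exact H.mul_mem (ih a) b.2
      | add u v hu hv =>
        have e : (fun x : M => mulMap H (u + v) (n • x, x)) =
            (fun x : M => mulMap H u (n • x, x)) + fun x : M => mulMap H v (n • x, x) :=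
          funext fun x => by simp
        rw [e]
        exact H.add_mem hu hv
    convert key (h.comulHom f) using 1
    funext x
    rw [h.mulMap_comulHom, pullback_apply, succ_nsmul]

/-- Pullback by negation preserves a flat model. -/
lemma neg_mem (h : IsFlatModel ℓ act H) (f : H) :
    pullback ℓ (fun x : M => -x) f.1 ∈ H := by
  have := Fintype.ofFinite M
  convert h.nsmul_mem (Fintype.card M - 1) f using 3
  funext x
  have hc : Fintype.card M - 1 + 1 = Fintype.card M :=
    Nat.sub_add_cancel (Fintype.card_pos_iff.mpr ⟨0⟩)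
  exact neg_eq_of_add_eq_zero_left (by rw [← succ_nsmul, hc, card_nsmul_eq_zero])

/-- Antipode. -/
noncomputable def antipodeHom (h : IsFlatModel ℓ act H) : H →ₐ[ratLocalizedAt ℓ] H :=
  ((pullback ℓ (fun x : M => -x)).comp H.val).codRestrict H h.neg_mem

omit [AddCommGroup M] [Finite M] in
lemma lift_apply_tensor (S T : H →ₐ[ratLocalizedAt ℓ] H) (g₁ g₂ : M → M)
    (hS : ∀ a x, (S a).1 x = a.1 (g₁ x)) (hT : ∀ a x, (T a).1 x = a.1 (g₂ x))
    (t : H ⊗[ratLocalizedAt ℓ] H) (x : M) :
    (Algebra.TensorProduct.lift S T (fun _ _ => Commute.all _ _) t).1 x =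
      mulMap H t (g₁ x, g₂ x) := by
  induction t using TensorProduct.induction_on with
  | zero => simp
  | tmul a b => simp [hS, hT]
  | add u v hu hv => simp [map_add, hu, hv]

/-- The Hopf algebra of a flat model. -/
@[implicit_reducible]
noncomputable def hopfAlgebra (h : IsFlatModel ℓ act H) : HopfAlgebra (ratLocalizedAt ℓ) H :=
  letI := h.bialgebra
  HopfAlgebra.ofAlgHom h.antipodeHom
    (AlgHom.ext fun f => Subtype.ext <| funext fun x => by
      show (Algebra.TensorProduct.lift h.antipodeHom (AlgHom.id (ratLocalizedAt ℓ) H)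
          (fun _ _ => Commute.all _ _) (h.comulHom f)).1 x =
        algebraMap (ratLocalizedAt ℓ) (AlgebraicClosure ℚ) (h.counitHom f)
      rw [lift_apply_tensor h.antipodeHom (AlgHom.id (ratLocalizedAt ℓ) H) (fun x => -x) id
          (fun _ _ => rfl)
        (fun _ _ => rfl), h.mulMap_comulHom, h.algebraMap_counitHom]
      simp)
    (AlgHom.ext fun f => Subtype.ext <| funext fun x => by
      show (Algebra.TensorProduct.lift (AlgHom.id (ratLocalizedAt ℓ) H) h.antipodeHom
          (fun _ _ => Commute.all _ _) (h.comulHom f)).1 x =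
        algebraMap (ratLocalizedAt ℓ) (AlgebraicClosure ℚ) (h.counitHom f)
      rw [lift_apply_tensor (AlgHom.id (ratLocalizedAt ℓ) H) h.antipodeHom id (fun x => -x)
          (fun _ _ => rfl)
        (fun _ _ => rfl), h.mulMap_comulHom, h.algebraMap_counitHom]
      simp)

end IsFlatModel

end FLTAgent.FiniteFlat
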