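import Fermat.Agent.FFRiemannRoch.LinearSystems
import Fermat.Agent.FFRiemannRoch.FunctionField

/-!
# Multiplication of two Riemann–Roch spaces of the same large degree

`span_mul_eq_of_same_degree`: for divisors `A`, `B` of one degree at least `4 g` the products of
functions from `L(A)` and `L(B)` span `L(A + B)`.  Used on the special fibre in `CoordProducts`.
-/

set_option autoImplicit false

noncomputable section

open AlgebraicCurve FLTAgent.FFBasic FLTAgent.FFRiemannRoch

namespace FLTAgent.FiniteFlat

variable {K F : Type*} [Field K] [Field F] [Algebra K F] [IsAlgClosed K] [IsFunctionField K F]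

/-- For two divisors of the same degree at least `4g` the multiplication map is onto. -/
theorem span_mul_eq_of_same_degree {A B : Divisor K F} {m : ℤ} (hA : Divisor.degree A = m)
    (hB : Divisor.degree B = m) (hm : 4 * (genusFF K F : ℤ) ≤ m) :
    riemannRochSpace A * riemannRochSpace B = riemannRochSpace (A + B) := by
  classical
  refine le_antisymm (Submodule.mul_le.mpr fun a ha b hb => mul_mem_riemannRochSpace ha hb) ?_
  obtain ⟨P, Q, hPQ⟩ : ∃ P Q : Place K F, P ≠ Q := by
    have := infinite_place (K := K) (F := F)
    exact exists_pair_ne _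
  set d : ℤ := m - 2 * (genusFF K F : ℤ) with hd
  have hd0 : 0 ≤ d := by omega
  let X : Divisor K F := Finsupp.single P d
  let X' : Divisor K F := Finsupp.single Q d
  have hX : Divisor.degree X = d := by simp [X, deg_eq_one]
  have hX' : Divisor.degree X' = d := by simp [X', deg_eq_one]
  have hX0 : 0 ≤ X := single_nonneg P hd0
  have hX'0 : 0 ≤ X' := single_nonneg Q hd0
  have hsub : ∀ Y : Divisor K F, 0 ≤ Y → Divisor.degree Y = d →
      riemannRochSpace (A + B - Y) ≤ riemannRochSpace A * riemannRochSpace B := by
    intro Y hY0 hY
    rw [add_sub_assoc, ← span_mul_eq (E := B - Y) (by rw [map_sub, hB, hY]; omega)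
      (by rw [map_sub, hB, hY, hA]; omega)]
    exact mul_le_mul_right (riemannRochSpace_mono (sub_le_self B hY0)) _
  refine le_trans ?_ (sup_le (hsub X hX0 hX) (hsub X' hX'0 hX'))
  have hle : riemannRochSpace (A + B - X) ⊔ riemannRochSpace (A + B - X') ≤
      riemannRochSpace (A + B) :=
    sup_le (riemannRochSpace_mono (sub_le_self _ hX0)) (riemannRochSpace_mono (sub_le_self _ hX'0))
  have := finiteDimensional_riemannRochSpace (A + B)
  have := finiteDimensional_riemannRochSpace (A + B - X)
  have := finiteDimensional_riemannRochSpace (A + B - X')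
  refine (Submodule.eq_of_le_of_finrank_le hle ?_).ge
  have h5 := Submodule.finrank_sup_add_finrank_inf_eq (riemannRochSpace (A + B - X))
    (riemannRochSpace (A + B - X'))
  have h6 : riemannRochSpace (A + B - X) ⊓ riemannRochSpace (A + B - X') ≤
      riemannRochSpace (A + B - X - X') := by
    rintro f ⟨h1, h2⟩
    refine mem_riemannRochSpace_iff.mpr fun v => ?_
    rcases eq_or_ne f 0 with hf | hf
    · exact Or.inl hf
    right
    have e1 := (mem_riemannRochSpace_iff.mp h1 v).resolve_left hf
    have e2 := (mem_riemannRochSpace_iff.mp h2 v).resolve_left hf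
    rw [Finsupp.sub_apply] at e1 e2
    simp only [Finsupp.sub_apply, X, X', Finsupp.single_apply] at e1 e2 ⊢
    split_ifs at e1 e2 ⊢ with hv hw
    · exact absurd (hv.trans hw.symm) hPQ
    all_goals omega
  have := finiteDimensional_riemannRochSpace (A + B - X - X')
  have h7 := Submodule.finrank_mono h6
  have e0 := ell_eq_of_lt (D := A + B) (by simp only [map_add, hA, hB]; omega)
  have e1 := ell_eq_of_lt (D := A + B - X) (by simp only [map_sub, map_add, hA, hB, hX]; omega)
  have e2 := ell_eq_of_lt (D := A + B - X') (by simp only [map_sub, map_add, hA, hB, hX']; omega)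
  have e3 := ell_eq_of_lt (D := A + B - X - X')
    (by simp only [map_sub, map_add, hA, hB, hX, hX']; omega)
  simp only [map_sub, map_add, hA, hB, hX, hX', ell] at e0 e1 e2 e3
  omega

end FLTAgent.FiniteFlat
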