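import Fermat.Agent.FiniteFlat.CoordBasis
import Fermat.Agent.FiniteFlat.CoordMul

/-!
# Products of the normalised rows: generic shape and spanning on the special fibre

For classes with `x + y = z` the products of the rows of `x` and `y`, corrected by a multiplier,
are combinations of the rows of `z` (`combination_eq`), and their residues span everything
(`span_vbar_eq_top`).  Feeds the addition law in `CoordAdd`.
-/

set_option autoImplicit false

noncomputable section

open AlgebraicCurve FLTAgent.FFBasic FLTAgent.Deuring FLTAgent.FFRiemannRoch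

namespace FLTAgent.FiniteFlat

/-- A member of `L(X)` vanishing at places outside the support lies in the smaller space. -/
lemma mem_rr_sub_of_evalPt_eq_zero {K G : Type} [Field K] [Field G] [Algebra K G]
    [IsAlgClosed K] [IsFunctionField K G] {ι : Type} (s : Finset ι) {pt : ι → Place K G}
    (hinj : Function.Injective pt) {X : Divisor K G} (hX : ∀ i ∈ s, X (pt i) = 0) {f : G}
    (hf : f ∈ riemannRochSpace X) (h0 : ∀ i ∈ s, evalPt (pt i) f = 0) :
    f ∈ riemannRochSpace (X - ∑ i ∈ s, Finsupp.single (pt i) 1) := by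
  classical
  refine mem_riemannRochSpace_iff.mpr fun v => or_iff_not_imp_left.mpr fun hne => ?_
  have hv := (mem_riemannRochSpace_iff.mp hf v).resolve_left hne
  rw [Finsupp.sub_apply, Finsupp.finsetSum_apply]
  by_cases hvi : ∃ i ∈ s, pt i = v
  · obtain ⟨i, hi, rfl⟩ := hvi
    rw [Finset.sum_eq_single i
      (fun j _ hj => Finsupp.single_eq_of_ne fun e => hj (hinj e).symm)
      (fun hc => absurd hi hc), Finsupp.single_eq_same, hX i hi]
    have h1 := (evalPt_eq_zero_iff _ (mem_of_mem_rr _ (hX i hi).le hf)).mp (h0 i hi)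
    have h2 := le_ord_of_mem_filt h1 hne
    omega
  · rw [Finset.sum_eq_zero fun i hi => Finsupp.single_eq_of_ne fun e => hvi ⟨i, hi, e.symm⟩,
      sub_zero]
    exact hv

variable {L k F Fb : Type} [Field L] [Field k] [Field F] [Field Fb]
  [Algebra L F] [Algebra k Fb] [IsAlgClosed L] [IsAlgClosed k]
  [IsFunctionField L F] [IsFunctionField k Fb]

namespace CoordSetup

variable {C : Reduction L k F Fb} {r : Place L F → Place k Fb} {M : Type}
variable (S : CoordSetup C r M)

omit [IsAlgClosed L] [IsAlgClosed k] [IsFunctionField k Fb] in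
/-- The multiplier: a unit of `O` with divisor `D x + D y - D z - S_b + D₀`. -/
lemma exists_multiplier (b : Bool) (x y z : M) (hz : S.IsSum x y z) : ∃ q : C.O, C.res q ≠ 0 ∧
    divOf (K := L) (q : F) =
      S.E x + S.E y - (∑ u ∈ S.S b, Finsupp.single (S.pt (Sum.inr u)) 1) - S.E z := by
  obtain ⟨g, hg0, hg⟩ := hz
  have hne : g * (S.h b)⁻¹ ≠ 0 := mul_ne_zero hg0 (inv_ne_zero (S.h_ne_zero b))
  obtain ⟨q, hq, hord⟩ := C.exists_unit_same_ord hne
  refine ⟨q, hq, ?_⟩
  have : divOf (K := L) (q : F) = divOf (K := L) (g * (S.h b)⁻¹) :=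
    Finsupp.ext fun P => by rw [divOf_apply, divOf_apply, hord]
  rw [this, divOf_mul hg0 (inv_ne_zero (S.h_ne_zero b)), divOf_inv, hg, S.div_h, E, E, E]
  abel

/-- Marked places outside `S b` in the index set. -/
def Free (b : Bool) (t : Fin S.n ⊕ S.U) : Prop := ∀ s ∈ S.S b, t ≠ Sum.inr s

omit [IsAlgClosed L] [IsAlgClosed k] [IsFunctionField k Fb] in
lemma free_inl (b : Bool) (l : Fin S.n) : S.Free b (Sum.inl l) := fun _ _ => Sum.inl_ne_inr

omit [IsAlgClosed L] [IsAlgClosed k] [IsFunctionField k Fb] in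
lemma free_inr (b : Bool) {u : S.U} (hu : u ∉ S.S b) : S.Free b (Sum.inr u) :=
  fun _ hs e => hu (Sum.inr_injective e ▸ hs)

omit [IsAlgClosed L] [IsAlgClosed k] [IsFunctionField k Fb] in
lemma divisor_sub_apply_eq_zero (b : Bool) (x y z : M) {t : Fin S.n ⊕ S.U} (ht : S.Free b t)
    {P : Place L F} (hP : r P = r (S.pt t)) :
    (S.E x + S.E y - (∑ u ∈ S.S b, Finsupp.single (S.pt (Sum.inr u)) 1) - S.E z :
      Divisor L F) P = 0 := by
  classical
  simp only [Finsupp.sub_apply, Finsupp.add_apply, Finsupp.finsetSum_apply,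
    S.E_apply_eq_zero _ t hP, add_zero, zero_sub, sub_zero, neg_eq_zero]
  refine Finset.sum_eq_zero fun s hs => Finsupp.single_eq_of_ne fun e => ht s hs ?_
  refine S.pt_injective ?_
  show r (S.pt t) = r (S.pt (Sum.inr s))
  rw [← hP, e]

lemma multiplier_eval (b : Bool) (x y z : M) {q : C.O} (hq : C.res q ≠ 0)
    (hdiv : divOf (K := L) (q : F) =
      S.E x + S.E y - (∑ u ∈ S.S b, Finsupp.single (S.pt (Sum.inr u)) 1) - S.E z)
    {t : Fin S.n ⊕ S.U} (ht : S.Free b t) :
    (q : F) ∈ (S.pt t).toValuationSubring ∧ IsAUnit C (evalPt (S.pt t) (q : F)) := by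
  classical
  have hord : ∀ P, r P = r (S.pt t) → P.ord (q : F) = 0 := fun P hP => by
    rw [← divOf_apply, hdiv]
    exact S.divisor_sub_apply_eq_zero b x y _ ht hP
  have hmem : ∀ P, r P = r (S.pt t) → (q : F) ∈ P.toValuationSubring := fun P hP =>
    mem_of_ord_nonneg' P fun _ => (hord P hP).ge
  obtain ⟨a, ha, hπ, -⟩ := evalPt_reduction S.isReductionMap q (S.pt t) hmem
  refine ⟨hmem _ rfl, a, ha, ?_⟩
  rw [hπ]
  refine evalPt_ne_zero_of_ord_eq_zero _ hq ?_
  rw [← S.isReductionMap.2 q hq (divOf (K := L) (q : F)) (fun P => divOf_apply _ P),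
    Finsupp.mapDomain, Finsupp.sum_apply]
  refine Finset.sum_eq_zero fun P _ => ?_
  simp only [Finsupp.single_apply]
  split_ifs with hP
  · rw [divOf_apply, hord P hP]
  · rfl

lemma v_mem (x : M) (l : Fin S.n) (t : Fin S.n ⊕ S.U) : S.v x l t ∈ C.A := by
  cases t with
  | inl l' =>
    simp only [v, Sum.elim_inl]
    split_ifs
    · exact one_mem _
    · exact zero_mem _
  | inr u => exact (S.φ_isAUnit x (l, u)).mem

/-- Combinations of products of rows supported at one pivot among `I ⊔ S b`. -/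
lemma combination_eq (b : Bool) (x y z : M) (hz : S.IsSum x y z) :
    ∃ γ : Fin S.n ⊕ S.U → L, (∀ t, S.Free b t → IsAUnit C (γ t)) ∧
      ∀ {ι : Type} [Fintype ι] (sel : ι → Fin S.n × Fin S.n) (c : ι → L) (Δ : L) (l : Fin S.n),
        (∀ l', ∑ i, c i * (S.v x (sel i).1 (Sum.inl l') * S.v y (sel i).2 (Sum.inl l')) =
          if l = l' then Δ else 0) →
        (∀ s ∈ S.S b, ∑ i, c i * (S.v x (sel i).1 (Sum.inr s) * S.v y (sel i).2 (Sum.inr s)) = 0) →
        ∀ u, u ∉ S.S b →
          ∑ i, c i * (S.v x (sel i).1 (Sum.inr u) * S.v y (sel i).2 (Sum.inr u)) =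
            Δ * γ (Sum.inr u) / γ (Sum.inl l) * S.a z l u := by
  classical
  obtain ⟨q, hq, hdiv⟩ := S.exists_multiplier b x y z hz
  let τ : Fin S.n ⊕ S.U → L := fun t => S.tor x t * S.tor y t
  have hτ : ∀ t, IsAUnit C (τ t) := fun t => (S.tor_isAUnit x t).mul (S.tor_isAUnit y t)
  refine ⟨fun t => τ t / evalPt (S.pt t) (q : F),
    fun t ht => (hτ t).div (S.multiplier_eval b x y z hq hdiv ht).2, ?_⟩
  intro ι _ sel c Δ l hpiv hvan u hu
  set G : F := ∑ i, (c i * (S.lam x (sel i).1 * S.lam y (sel i).2)) •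
    (S.f x (sel i).1 * S.f y (sel i).2) with hG
  have hGmem : G ∈ riemannRochSpace (S.E x + S.E y) :=
    Submodule.sum_mem _ fun i _ => Submodule.smul_mem _ _
      (mul_mem_riemannRochSpace (S.f_mem _ _) (S.f_mem _ _))
  have hGt : ∀ t, τ t * evalPt (S.pt t) G =
      ∑ i, c i * (S.v x (sel i).1 t * S.v y (sel i).2 t) := by
    intro t
    have hm : ∀ i, S.f x (sel i).1 * S.f y (sel i).2 ∈ (S.pt t).toValuationSubring := fun i =>
      mul_mem (S.f_mem_pt _ _ _) (S.f_mem_pt _ _ _)
    rw [hG, evalPt_sum _ _ _ (fun i _ => by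
      rw [Algebra.smul_def]; exact mul_mem ((S.pt t).algebraMap_mem' _) (hm i)), Finset.mul_sum]
    refine Finset.sum_congr rfl fun i _ => ?_
    rw [evalPt_smul _ _ (hm i), evalPt_mul _ (S.f_mem_pt _ _ _) (S.f_mem_pt _ _ _),
      S.v_eq, S.v_eq]
    ring
  -- `G` vanishes on `S b`, hence `q * G` is a section of `L(E z)`
  have hG1 : G ∈ riemannRochSpace
      (S.E x + S.E y - ∑ s ∈ S.S b, Finsupp.single (S.pt (Sum.inr s)) 1) := by
    refine mem_rr_sub_of_evalPt_eq_zero (S.S b) (pt := fun s => S.pt (Sum.inr s))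
      (fun s s' e => Sum.inr_injective (S.pt_injective (congrArg r e))) (fun s _ => ?_) hGmem
      (fun s hs => ?_)
    · rw [Finsupp.add_apply, S.E_apply_eq_zero x _ rfl, S.E_apply_eq_zero y _ rfl, add_zero]
    · have := hGt (Sum.inr s)
      rw [hvan s hs, mul_eq_zero] at this
      exact this.resolve_left (hτ _).ne_zero
  have hq0 : (q : F) ≠ 0 := fun h => hq (by rw [show q = 0 from Subtype.ext h, map_zero])
  have hG2 : (q : F) * G ∈ riemannRochSpace (S.E z) := by
    rw [mul_mem_riemannRochSpace_iff hq0, hdiv, add_sub_cancel]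
    exact hG1
  have hexp := S.eq_of_evalPt_eq z hG2
  set e : Fin S.n → L := fun l' => evalPt (S.pt (Sum.inl l')) ((q : F) * G) with he
  have hat : ∀ t, S.Free b t → ∑ i, c i * (S.v x (sel i).1 t * S.v y (sel i).2 t) =
      τ t / evalPt (S.pt t) (q : F) * ∑ l', e l' * evalPt (S.pt t) (S.f z l') := by
    intro t ht
    obtain ⟨hqm, hqu⟩ := S.multiplier_eval b x y z hq hdiv ht
    have hm : G ∈ (S.pt t).toValuationSubring := mem_of_mem_rr _
      (by rw [Finsupp.add_apply, S.E_apply_eq_zero x t rfl, S.E_apply_eq_zero y t rfl, add_zero])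
      hGmem
    have h1 : evalPt (S.pt t) (q : F) * evalPt (S.pt t) G =
        ∑ l', e l' * evalPt (S.pt t) (S.f z l') := by
      rw [← evalPt_mul _ hqm hm, hexp, evalPt_sum _ _ _ (fun l' _ => by
        rw [Algebra.smul_def]
        exact mul_mem ((S.pt t).algebraMap_mem' _) (S.f_mem_pt _ _ _))]
      exact Finset.sum_congr rfl fun l' _ => evalPt_smul _ _ (S.f_mem_pt _ _ _)
    rw [← hGt, ← h1]
    field_simp [hqu.ne_zero]
  have hel : ∀ l', τ (Sum.inl l') / evalPt (S.pt (Sum.inl l')) (q : F) * e l' =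
      if l = l' then Δ else 0 := by
    intro l'
    have h1 := hat _ (S.free_inl b l')
    rw [hpiv, Finset.sum_eq_single l' (fun j _ hj => by rw [S.evalPt_f, if_neg hj, mul_zero])
      (fun hn => absurd (Finset.mem_univ _) hn), S.evalPt_f, if_pos rfl, mul_one] at h1
    exact h1.symm
  have hγ : ∀ l', τ (Sum.inl l') / evalPt (S.pt (Sum.inl l')) (q : F) ≠ 0 := fun l' =>
    div_ne_zero (hτ _).ne_zero (S.multiplier_eval b x y z hq hdiv (S.free_inl b l')).2.ne_zero
  have he_l : e l = Δ / (τ (Sum.inl l) / evalPt (S.pt (Sum.inl l)) (q : F)) := by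
    rw [eq_div_iff (hγ l), mul_comm, hel, if_pos rfl]
  have he_ne : ∀ l', l' ≠ l → e l' = 0 := fun l' hne => by
    have := hel l'
    rw [if_neg (Ne.symm hne)] at this
    exact (mul_eq_zero.mp this).resolve_left (hγ l')
  rw [hat _ (S.free_inr b hu), Finset.sum_eq_single l (fun j _ hj => by rw [he_ne j hj, zero_mul])
    (fun hn => absurd (Finset.mem_univ _) hn), he_l, a]
  ring

/-- The reduction of the normalised rows. -/
def vbar (x : M) (l : Fin S.n) (t : Fin S.n ⊕ S.U) : k := C.π ⟨S.v x l t, S.v_mem x l t⟩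

/-- The index set of one selection matrix. -/
abbrev J (b : Bool) : Type := Fin S.n ⊕ {u // u ∈ S.S b}

/-- Inclusion of the index set among the marked places. -/
def jt (b : Bool) : S.J b → Fin S.n ⊕ S.U := Sum.map id Subtype.val

omit [IsAlgClosed L] [IsAlgClosed k] [IsFunctionField k Fb] in
lemma jt_injective (b : Bool) : Function.Injective (S.jt b) :=
  Sum.map_injective.mpr ⟨Function.injective_id, Subtype.val_injective⟩

omit [IsAlgClosed k] [IsFunctionField k Fb] in
lemma card_S (b : Bool) : (S.S b).card = S.m := by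
  have h := congrArg Divisor.degree (S.div_h b)
  rw [degree_divOf, map_sub, map_sum, S.degree_D₀] at h
  simp only [Divisor.degree_single, deg_eq_one, Nat.cast_one, mul_one, Finset.sum_const,
    nsmul_eq_mul] at h
  omega

/-- The products of the reduced rows span all functions on `I ⊔ S b`. -/
lemma span_vbar_eq_top (b : Bool) (x y z : M) (hz : S.IsSum x y z) :
    Submodule.span k (Set.range fun (p : Fin S.n × Fin S.n) (t : S.J b) =>
      S.vbar x p.1 (S.jt b t) * S.vbar y p.2 (S.jt b t)) = ⊤ := by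
  classical
  obtain ⟨q, hq, hdiv⟩ := S.exists_multiplier b x y z hz
  have hdeg : ∀ z, Divisor.degree (Finsupp.mapDomain r (S.E z)) = (S.m : ℤ) := fun z => by
    rw [degree_mapDomain S.isReductionMap.1, S.degree_E]
  have hg := S.genus_bound'
  have hn : (S.n : ℤ) = S.m + 1 - genusFF k Fb := by
    have h1 := ell_eq_of_lt (D := Finsupp.mapDomain r (S.E x)) (by rw [hdeg]; omega)
    rw [hdeg, ell, S.finrank_special] at h1
    exact h1
  set X : Divisor k Fb := Finsupp.mapDomain r (S.E x) + Finsupp.mapDomain r (S.E y)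
  have hXt : ∀ t, X (S.rpt t) = 0 := fun t => by
    rw [Finsupp.add_apply, S.rE_apply_eq_zero, S.rE_apply_eq_zero, add_zero]
  have hinjJ : Function.Injective fun t : S.J b => S.rpt (S.jt b t) :=
    S.pt_injective.comp (S.jt_injective b)
  have hell : ell k Fb (X - ∑ t : S.J b, Finsupp.single (S.rpt (S.jt b t)) 1) = 0 := by
    have hres : Finsupp.mapDomain r (divOf (K := L) (q : F)) = divOf (K := k) (C.res q) :=
      Finsupp.ext fun Q => by
        rw [S.isReductionMap.2 q hq _ (fun P => divOf_apply _ P) Q, divOf_apply]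
    rw [hdiv, Finsupp.mapDomain_sub, Finsupp.mapDomain_sub, Finsupp.mapDomain_add,
      Finsupp.mapDomain_finsetSum] at hres
    simp only [Finsupp.mapDomain_single] at hres
    rw [Fintype.sum_sum_type]
    simp only [jt, Sum.map_inl, Sum.map_inr, id_eq]
    rw [Finset.sum_coe_sort (S.S b) (fun u => Finsupp.single (S.rpt (Sum.inr u)) (1 : ℤ))]
    have : X - ((∑ l, Finsupp.single (S.rpt (Sum.inl l)) 1) +
        ∑ u ∈ S.S b, Finsupp.single (S.rpt (Sum.inr u)) 1) =
        Finsupp.mapDomain r (S.E z) - (∑ l, Finsupp.single (S.rpt (Sum.inl l)) 1) +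
          divOf (K := k) (C.res q) := by
      rw [← hres]
      simp only [X, rpt]
      abel
    rw [this, ell_add_divOf _ hq]
    exact S.minor z
  have := finiteDimensional_riemannRochSpace X
  let T := evalLin X (fun t : S.J b => S.rpt (S.jt b t)) fun t => (hXt _).le
  have hTinj : Function.Injective T := by
    rw [injective_iff_map_eq_zero]
    intro f hf
    exact Subtype.ext (eq_zero_of_forall_evalPt_eq_zero hinjJ (fun t => hXt _) hell f.2
      (fun t => congrFun hf t))
  have hTsurj : Function.Surjective T := (LinearMap.injective_iff_surjective_of_finrank_eq_finrank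
    (by
      have h1 := ell_eq_of_lt (D := X) (by simp only [X, map_add, hdeg]; omega)
      simp only [ell] at h1
      have h2 : Divisor.degree X = (S.m : ℤ) + S.m := by simp only [X, map_add, hdeg]
      rw [h2] at h1
      rw [Module.finrank_fintype_fun_eq_card, Fintype.card_sum, Fintype.card_fin,
        Fintype.card_coe, S.card_S]
      omega)).mp hTinj
  have hspan : ∀ z : M, riemannRochSpace (Finsupp.mapDomain r (S.E z)) =
      Submodule.span k (Set.range (S.fbar z)) := by
    intro z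
    refine le_antisymm (fun g hg => ?_)
      (Submodule.span_le.mpr (Set.range_subset_iff.mpr (S.fbar_mem z)))
    let g' : riemannRochSpace (Finsupp.mapDomain r (S.E z)) := ⟨g, hg⟩
    let b' : Fin S.n → riemannRochSpace (Finsupp.mapDomain r (S.E z)) := fun l =>
      ⟨S.fbar z l, S.fbar_mem z l⟩
    have : g' = ∑ l, S.specialEval z g' l • b' l := (S.specialEval_bijective z).1 (by
      rw [map_sum]
      funext l'
      rw [Finset.sum_apply, Finset.sum_eq_single l']
      · simp [specialEval, b', S.evalPt_fbar,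
          evalPt_smul _ _ (mem_of_mem_rr _ (S.rE_apply_eq_zero z (Sum.inl l')).le
            (S.fbar_mem z l'))]
      · intro l _ hl
        simp [specialEval, b', S.evalPt_fbar, hl,
          evalPt_smul _ _ (mem_of_mem_rr _ (S.rE_apply_eq_zero z (Sum.inl l')).le (S.fbar_mem z l))]
      · exact fun hn => absurd (Finset.mem_univ _) hn)
    rw [show g = ((∑ l, S.specialEval z g' l • b' l : riemannRochSpace _) : Fb) from
      congrArg Subtype.val this, AddSubmonoidClass.coe_finsetSum]
    exact Submodule.sum_mem _ fun l _ =>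
      Submodule.smul_mem _ _ (Submodule.subset_span ⟨l, rfl⟩)
  have hprod : riemannRochSpace X = Submodule.span k
      (Set.range fun p : Fin S.n × Fin S.n => S.fbar x p.1 * S.fbar y p.2) := by
    rw [show X = _ + _ from rfl,
      ← span_mul_eq_of_same_degree (hdeg x) (hdeg y) (by omega), hspan x, hspan y,
      Submodule.span_mul_span]
    congr 1
    ext w
    simp [Set.mem_mul]
  -- reductions of values
  have hv : ∀ z l t, ∃ a : k, a ≠ 0 ∧
      S.vbar z l t = C.π ⟨_, (S.tor_isAUnit z t).mem⟩ * (a * evalPt (S.rpt t) (S.fbar z l)) ∧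
      a = C.π ⟨_, (S.lam_isAUnit z l).mem⟩ := by
    intro z l t
    obtain ⟨a, ha, hπ, -⟩ := S.evalPt_f_residue z l t
    refine ⟨_, (S.lam_isAUnit z l).isUnit_mk.map C.π |>.ne_zero, ?_, rfl⟩
    rw [← hπ, vbar, ← map_mul, ← map_mul]
    congr 1
    exact Subtype.ext (by
      show S.v z l t = S.tor z t * (S.lam z l * (a : L))
      rw [ha, S.v_eq])
  let lamb : M → Fin S.n → k := fun z' l => C.π ⟨_, (S.lam_isAUnit z' l).mem⟩
  let torb : S.J b → k := fun t => C.π ⟨_, (S.tor_isAUnit x (S.jt b t)).mem⟩ *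
    C.π ⟨_, (S.tor_isAUnit y (S.jt b t)).mem⟩
  rw [eq_top_iff]
  intro c _
  obtain ⟨g, hg⟩ := hTsurj fun t => c t / torb t
  have hg2 : (g : Fb) ∈ Submodule.span k
      (Set.range fun p : Fin S.n × Fin S.n => S.fbar x p.1 * S.fbar y p.2) := by
    rw [← hprod]; exact g.2
  obtain ⟨d, hd⟩ := (Submodule.mem_span_range_iff_exists_fun k).mp hg2
  have hmem : ∀ (p : Fin S.n × Fin S.n) t,
      S.fbar x p.1 ∈ (S.rpt t).toValuationSubring ∧ S.fbar y p.2 ∈ (S.rpt t).toValuationSubring :=
    fun p t => ⟨mem_of_mem_rr _ (S.rE_apply_eq_zero x t).le (S.fbar_mem x _),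
      mem_of_mem_rr _ (S.rE_apply_eq_zero y t).le (S.fbar_mem y _)⟩
  refine (Submodule.mem_span_range_iff_exists_fun k).mpr
    ⟨fun p => d p / (lamb x p.1 * lamb y p.2), funext fun t => ?_⟩
  have hgt : evalPt (S.rpt (S.jt b t)) (g : Fb) = c t / torb t := congrFun hg t
  rw [← hd, evalPt_sum _ _ _ (fun p _ => by
    rw [Algebra.smul_def]
    exact mul_mem ((S.rpt _).algebraMap_mem' _) (mul_mem (hmem p _).1 (hmem p _).2))] at hgt
  have ht0 : torb t ≠ 0 := mul_ne_zero
    ((S.tor_isAUnit x _).isUnit_mk.map C.π).ne_zero ((S.tor_isAUnit y _).isUnit_mk.map C.π).ne_zero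
  rw [eq_div_iff ht0, Finset.sum_mul] at hgt
  rw [Finset.sum_apply, ← hgt]
  refine Finset.sum_congr rfl fun p _ => ?_
  obtain ⟨a, ha, hav, rfl⟩ := hv x p.1 (S.jt b t)
  obtain ⟨a', ha', hav', rfl⟩ := hv y p.2 (S.jt b t)
  rw [Pi.smul_apply, smul_eq_mul, hav, hav',
    evalPt_smul _ _ (mul_mem (hmem p _).1 (hmem p _).2),
    evalPt_mul _ (hmem p _).1 (hmem p _).2]
  simp only [lamb, torb]
  field_simp

end CoordSetup

end FLTAgent.FiniteFlat
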