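import Fermat.Agent.FiniteFlat.SimpleFibres
import Fermat.Agent.Deuring.Poles
import Fermat.Agent.FFRiemannRoch.LinearEquivalence

/-!
# A supply of fibres with distinct reductions, and uniqueness of reduction maps

`fibreSupply_of_function`: a function with separable reduction supplies fibres as needed by
`CoordExists`.  `isReductionMap_unique` and `reduction_smul`: reduction maps of places are
unique, hence commute with semilinear automorphisms.
-/

set_option autoImplicit false

noncomputable section

open AlgebraicCurve FLTAgent.FFBasic FLTAgent.Deuring FLTAgent.FFRiemannRoch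

namespace FLTAgent.FiniteFlat

variable {L k F Fb : Type} [Field L] [Field k] [Field F] [Field Fb]
  [Algebra L F] [Algebra k Fb] [IsAlgClosed L] [IsAlgClosed k]
  [IsFunctionField L F] [IsFunctionField k Fb]

/-- Arbitrarily many effective divisors equivalent to `Base`, with distinct reductions avoiding
any finite set, all of whose places are good. -/
def FibreSupply (r : Place L F → Place k Fb) (Base : Divisor L F) (Good : Place L F → Prop) :
    Prop :=
  ∀ Bad : Set (Place k Fb), Bad.Finite → ∃ (Z : Finset (Place L F)) (h : F), h ≠ 0 ∧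
    divOf (K := L) h = (∑ P ∈ Z, Finsupp.single P 1) - Base ∧ Set.InjOn r Z ∧
    ∀ P ∈ Z, r P ∉ Bad ∧ Good P

section Const

variable {K G : Type} [Field K] [Field G] [Algebra K G] [IsAlgClosed K] [IsFunctionField K G]

omit [IsAlgClosed K] in
lemma pol_sub_algebraMap (x : G) (c : K) :
    pol (K := K) (x - algebraMap K G c) = pol (K := K) x := by
  have key : ∀ (y : G) (a : K) (v : Place K G), y ≠ 0 → y - algebraMap K G a ≠ 0 →
      min (v.ord y) 0 ≤ v.ord (y - algebraMap K G a) := fun y a v hy hy' =>
    le_ord_of_mem_filt (sub_mem (mem_filt_of_le (min_le_left _ _))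
      (filt_antitone v (min_le_right _ _) (mem_filt_zero.mpr (v.algebraMap_mem' a)))) hy'
  ext v
  rw [pol_apply, pol_apply]
  rcases eq_or_ne x 0 with rfl | hx
  · rw [zero_sub, ord_neg, Place.ord_zero]
    simp only [neg_zero, max_self]
    rcases eq_or_ne c 0 with rfl | hc
    · simp
    · have := ord_nonneg_of_mem v (v.algebraMap_mem' c : algebraMap K G c ∈ v.toValuationSubring)
      omega
  rcases eq_or_ne (x - algebraMap K G c) 0 with h0 | h0
  · rw [h0, Place.ord_zero]
    rw [sub_eq_zero] at h0
    have := ord_nonneg_of_mem v (v.algebraMap_mem' c : algebraMap K G c ∈ v.toValuationSubring)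
    rw [h0]
    omega
  have h1 := key x c v hx h0
  have h2 := key (x - algebraMap K G c) (-c) v h0 (by rwa [map_neg, sub_neg_eq_add, sub_add_cancel])
  rw [map_neg, sub_neg_eq_add, sub_add_cancel] at h2
  omega

omit [IsAlgClosed K] in
lemma smul_pol {s : SemilinearAut K G} {x : G} (hx : s • x = x) :
    s • pol (K := K) x = pol (K := K) x := by
  ext v
  rw [SemilinearAut.divisor_smul_apply, pol_apply, pol_apply]
  have := SemilinearAut.ord_smul s (s⁻¹ • v) x
  rw [smul_inv_smul, hx] at this
  rw [this]

end Const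

variable {C : Reduction L k F Fb} {r : Place L F → Place k Fb}

omit [IsAlgClosed L] in
/-- Fibres of a function with separable reduction form a supply. -/
theorem fibreSupply_of_function (hr : C.IsReductionMap r) (x : C.O)
    (htr : Transcendental k (C.res x))
    (hsep : Algebra.IsSeparable (IntermediateField.adjoin k ({C.res x} : Set Fb)) Fb)
    (hpol : Finsupp.mapDomain r (pol (K := L) (x : F)) = pol (K := k) (C.res x))
    {Cst : Set C.A} (hCst : (C.π '' Cst).Infinite) :
    FibreSupply r (pol (K := L) (x : F)) fun P => ∀ s : SemilinearAut L F, s • (x : F) = (x : F) →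
      (∀ c ∈ Cst, SemilinearAut.baseAut s (c : L) = c) → (∀ Q, r (s • Q) = r Q) → s • P = P := by
  classical
  obtain ⟨Z₀, hZ₀, hsimple⟩ := exists_finite_forall_ord_sub_eq_one htr hsep
  intro Bad hBad
  obtain ⟨-, ⟨c, hc, rfl⟩, hcbad⟩ :=
    hCst.exists_notMem_finset (((hBad.union hZ₀).image fun v => evalPt v (C.res x)).toFinset)
  rw [Set.Finite.mem_toFinset] at hcbad
  let u : C.O := x - C.ι c
  have hu : C.res u = C.res x - algebraMap k Fb (C.π c) := by
    show C.res (x - C.ι c) = _
    rw [map_sub, C.res_ι]
  have hu0 : C.res u ≠ 0 := fun h => by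
    rw [hu, sub_eq_zero] at h
    exact htr (h ▸ isAlgebraic_algebraMap _)
  have huF : (u : F) = (x : F) - algebraMap L F (c : L) := rfl
  have huF0 : (u : F) ≠ 0 := fun h => hu0 (by rw [show u = 0 from Subtype.ext h, map_zero])
  set Zd : Divisor L F := divOf (K := L) (u : F) + pol (K := L) (x : F) with hZd
  have hZd_apply : ∀ P, Zd P = max (P.ord (u : F)) 0 := fun P => by
    have h1 := DFunLike.congr_fun (pol_sub_algebraMap (x : F) (c : L)) P
    rw [hZd, Finsupp.add_apply, divOf_apply, ← h1, pol_apply, huF]
    omega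
  have himage : ∀ Q, Finsupp.mapDomain r Zd Q = max (Q.ord (C.res u)) 0 := fun Q => by
    have h1 := DFunLike.congr_fun (pol_sub_algebraMap (C.res x) (C.π c)) Q
    rw [hZd, Finsupp.mapDomain_add, Finsupp.add_apply,
      hr.2 u hu0 _ (fun P => divOf_apply _ P) Q, hpol, ← h1, pol_apply, hu]
    omega
  have hgood : ∀ Q, 0 < Q.ord (C.res u) → Q ∉ Bad ∧ Q.ord (C.res u) = 1 := by
    intro Q hQ
    have hval : evalPt Q (C.res x) = C.π c := by
      refine (evalPt_eq_iff Q ?_ _).mpr (mem_filt_of_le (by rw [← hu]; omega))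
      rw [← sub_add_cancel (C.res x) (algebraMap k Fb (C.π c)), ← hu]
      exact add_mem (mem_of_ord_nonneg Q hQ.le) (Q.algebraMap_mem' _)
    refine ⟨fun h => hcbad ⟨Q, Or.inl h, hval⟩, ?_⟩
    rw [hu] at hQ ⊢
    exact hsimple Q (fun h => hcbad ⟨Q, Or.inr h, hval⟩) _ hQ
  -- multiplicity one and distinct reductions
  have hpos : ∀ P ∈ Zd.support, 1 ≤ Zd P := fun P hP => by
    have := Finsupp.mem_support_iff.mp hP
    have := hZd_apply P
    omega
  have hfib : ∀ P ∈ Zd.support, 0 < (r P).ord (C.res u) ∧
      ∀ P' ∈ Zd.support, r P' = r P → P' = P ∧ Zd P = 1 := by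
    intro P hP
    have h1 := himage (r P)
    rw [Finsupp.mapDomain, Finsupp.sum_apply, Finsupp.sum] at h1
    simp only [Finsupp.single_apply] at h1
    have hnn : ∀ P' ∈ Zd.support, (0 : ℤ) ≤ if r P' = r P then Zd P' else 0 := fun P' hP' => by
      have := hpos P' hP'
      split_ifs <;> omega
    have h2 := Finset.single_le_sum hnn hP
    rw [if_pos rfl, h1] at h2
    have h3 := hpos P hP
    have hQ : 0 < (r P).ord (C.res u) := by omega
    refine ⟨hQ, fun P' hP' he => ?_⟩
    rw [(hgood _ hQ).2] at h1 h2
    refine ⟨by_contra fun hne => ?_, by omega⟩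
    have h4 := Finset.add_le_sum hnn hP hP' (fun h => hne h.symm)
    rw [if_pos rfl, if_pos he, h1] at h4
    have := hpos P' hP'
    omega
  refine ⟨Zd.support, (u : F), huF0, ?_, fun P hP P' hP' he =>
    ((hfib P hP).2 P' hP' he.symm).1.symm, fun P hP => ⟨(hgood _ (hfib P hP).1).1, ?_⟩⟩
  · have : ∑ P ∈ Zd.support, Finsupp.single P (1 : ℤ) = Zd := by
      conv_rhs => rw [← Zd.sum_single, Finsupp.sum]
      exact Finset.sum_congr rfl fun P hP => by rw [((hfib P hP).2 P hP rfl).2]
    rw [this, hZd, add_sub_cancel_right]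
  · intro s hsx hsc hrs
    refine ((hfib P hP).2 (s • P) ?_ (hrs P)).1
    have hsu : s • (u : F) = (u : F) := by
      rw [huF, smul_sub, hsx, SemilinearAut.smul_algebraMap, hsc c hc]
    rw [Finsupp.mem_support_iff, hZd_apply]
    have h2 := SemilinearAut.ord_smul s P (u : F)
    rw [hsu] at h2
    have h3 := hpos P hP
    rw [hZd_apply] at h3
    omega

/-- Any two reduction maps of a constant reduction agree. -/
theorem isReductionMap_unique {r' : Place L F → Place k Fb} (hr : C.IsReductionMap r)
    (hr' : C.IsReductionMap r') (hg : genusFF L F = genusFF k Fb) (P : Place L F) : r P = r' P := by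
  classical
  by_contra hne
  set M : ℤ := max (rrBound L F + 1) (2 * (genusFF k Fb : ℤ) + 1) with hM
  have hdeg : Divisor.degree (Finsupp.single P M : Divisor L F) = M := by
    rw [Divisor.degree_single, deg_eq_one]; simp
  have h1 := Reduction.resSub_rr_eq hr hg (Finsupp.single P M) (by rw [hdeg]; omega)
  have h2 := Reduction.resSub_rr_eq hr' hg (Finsupp.single P M) (by rw [hdeg]; omega)
  rw [Finsupp.mapDomain_single] at h1 h2
  obtain ⟨f, hf, hf0, hord⟩ := exists_ord_eq_neg_of_two_mul_le
    (D := (Finsupp.single (r P) M : Divisor k Fb)) (r P)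
    (by rw [Divisor.degree_single, deg_eq_one]; push_cast; omega)
  rw [h1.symm.trans h2] at hf
  have := (mem_riemannRochSpace_iff.mp hf (r P)).resolve_left hf0
  rw [Finsupp.single_eq_of_ne hne, hord, Finsupp.single_eq_same] at this
  omega

/-- A semilinear automorphism trivial on reductions preserves reductions of places. -/
theorem reduction_smul (hr : C.IsReductionMap r) (hg : genusFF L F = genusFF k Fb)
    (s : SemilinearAut L F)
    (hs : ∀ u : C.O, ∃ h : s • (u : F) ∈ C.O, C.res ⟨s • (u : F), h⟩ = C.res u) (P : Place L F) :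
    r (s • P) = r P := by
  refine (isReductionMap_unique (r := fun Q => r (s • Q)) (r' := r) ⟨fun Q => ?_,
    fun u hu D hD Q => ?_⟩ hr hg P)
  · rw [hr.1, SemilinearAut.deg_smul]
  · obtain ⟨h, hres⟩ := hs u
    have key := hr.2 ⟨s • (u : F), h⟩ (by rwa [hres]) (s • D) (fun Q' => by
      have := SemilinearAut.ord_smul s (s⁻¹ • Q') (u : F)
      rw [smul_inv_smul] at this
      rw [SemilinearAut.divisor_smul_apply, hD, this]) Q
    rw [hres, SemilinearAut.divisor_smul_def, ← Finsupp.mapDomain_comp] at key
    exact key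

end FLTAgent.FiniteFlat
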