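import Fermat.Agent.Density.Inertia
import Fermat.Agent.FreyUnramified.Inertia
import Mathlib.RingTheory.Invariant.Profinite

/-!
# Separating elements in the fixed ring of an open subgroup of the Galois group

For a place of `ℚ̄` over a prime: integral elements fixed by an open subgroup that tell the
cosets of inertia apart, and high powers of nonunits are divisible by any power of the prime.
Used in `Descent` and in the Hecke residual files of the semistable step.
-/

set_option autoImplicit false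

noncomputable section

open scoped Pointwise

namespace FLTAgent.FiniteFlat

open FLTAgent.Density

variable {A : ValuationSubring Qbar} {q : ℕ}

lemma primeBelow_isMaximal (hq : q.Prime) (hA : A.LiesOverPrime q) : (primeBelow A).IsMaximal := by
  have : (Ideal.span {(q : ℤ)}).IsMaximal :=
    PrincipalIdealRing.isMaximal_of_irreducible (Nat.prime_iff_prime_int.mp hq).irreducible
  refine Ideal.isMaximal_of_isIntegral_of_isMaximal_comap (R := ℤ) (primeBelow A) ?_
  rw [show (primeBelow A).comap (algebraMap ℤ Zbar) = Ideal.span {(q : ℤ)} from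
    primeBelow_under hq hA]
  infer_instance

/-- An element of the decomposition group, characterised by the prime below. -/
lemma mem_decompositionSubgroup_of_smul_primeBelow (hq : q.Prime) (hA : A.LiesOverPrime q)
    {σ : GalQ} (h : σ • primeBelow A = primeBelow A) : σ ∈ A.decompositionSubgroup ℚ :=
  MulAction.mem_stabilizer_iff.mpr (eq_of_primeBelow_eq hq (smul_liesOverPrime σ hA) hA
    (by rw [primeBelow_smul, h]))

lemma zbar_smul_coe (σ : GalQ) (x : Zbar) : ((σ • x : Zbar) : Qbar) = σ (x : Qbar) := rfl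

/-- Inertia is detected on the algebraic integers. -/
lemma mem_inertia_of_forall_zbar (hq : q.Prime) (hA : A.LiesOverPrime q) {σ : GalQ}
    (hσ : σ ∈ A.decompositionSubgroup ℚ)
    (h : ∀ x : Zbar, σ (x : Qbar) - (x : Qbar) ∈ A.nonunits) :
    σ ∈ A.inertiaSubgroupIn ℚ := by
  refine mem_inertiaSubgroupIn_iff.mpr ⟨hσ, fun x hx => ?_⟩
  obtain ⟨a, s, hs, hxs⟩ := exists_eq_div hq hA hx
  have hσx : σ x ∈ A := (apply_mem_iff hσ x).mpr hx
  let X : A := ⟨x, hx⟩
  let X' : A := ⟨σ x, hσx⟩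
  let S : A := ⟨s, mem_of_isIntegral A s.2⟩
  let S' : A := ⟨σ s, (apply_mem_iff hσ _).mpr S.2⟩
  let Aa : A := ⟨a, mem_of_isIntegral A a.2⟩
  let A' : A := ⟨σ a, (apply_mem_iff hσ _).mpr Aa.2⟩
  have e1 : X * S = Aa := Subtype.ext hxs
  have e2 : X' * S' = A' := Subtype.ext (by
    show σ x * σ (s : Qbar) = σ (a : Qbar)
    rw [← map_mul, hxs])
  have hcongr : ∀ (u : Zbar) (U U' : A), (U : Qbar) = u → (U' : Qbar) = σ u →
      IsLocalRing.residue A U' = IsLocalRing.residue A U := by
    intro u U U' hU hU'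
    rw [← sub_eq_zero, ← map_sub, IsLocalRing.residue_eq_zero_iff,
      ← ValuationSubring.coe_mem_nonunits_iff]
    simpa [hU, hU'] using h u
  have hS : IsLocalRing.residue A S ≠ 0 := by
    rw [Ne, IsLocalRing.residue_eq_zero_iff, ← ValuationSubring.coe_mem_nonunits_iff]
    exact fun hh => hs (mem_primeBelow.mpr hh)
  have hX : IsLocalRing.residue A X' = IsLocalRing.residue A X := by
    apply mul_right_cancel₀ hS
    conv_lhs => rw [← hcongr s S S' rfl rfl, ← map_mul, e2, hcongr a Aa A' rfl rfl]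
    rw [← map_mul, e1]
  rw [← sub_eq_zero, ← map_sub, IsLocalRing.residue_eq_zero_iff,
    ← ValuationSubring.coe_mem_nonunits_iff] at hX
  simpa using hX

lemma smulCommClass_fixed (U : Subgroup GalQ) :
    SMulCommClass U (FixedPoints.subalgebra ℤ Zbar U) Zbar :=
  ⟨fun u y z => by
    show (u : GalQ) • ((y : Zbar) * z) = (y : Zbar) * ((u : GalQ) • z)
    rw [smul_mul', show (u : GalQ) • (y : Zbar) = (y : Zbar) from y.2 u]⟩

section Subgroup

variable (U : Subgroup GalQ) (hU : IsOpen (U : Set GalQ))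

include hU

lemma compactSpace_subgroup : CompactSpace U :=
  isCompact_iff_compactSpace.mp (Subgroup.isClosed_of_isOpen U hU).isCompact

/-- If `σ` moves the place off its `U`-orbit, some `U`-fixed algebraic integer is a unit at the
place and a non-unit after applying `σ`. -/
lemma exists_fixed_sep_outside (hq : q.Prime) (hA : A.LiesOverPrime q) {σ : GalQ}
    (hσ : ¬ ∃ d ∈ A.decompositionSubgroup ℚ, ∃ u ∈ U, σ = d * u) :
    ∃ z : Zbar, (∀ u ∈ U, u • z = z) ∧ (z : Qbar) ∉ A.nonunits ∧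
      σ (z : Qbar) ∈ A.nonunits := by
  by_contra hc
  push Not at hc
  have := compactSpace_subgroup U hU
  let Y := FixedPoints.subalgebra ℤ Zbar U
  have : SMulCommClass U Y Zbar := smulCommClass_fixed U
  have : Algebra.IsInvariant Y Zbar U := ⟨fun b hb => ⟨⟨b, hb⟩, rfl⟩⟩
  have : Algebra.IsIntegral Y Zbar := Algebra.IsIntegral.tower_top ℤ
  have := primeBelow_isMaximal hq hA
  have : (σ⁻¹ • primeBelow A).IsMaximal := by
    rw [← primeBelow_smul]
    exact primeBelow_isMaximal hq (smul_liesOverPrime _ hA)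
  have : ((σ⁻¹ • primeBelow A).under Y).IsMaximal :=
    Ideal.isMaximal_comap_of_isIntegral_of_isMaximal _
  have hle : (σ⁻¹ • primeBelow A).under Y ≤ (primeBelow A).under Y := by
    intro z hz
    rw [Ideal.mem_comap, Ideal.mem_pointwise_smul_iff_inv_smul_mem, inv_inv, mem_primeBelow] at hz
    rw [Ideal.mem_comap, mem_primeBelow]
    by_contra hzA
    exact hc z.1 (fun u hu => z.2 ⟨u, hu⟩) hzA hz
  have heq := Ideal.IsMaximal.eq_of_le inferInstance
    (Ideal.IsPrime.ne_top inferInstance) hle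
  obtain ⟨u, hu⟩ := Algebra.IsInvariant.exists_smul_of_under_eq_of_profinite (A := Y) (G := U)
    (σ⁻¹ • primeBelow A) (primeBelow A) heq
  refine hσ ⟨σ * (u : GalQ)⁻¹, ?_, u, u.2, by group⟩
  have hmem : (u : GalQ) * σ⁻¹ ∈ A.decompositionSubgroup ℚ :=
    mem_decompositionSubgroup_of_smul_primeBelow hq hA (by
      rw [mul_smul]; exact hu.symm)
  simpa using inv_mem hmem

/-- If `σ` is in the decomposition group but not in `U ⊇` inertia, some `U`-fixed algebraic
integer has `σ z - z` a unit at the place. -/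
lemma exists_fixed_sep_inside (hq : q.Prime) (hA : A.LiesOverPrime q)
    (hI : ∀ τ ∈ A.inertiaSubgroupIn ℚ, τ ∈ U) {σ : GalQ}
    (hσD : σ ∈ A.decompositionSubgroup ℚ) (hσU : σ ∉ U) :
    ∃ z : Zbar, (∀ u ∈ U, u • z = z) ∧ σ (z : Qbar) - (z : Qbar) ∉ A.nonunits := by
  by_contra hc
  push Not at hc
  have := compactSpace_subgroup U hU
  let Y := FixedPoints.subalgebra ℤ Zbar U
  have : SMulCommClass U Y Zbar := smulCommClass_fixed U
  have : Algebra.IsInvariant Y Zbar U := ⟨fun b hb => ⟨⟨b, hb⟩, rfl⟩⟩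
  let Q : Ideal Zbar := primeBelow A
  let P : Ideal Y := Q.under Y
  have : Q.LiesOver P := ⟨rfl⟩
  have hσQ : σ • Q = Q := by
    show σ • primeBelow A = primeBelow A
    rw [← primeBelow_smul, MulAction.mem_stabilizer_iff.mp hσD]
  let r : Zbar →+* Zbar := MulSemiringAction.toRingHom GalQ Zbar σ
  have hQmap : Q = Q.map (MulSemiringAction.toRingEquiv GalQ Zbar σ : Zbar →+* Zbar) := by
    conv_lhs => rw [← hσQ]
    rfl
  let e : (Zbar ⧸ Q) ≃+* (Zbar ⧸ Q) :=
    Ideal.quotientEquiv Q Q (MulSemiringAction.toRingEquiv GalQ Zbar σ) hQmap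
  let algQ := Ideal.Quotient.algebraOfLiesOver Q P
  let am : (Y ⧸ P) →+* (Zbar ⧸ Q) := @algebraMap _ _ _ _ algQ
  have hfix : ∀ p : Y ⧸ P, e (am p) = am p := by
    intro p
    obtain ⟨z, rfl⟩ := Ideal.Quotient.mk_surjective p
    show Ideal.Quotient.mk Q (σ • (z : Zbar)) = Ideal.Quotient.mk Q (z : Zbar)
    rw [Ideal.Quotient.eq, mem_primeBelow]
    exact hc z.1 (fun u hu => z.2 ⟨u, hu⟩)
  let e' : (Zbar ⧸ Q) ≃ₐ[Y ⧸ P] (Zbar ⧸ Q) := AlgEquiv.ofRingEquiv (f := e) hfix
  obtain ⟨⟨u, hu⟩, hue⟩ := Ideal.Quotient.stabilizerHom_surjective_of_profinite (G := U) P Q e'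
  have huD : (u : GalQ) ∈ A.decompositionSubgroup ℚ :=
    mem_decompositionSubgroup_of_smul_primeBelow hq hA (MulAction.mem_stabilizer_iff.mp hu)
  have hI' : (u : GalQ)⁻¹ * σ ∈ A.inertiaSubgroupIn ℚ := by
    refine mem_inertia_of_forall_zbar hq hA (mul_mem (inv_mem huD) hσD) fun x => ?_
    have h1 : Ideal.Quotient.mk Q ((u : GalQ) • x) = Ideal.Quotient.mk Q (σ • x) :=
      DFunLike.congr_fun hue (Ideal.Quotient.mk Q x)
    rw [Ideal.Quotient.eq, ← Ideal.smul_mem_pointwise_smul_iff (a := (u : GalQ)⁻¹),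
      smul_sub, inv_smul_smul] at h1
    have hu' : (u : GalQ)⁻¹ • Q = Q := by
      have := MulAction.mem_stabilizer_iff.mp hu
      rw [inv_smul_eq_iff]
      exact this.symm
    rw [hu', ← neg_mem_iff, neg_sub, smul_smul, mem_primeBelow] at h1
    exact h1
  have h2 := mul_mem u.2 (hI _ hI')
  rw [mul_inv_cancel_left] at h2
  exact hσU h2

end Subgroup

/-- A nonzero non-unit has a power divisible by any given power of `q`. -/
lemma exists_pow_div_mem (hq : q.Prime) (hA : A.LiesOverPrime q) {x : Qbar}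
    (hx : x ∈ A.nonunits) (a : ℕ) : ∃ m : ℕ, ∃ y ∈ A, x ^ m = (q : Qbar) ^ a * y := by
  rcases eq_or_ne x 0 with rfl | hx0
  · exact ⟨1, 0, A.zero_mem, by simp⟩
  have hv : FLTAgent.FreyUnramified.ResidueChar A.valuation q :=
    ⟨hq, fun n => (A.valuation_le_one_iff _).mpr (intCast_mem A n),
      (ValuationSubring.mem_nonunits_iff A).mp hA⟩
  obtain ⟨e, he, n, hn⟩ := hv.exists_pow_eq_zpow hx0
  have hvq0 : A.valuation (q : Qbar) ≠ 0 := hv.val_q_pos.ne'
  have hvx : A.valuation x ^ e < 1 :=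
    pow_lt_one₀ zero_le ((ValuationSubring.mem_nonunits_iff A).mp hx) he.ne'
  have hnpos : 0 < n := by
    by_contra hle
    rw [not_lt] at hle
    rw [hn] at hvx
    exact absurd hvx (not_lt.mpr (one_le_zpow_of_nonpos₀ hv.val_q_pos hv.lt_one.le hle))
  obtain ⟨k, rfl⟩ : ∃ k : ℕ, n = k := ⟨n.toNat, (Int.toNat_of_nonneg hnpos.le).symm⟩
  refine ⟨e * a, x ^ (e * a) / (q : Qbar) ^ a, ?_, ?_⟩
  · rw [← ValuationSubring.valuation_le_one_iff, map_div₀, map_pow, map_pow, pow_mul, hn,
      zpow_natCast, div_le_one₀ (pos_of_ne_zero (pow_ne_zero _ hvq0)), ← pow_mul]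
    exact pow_le_pow_right_of_le_one' hv.lt_one.le
      (Nat.le_mul_of_pos_left a (by exact_mod_cast hnpos))
  · rw [mul_div_cancel₀]
    exact pow_ne_zero _ (Nat.cast_ne_zero.mpr hq.ne_zero)

end FLTAgent.FiniteFlat
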