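import Fermat.Agent.FiniteFlat.Operations
import Fermat.Agent.FiniteFlat.Places

/-!
# From coordinates at one place, equivariant for inertia, to a finite flat model over `ℤ_(ℓ)`

Galois twists `twist σ f` of functions on a finite module, their open stabilisers and finite
orbits, and the arithmetic of `ℤ_(ℓ)` inside a place of `ℚ̄` over `ℓ` (denominators, fixed
elements, integrality).  These are the tools of the descent theorem in `Family`.
-/

set_option autoImplicit false

noncomputable section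

open scoped Pointwise
open GaloisRep

namespace FLTAgent.FiniteFlat

open FLTAgent.Density

section Twist

variable {M : Type} [AddCommGroup M]
variable (act : GalQ →* AddMonoid.End M)

/-- The Galois action on functions. -/
def twist (σ : GalQ) (f : M → Qbar) : M → Qbar := fun x => σ (f (act σ⁻¹ x))

/-- The Galois action on functions of two variables. -/
def twist₂ (σ : GalQ) (f : M × M → Qbar) : M × M → Qbar :=
  fun p => σ (f (act σ⁻¹ p.1, act σ⁻¹ p.2))

lemma act_inv_apply_act (σ : GalQ) (x : M) : act σ⁻¹ (act σ x) = x := by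
  have := DFunLike.congr_fun (map_mul act σ⁻¹ σ) x
  rw [inv_mul_cancel, map_one] at this
  exact this.symm

lemma act_apply_act_inv (σ : GalQ) (x : M) : act σ (act σ⁻¹ x) = x := by
  have := DFunLike.congr_fun (map_mul act σ σ⁻¹) x
  rw [mul_inv_cancel, map_one] at this
  exact this.symm

lemma twist_one (f : M → Qbar) : twist act 1 f = f := by
  funext x
  simp [twist]

lemma twist_mul (σ τ : GalQ) (f : M → Qbar) :
    twist act (σ * τ) f = twist act σ (twist act τ f) := by
  funext x
  simp only [twist, mul_inv_rev, map_mul]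
  rfl

lemma twist_eq_iff (σ : GalQ) (f : M → Qbar) :
    twist act σ f = f ↔ ∀ x, f (act σ x) = σ (f x) := by
  constructor
  · intro h x
    conv_lhs => rw [← h]
    simp [twist, act_inv_apply_act]
  · intro h
    funext x
    rw [twist, ← h, act_apply_act_inv]

/-- The stabiliser of a function. -/
def funStab (f : M → Qbar) : Subgroup GalQ where
  carrier := {σ | twist act σ f = f}
  one_mem' := twist_one act f
  mul_mem' {σ τ} hσ hτ := by
    show twist act (σ * τ) f = f
    rw [twist_mul, hτ, hσ]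
  inv_mem' {σ} hσ := by
    show twist act σ⁻¹ f = f
    conv_lhs => rw [← hσ]
    rw [← twist_mul, inv_mul_cancel, twist_one]

lemma isOpen_funStab [Finite M] (hcont : GaloisFactorsThroughFiniteLevel act) (f : M → Qbar) :
    IsOpen (funStab act f : Set GalQ) := by
  obtain ⟨L, hL, hact⟩ := hcont
  have := hL
  let L' := L ⊔ IntermediateField.adjoin ℚ (Set.range f)
  have : FiniteDimensional ℚ (IntermediateField.adjoin ℚ (Set.range f)) :=
    IntermediateField.finiteDimensional_adjoin (fun x _ => Algebra.IsIntegral.isIntegral x)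
  refine Subgroup.isOpen_mono (H₁ := L'.fixingSubgroup) (fun σ hσ => ?_)
    (IntermediateField.fixingSubgroup_isOpen L')
  rw [IntermediateField.mem_fixingSubgroup_iff] at hσ
  refine (twist_eq_iff act σ f).mpr fun x => ?_
  rw [hact σ fun z hz => hσ z (le_sup_left (b := IntermediateField.adjoin ℚ (Set.range f)) hz)]
  exact (hσ _ ((le_sup_right : _ ≤ L') (IntermediateField.subset_adjoin ℚ _ ⟨x, rfl⟩))).symm

lemma finite_range_twist [Finite M] (f : M → Qbar) :
    (Set.range fun σ : GalQ => twist act σ f).Finite := by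
  let V : Set Qbar := ⋃ z : M, (minpoly ℚ (f z)).rootSet Qbar
  have hV : V.Finite := Set.finite_iUnion fun z => Polynomial.rootSet_finite _ _
  refine ((Set.Finite.pi (t := fun _ : M => V) fun _ => hV).subset ?_)
  rintro _ ⟨σ, rfl⟩ x -
  refine Set.mem_iUnion.mpr ⟨act σ⁻¹ x, ?_⟩
  rw [Polynomial.mem_rootSet]
  refine ⟨minpoly.ne_zero (Algebra.IsIntegral.isIntegral _), ?_⟩
  show Polynomial.aeval (σ (f (act σ⁻¹ x))) _ = 0
  rw [Polynomial.aeval_algHom_apply, minpoly.aeval, map_zero]

end Twist

variable {A : ValuationSubring Qbar} {ℓ : ℕ}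

lemma exists_ellpow_mul_mem (hℓ : ℓ.Prime) (hA : A.LiesOverPrime ℓ) (x : Qbar) :
    ∃ n : ℕ, (ℓ : Qbar) ^ n * x ∈ A := by
  rcases A.mem_or_inv_mem x with hx | hx
  · exact ⟨0, by simpa using hx⟩
  rcases eq_or_ne x 0 with rfl | hx0
  · exact ⟨0, by simp⟩
  have hv : FLTAgent.FreyUnramified.ResidueChar A.valuation ℓ :=
    ⟨hℓ, fun n => (A.valuation_le_one_iff _).mpr (intCast_mem A n),
      (ValuationSubring.mem_nonunits_iff A).mp hA⟩
  obtain ⟨e, he, n, hn⟩ := hv.exists_pow_eq_zpow (inv_ne_zero hx0)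
  have hle : A.valuation x⁻¹ ≤ 1 := (A.valuation_le_one_iff _).mpr hx
  refine ⟨n.toNat, (A.valuation_le_one_iff _).mp ?_⟩
  have h1 : A.valuation (ℓ : Qbar) ^ n.toNat ≤ A.valuation x⁻¹ := by
    calc A.valuation (ℓ : Qbar) ^ n.toNat
        = A.valuation (ℓ : Qbar) ^ (n.toNat : ℤ) := (zpow_natCast _ _).symm
      _ ≤ A.valuation (ℓ : Qbar) ^ n :=
          zpow_le_zpow_right_of_le_one₀ hv.val_q_pos hv.lt_one.le (Int.self_le_toNat n)
      _ = A.valuation x⁻¹ ^ e := hn.symm
      _ ≤ A.valuation x⁻¹ := pow_le_of_le_one zero_le hle he.ne'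
  rw [map_mul, map_pow]
  refine le_of_le_of_eq (mul_le_mul_left h1 _) ?_
  rw [← map_mul, inv_mul_cancel₀ hx0, map_one]

/-- An element of a valuation ring fixed by the Galois group lies in `ℤ_(ℓ)`. -/
lemma exists_algebraMap_eq_of_fixed_of_mem (hℓ : ℓ.Prime) (hA : A.LiesOverPrime ℓ) {x : Qbar}
    (hfix : ∀ σ : GalQ, σ x = x) (hx : x ∈ A) :
    ∃ r : ratLocalizedAt ℓ, algebraMap (ratLocalizedAt ℓ) Qbar r = x := by
  obtain ⟨r, rfl⟩ := (InfiniteGalois.mem_range_algebraMap_iff_fixed x).mpr hfix
  refine ⟨⟨r, ?_⟩, rfl⟩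
  rw [mem_ratLocalizedAt_iff, Nat.coprime_comm, hℓ.coprime_iff_not_dvd]
  intro hdvd
  have hnum : ((r.num : ℤ) : Qbar) ∈ A.nonunits := by
    have h2 : (r.den : Qbar) ∈ A.nonunits := by
      simpa using (natCast_mem_nonunits_iff hℓ hA (r.den : ℤ)).mpr
          (Int.natCast_dvd_natCast.mpr hdvd)
    rw [show ((r.num : ℤ) : Qbar) = algebraMap ℚ Qbar r * (r.den : Qbar) by
      rw [← map_natCast (algebraMap ℚ Qbar), ← map_mul, Rat.mul_den_eq_num, map_intCast],
      ValuationSubring.mem_nonunits_iff, map_mul]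
    rw [ValuationSubring.mem_nonunits_iff] at h2
    exact (mul_le_of_le_one_left zero_le ((A.valuation_le_one_iff _).mpr hx)).trans_lt h2
  rw [natCast_mem_nonunits_iff hℓ hA] at hnum
  have h1 : ℓ ∣ r.num.natAbs := Int.natCast_dvd.mp hnum
  exact hℓ.ne_one (Nat.dvd_one.mp (r.reduced ▸ Nat.dvd_gcd h1 hdvd))

lemma ratLocalizedAt_le (hℓ : ℓ.Prime) (hA : A.LiesOverPrime ℓ) (r : ratLocalizedAt ℓ) :
    algebraMap (ratLocalizedAt ℓ) Qbar r ∈ A := by
  have hden : (((r : ℚ).den : ℕ) : Qbar) ∉ A.nonunits :=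
    natCast_notMem_nonunits hℓ hA ((Nat.Prime.coprime_iff_not_dvd hℓ).mp r.2.symm)
  rw [ValuationSubring.mem_nonunits_iff_or, not_or, not_not] at hden
  rw [show algebraMap (ratLocalizedAt ℓ) Qbar r = algebraMap ℚ Qbar (r : ℚ) from rfl, eq_ratCast,
    Rat.cast_def, div_eq_mul_inv]
  exact A.mul_mem _ _ (intCast_mem A _) hden.2

/-- An element integral over `ℤ_(ℓ)`: one lying in every valuation ring above `ℓ`. -/
lemma isIntegral_of_forall_mem (hℓ : ℓ.Prime) {x : Qbar}
    (h : ∀ B : ValuationSubring Qbar, B.LiesOverPrime ℓ → x ∈ B) :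
    IsIntegral (ratLocalizedAt ℓ) x := by
  let s : Set Qbar := Set.range (algebraMap (ratLocalizedAt ℓ) Qbar)
  have hx : x ∈ (integralClosure (Subring.closure s) Qbar).toSubring := by
    rw [← iInf_valuationSubring_superset, Subring.mem_iInf]
    rintro ⟨B, hB⟩
    by_cases hBℓ : B.LiesOverPrime ℓ
    · exact h B hBℓ
    · -- `ℓ` is a unit, so `B` contains every algebraic number
      have hdiv : ∀ n : ℕ, ((n : ℕ) : Qbar)⁻¹ ∈ B := by
        intro n
        induction n using Nat.recOnMul with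
        | zero => simp
        | one => simp
        | prime p hp =>
          by_cases hp' : p = ℓ
          · subst hp'
            have := hBℓ
            rw [ValuationSubring.LiesOverPrime, ValuationSubring.mem_nonunits_iff_or, not_or,
              not_not] at this
            exact this.2
          · refine hB ⟨⟨(p : ℚ)⁻¹, inv_natCast_mem_ratLocalizedAt
              ((Nat.coprime_primes hp hℓ).mpr hp')⟩, ?_⟩
            show algebraMap ℚ Qbar ((p : ℚ)⁻¹) = _
            rw [map_inv₀, map_natCast]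
        | mul a b ha hb => rw [Nat.cast_mul, mul_inv]; exact B.mul_mem _ _ ha hb
      obtain ⟨y, hy0, hy⟩ := IsAlgebraic.exists_integral_multiple (R := ℤ) (z := x)
        ((IsFractionRing.isAlgebraic_iff ℤ ℚ Qbar).mpr (Algebra.IsAlgebraic.isAlgebraic _))
      have h1 : ((y : ℤ) : Qbar)⁻¹ ∈ B := by
        rcases Int.natAbs_eq y with e | e <;> rw [e]
        · rw [Int.cast_natCast]; exact hdiv _
        · rw [Int.cast_neg, Int.cast_natCast, inv_neg]; exact B.neg_mem _ (hdiv _)
      have h2 := B.mul_mem _ _ h1 (mem_of_isIntegral B hy)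
      rwa [zsmul_eq_mul, ← mul_assoc, inv_mul_cancel₀ (Int.cast_ne_zero.mpr hy0), one_mul] at h2
  have hclosure : Subring.closure s = (algebraMap (ratLocalizedAt ℓ) Qbar).range :=
    le_antisymm (Subring.closure_le.mpr fun y hy => hy)
      (fun y hy => Subring.subset_closure hy)
  rw [hclosure] at hx
  let S := (algebraMap (ratLocalizedAt ℓ) Qbar).range
  obtain ⟨p, hpm, hp⟩ : IsIntegral S x := hx
  have hlift : p.map (algebraMap S Qbar) ∈
      Polynomial.lifts (algebraMap (ratLocalizedAt ℓ) Qbar) := by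
    rw [Polynomial.lifts_iff_coeff_lifts]
    intro n
    rw [Polynomial.coeff_map]
    exact (p.coeff n).2
  obtain ⟨g, hg, -, hgm⟩ := Polynomial.lifts_and_degree_eq_and_monic hlift (hpm.map _)
  refine ⟨g, hgm, ?_⟩
  rw [← Polynomial.eval_map, hg, Polynomial.eval_map]
  exact hp

end FLTAgent.FiniteFlat
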