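import Fermat.Agent.Deuring.PlaceMap
import Fermat.Agent.FFBasic.Degree
import Fermat.Prelude.Def_AlgebraicCurve_BaseChangeGalois

/-!
# Values of functions at places and their compatibility with a constant reduction

`evalPt v f` is the value of `f` at the place `v`, with its ring laws and its behaviour under
semilinear automorphisms.  `evalPt_reduction` says that it commutes with a constant reduction of
function fields.  Used throughout the coordinate construction.
-/

set_option autoImplicit false

noncomputable section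

open AlgebraicCurve FLTAgent.FFBasic

namespace FLTAgent.FiniteFlat

section Eval

variable {K F : Type*} [Field K] [Field F] [Algebra K F] [IsAlgClosed K] [IsFunctionField K F]

omit [IsAlgClosed K] [IsFunctionField K F] in
lemma mem_of_ord_nonneg' (v : Place K F) {f : F} (h : f ≠ 0 → 0 ≤ v.ord f) :
    f ∈ v.toValuationSubring := by
  rcases eq_or_ne f 0 with rfl | hf
  · exact zero_mem _
  · exact mem_of_ord_nonneg v (h hf)

lemma residueField_algebraMap_bijective (v : Place K F) :
    Function.Bijective (algebraMap K v.ResidueField) := by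
  have : Module.Finite K v.ResidueField := place_finite_residueField v
  exact IsAlgClosed.algebraMap_bijective_of_isIntegral

/-- The value of a function at a place (zero if it has a pole there). -/
def evalPt (v : Place K F) (f : F) : K :=
  (RingEquiv.ofBijective _ (residueField_algebraMap_bijective v)).symm (res v f)

lemma evalPt_eq_iff (v : Place K F) {f : F} (hf : f ∈ v.toValuationSubring) (c : K) :
    evalPt v f = c ↔ f - algebraMap K F c ∈ filt v 1 := by
  rw [evalPt, RingEquiv.symm_apply_eq]
  show res v f = algebraMap K v.ResidueField c ↔ _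
  rw [← res_eq_zero_iff v (sub_mem hf (v.algebraMap_mem' c)), sub_eq_add_neg, ← map_neg,
    res_add v hf (v.algebraMap_mem' _), res_algebraMap, map_neg, ← sub_eq_add_neg, sub_eq_zero]

@[simp] lemma evalPt_algebraMap (v : Place K F) (c : K) : evalPt v (algebraMap K F c) = c :=
  (evalPt_eq_iff v (v.algebraMap_mem' c) c).mpr (by rw [sub_self]; exact zero_mem _)

lemma evalPt_zero (v : Place K F) : evalPt v (0 : F) = 0 := by
  rw [← map_zero (algebraMap K F), evalPt_algebraMap]

lemma evalPt_add (v : Place K F) {f g : F} (hf : f ∈ v.toValuationSubring)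
    (hg : g ∈ v.toValuationSubring) : evalPt v (f + g) = evalPt v f + evalPt v g := by
  rw [evalPt, evalPt, evalPt, res_add v hf hg, map_add]

lemma evalPt_mul (v : Place K F) {f g : F} (hf : f ∈ v.toValuationSubring)
    (hg : g ∈ v.toValuationSubring) : evalPt v (f * g) = evalPt v f * evalPt v g := by
  rw [evalPt, evalPt, evalPt, res_mul v hf hg, map_mul]

lemma evalPt_smul (v : Place K F) (c : K) {f : F} (hf : f ∈ v.toValuationSubring) :
    evalPt v (c • f) = c * evalPt v f := by
  rw [Algebra.smul_def, evalPt_mul v (v.algebraMap_mem' c) hf, evalPt_algebraMap]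

lemma evalPt_sum (v : Place K F) {ι : Type*} (s : Finset ι) (f : ι → F)
    (hf : ∀ i ∈ s, f i ∈ v.toValuationSubring) :
    evalPt v (∑ i ∈ s, f i) = ∑ i ∈ s, evalPt v (f i) := by
  simp only [evalPt]
  rw [res_sum v s f hf, map_sum]

lemma evalPt_eq_zero_iff (v : Place K F) {f : F} (hf : f ∈ v.toValuationSubring) :
    evalPt v f = 0 ↔ f ∈ filt v 1 := by
  rw [evalPt_eq_iff v hf 0, map_zero, sub_zero]

lemma evalPt_eq_zero_iff_ord (v : Place K F) {f : F} (hf0 : f ≠ 0) (hord : 0 ≤ v.ord f) :
    evalPt v f = 0 ↔ 0 < v.ord f := by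
  rw [evalPt_eq_zero_iff v (mem_of_ord_nonneg v hord), mem_filt_iff_of_ne hf0]
  omega

lemma evalPt_ne_zero_of_ord_eq_zero (v : Place K F) {f : F} (hf0 : f ≠ 0) (h : v.ord f = 0) :
    evalPt v f ≠ 0 := by
  rw [Ne, evalPt_eq_zero_iff_ord v hf0 h.ge, h]
  exact lt_irrefl 0

omit [IsAlgClosed K] [IsFunctionField K F] in
lemma mem_of_mem_rr {D : Divisor K F} (v : Place K F) (hv : D v ≤ 0) {f : F}
    (hf : f ∈ riemannRochSpace D) : f ∈ v.toValuationSubring :=
  mem_of_ord_nonneg' v fun hf0 => by
    have := (mem_riemannRochSpace_iff.mp hf v).resolve_left hf0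
    omega

/-- Evaluation at a family of places, linear on a Riemann–Roch space avoiding them. -/
def evalLin {τ : Type*} (D : Divisor K F) (pt : τ → Place K F) (hD : ∀ t, D (pt t) ≤ 0) :
    riemannRochSpace D →ₗ[K] (τ → K) where
  toFun f t := evalPt (pt t) (f : F)
  map_add' f g := funext fun t =>
    evalPt_add _ (mem_of_mem_rr _ (hD t) f.2) (mem_of_mem_rr _ (hD t) g.2)
  map_smul' c f := funext fun t => evalPt_smul _ c (mem_of_mem_rr _ (hD t) f.2)

@[simp] lemma evalLin_apply {τ : Type*} (D : Divisor K F) (pt : τ → Place K F)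
    (hD : ∀ t, D (pt t) ≤ 0) (f : riemannRochSpace D) (t : τ) :
    evalLin D pt hD f t = evalPt (pt t) (f : F) := rfl

/-- Semilinear equivariance of values. -/
lemma evalPt_smul_semilinear (g : SemilinearAut K F) (v : Place K F) {f : F}
    (hf : f ∈ v.toValuationSubring) :
    evalPt (g • v) (g • f) = SemilinearAut.baseAut g (evalPt v f) := by
  have hgf : g • f ∈ (g • v).toValuationSubring :=
    mem_of_ord_nonneg' _ fun _ => by rw [SemilinearAut.ord_smul]; exact ord_nonneg_of_mem v hf
  rw [evalPt_eq_iff _ hgf, ← SemilinearAut.smul_algebraMap, ← smul_sub]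
  have hmem := (evalPt_eq_iff v hf (evalPt v f)).mp rfl
  rcases eq_or_ne (f - algebraMap K F (evalPt v f)) 0 with h0 | h0
  · rw [h0, smul_zero]
    exact zero_mem _
  · refine mem_filt_of_le ?_
    rw [SemilinearAut.ord_smul]
    exact le_ord_of_mem_filt hmem h0

end Eval

section Reduction

open FLTAgent.Deuring

variable {L k F Fb : Type*} [Field L] [Field k] [Field F] [Field Fb]
  [Algebra L F] [Algebra k Fb] [IsAlgClosed L] [IsAlgClosed k]
  [IsFunctionField L F] [IsFunctionField k Fb]
variable {C : Reduction L k F Fb} {r : Place L F → Place k Fb}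

/-- A function of `O` without poles in the residue class of `P` has an integral value at `P`,
reducing to the value of its reduction. -/
theorem evalPt_reduction (hr : C.IsReductionMap r) (u : C.O) (P : Place L F)
    (hpol : ∀ P', r P' = r P → (u : F) ∈ P'.toValuationSubring) :
    ∃ a : C.A, (a : L) = evalPt P (u : F) ∧ C.π a = evalPt (r P) (C.res u) ∧
      C.res u ∈ (r P).toValuationSubring := by
  classical
  -- the order of a reduction is the sum of the orders in the residue class
  have key : ∀ w : C.O, C.res w ≠ 0 → (∀ P', r P' = r P → (w : F) ∈ P'.toValuationSubring) →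
      0 ≤ (r P).ord (C.res w) ∧ (0 < P.ord (w : F) → 0 < (r P).ord (C.res w)) := by
    intro w hw hreg
    have hw0 : (w : F) ≠ 0 := fun h => hw (by rw [show w = 0 from Subtype.ext h, map_zero])
    have h := hr.2 w hw (divFun (w : F)) (fun Q => divFun_apply _ Q) (r P)
    rw [Finsupp.mapDomain, Finsupp.sum_apply] at h
    have hterm : ∀ Q ∈ (divFun (K := L) (w : F)).support,
        0 ≤ (Finsupp.single (r Q) ((divFun (K := L) (w : F)) Q)) (r P) := by
      intro Q _
      rw [Finsupp.single_apply]
      split_ifs with hQ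
      · rw [divFun_apply]; exact ord_nonneg_of_mem Q (hreg Q hQ)
      · exact le_rfl
    constructor
    · rw [← h]
      exact Finset.sum_nonneg hterm
    · intro hP
      rw [← h]
      have hmem : P ∈ (divFun (K := L) (w : F)).support := by
        rw [Finsupp.mem_support_iff, divFun_apply]; omega
      refine lt_of_lt_of_le ?_ (Finset.single_le_sum hterm hmem)
      rw [Finsupp.single_eq_same, divFun_apply]
      exact hP
  set c := evalPt P (u : F) with hc
  have hmemP := hpol P rfl
  have hsub : (u : F) - algebraMap L F c ∈ filt P 1 := (evalPt_eq_iff P hmemP c).mp rfl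
  have hcA : c ∈ C.A := by
    by_contra hcA
    have hc0 : c ≠ 0 := fun h => hcA (h ▸ C.A.zero_mem)
    obtain ⟨hinv, hπ⟩ := C.inv_mem_of_not_mem hcA
    let w : C.O := C.ι ⟨c⁻¹, hinv⟩ * u - 1
    have hw : C.res w = -1 := by
      show C.res (C.ι ⟨c⁻¹, hinv⟩ * u - 1) = -1
      rw [map_sub, map_mul, C.res_ι, hπ, map_zero, zero_mul, zero_sub, map_one]
    have hwF : (w : F) = algebraMap L F c⁻¹ * ((u : F) - algebraMap L F c) := by
      show algebraMap L F c⁻¹ * (u : F) - 1 = _
      rw [mul_sub, ← map_mul, inv_mul_cancel₀ hc0, map_one]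
    have hk := key w (by rw [hw]; exact neg_ne_zero.mpr one_ne_zero) fun P' hP' =>
      sub_mem (mul_mem (P'.algebraMap_mem' _) (hpol P' hP')) (one_mem _)
    have hne : (w : F) ≠ 0 := fun h => by
      have h2 : C.res w = 0 := by rw [show w = 0 from Subtype.ext h, map_zero]
      rw [hw] at h2
      exact neg_ne_zero.mpr one_ne_zero h2
    have hpos : 0 < P.ord (w : F) := by
      have hw1 : (w : F) ∈ filt P 1 := by
        rw [hwF, ← Algebra.smul_def]
        exact Submodule.smul_mem _ _ hsub
      have := le_ord_of_mem_filt hw1 hne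
      omega
    have := hk.2 hpos
    rw [hw, ord_neg, Place.ord_one] at this
    exact lt_irrefl 0 this
  let w : C.O := u - C.ι ⟨c, hcA⟩
  refine ⟨⟨c, hcA⟩, rfl, ?_⟩
  have hres : C.res w = C.res u - algebraMap k Fb (C.π ⟨c, hcA⟩) := by
    show C.res (u - C.ι ⟨c, hcA⟩) = _
    rw [map_sub, C.res_ι]
  rcases eq_or_ne (C.res w) 0 with h0 | h0
  · rw [hres, sub_eq_zero] at h0
    rw [h0, evalPt_algebraMap]
    exact ⟨rfl, (r P).algebraMap_mem' _⟩
  have hk := key w h0 fun P' hP' => sub_mem (hpol P' hP') (P'.algebraMap_mem' _)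
  have hwne : (w : F) ≠ 0 := fun h => h0 (by rw [show w = 0 from Subtype.ext h, map_zero])
  have hpos : 0 < (r P).ord (C.res w) :=
    hk.2 (lt_of_lt_of_le zero_lt_one (le_ord_of_mem_filt (f := (w : F)) hsub hwne))
  have hu : C.res u ∈ (r P).toValuationSubring := by
    rw [← sub_add_cancel (C.res u) (algebraMap k Fb (C.π ⟨c, hcA⟩)), ← hres]
    exact add_mem (mem_of_ord_nonneg _ hpos.le) ((r P).algebraMap_mem' _)
  refine ⟨((evalPt_eq_iff _ hu _).mpr ?_).symm, hu⟩
  rw [← hres]
  exact mem_filt_of_le (by omega)

/-- The same, with the pole hypothesis stated by a divisor. -/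
theorem evalPt_reduction_of_mem_rr (hr : C.IsReductionMap r) (u : C.O) (P : Place L F)
    {E : Divisor L F} (hu : (u : F) ∈ riemannRochSpace E) (hE : ∀ P', r P' = r P → E P' ≤ 0) :
    ∃ a : C.A, (a : L) = evalPt P (u : F) ∧ C.π a = evalPt (r P) (C.res u) ∧
      C.res u ∈ (r P).toValuationSubring :=
  evalPt_reduction hr u P fun P' hP' => mem_of_mem_rr P' (hE P' hP') hu

end Reduction

end FLTAgent.FiniteFlat
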