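import Fermat.Agent.FiniteFlat.Descent

/-!
# The descent theorem

`hasFlatModel_of_coordinates`: integral, separating coordinates on a finite Galois module which
are equivariant for inertia at one place and compatible with addition give a finite flat model
over `ℤ_(ℓ)`, namely the algebra `modelAlg` generated by their Galois twists.  Applied to `J₀(N)`
in `JZeroModel`.
-/

set_option autoImplicit false

noncomputable section

open scoped Pointwise
open GaloisRep

namespace FLTAgent.FiniteFlat

open FLTAgent.Density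

variable {A : ValuationSubring Qbar} {ℓ : ℕ}
variable {M : Type} [AddCommGroup M] {act : GalQ →* AddMonoid.End M}

/-- Pullback over the valuation ring. -/
def pullbackA {X Y : Type} (g : X → Y) : (Y → Qbar) →ₐ[A] (X → Qbar) where
  toFun f := f ∘ g
  map_one' := rfl
  map_mul' _ _ := rfl
  map_zero' := rfl
  map_add' _ _ := rfl
  commutes' _ := rfl

lemma apply_mem_of_mem_adjoin {X : Type} {S : Set (X → Qbar)} (hS : ∀ g ∈ S, ∀ x, g x ∈ A)
    {g : X → Qbar} (hg : g ∈ Algebra.adjoin A S) : ∀ x, g x ∈ A := by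
  induction hg using Algebra.adjoin_induction with
  | mem g hg => exact hS g hg
  | algebraMap a => exact fun x => a.2
  | add a b _ _ ha hb => exact fun x => A.add_mem _ _ (ha x) (hb x)
  | mul a b _ _ ha hb => exact fun x => A.mul_mem _ _ (ha x) (hb x)

/-- The span over the valuation ring of an `R`-algebra of functions is a subalgebra. -/
def spanAlg {X : Type} (A : ValuationSubring Qbar)
    (H : Subalgebra (ratLocalizedAt ℓ) (X → Qbar)) : Subalgebra A (X → Qbar) :=
  (Submodule.span A (H : Set (X → Qbar))).toSubalgebra (Submodule.subset_span H.one_mem)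
    fun a b ha hb => by
      have := Submodule.mul_mem_mul ha hb
      rw [Submodule.span_mul_span] at this
      refine Submodule.span_mono ?_ this
      rintro _ ⟨u, hu, v, hv, rfl⟩
      exact H.mul_mem hu hv

lemma mem_spanAlg {X : Type} {H : Subalgebra (ratLocalizedAt ℓ) (X → Qbar)} {f : X → Qbar} :
    f ∈ spanAlg A H ↔ f ∈ Submodule.span A (H : Set (X → Qbar)) := Iff.rfl

/-- Descent: an equivariant element of the span over the valuation ring of equivariant functions
is in their span over `ℤ_(ℓ)`. -/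
lemma mem_of_mem_span {X : Type} (hℓ : ℓ.Prime) (hA : A.LiesOverPrime ℓ)
    {actX : GalQ → X → X} (hsurj : ∀ σ, Function.Surjective (actX σ))
    {H : Subalgebra (ratLocalizedAt ℓ) (X → Qbar)} (hH : ∀ f ∈ H, IsEquivFun actX f)
    {F : X → Qbar} (hF : IsEquivFun actX F) (hFA : F ∈ Submodule.span A (H : Set (X → Qbar))) :
    F ∈ H := by
  classical
  obtain ⟨n, c, g, hFsum⟩ := Submodule.mem_span_set'.mp hFA
  let N : Submodule (ratLocalizedAt ℓ) (X → Qbar) :=
    Submodule.span (ratLocalizedAt ℓ) (Set.range fun k : Fin n => (g k : X → Qbar))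
  have hNH : ∀ f ∈ N, f ∈ H := fun f hf =>
    (Submodule.span_le (p := Subalgebra.toSubmodule H)).mpr
      (by rintro _ ⟨k, rfl⟩; exact (g k).2) hf
  have : Module.Finite (ratLocalizedAt ℓ) N :=
    Module.Finite.span_of_finite _ (Set.finite_range _)
  have : Module.Free (ratLocalizedAt ℓ) N := Module.free_of_finite_type_torsion_free'
  let e := Module.Free.chooseBasis (ratLocalizedAt ℓ) N
  have heq : ∀ i, IsEquivFun actX (e i : X → Qbar) := fun i => hH _ (hNH _ (e i).2)
  have hli : LinearIndependent Qbar (fun i => (e i : X → Qbar)) :=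
    linearIndependent_qbar_of_equivariant hsurj heq
      (e.linearIndependent.map' N.subtype (Submodule.ker_subtype N))
  let d : Module.Free.ChooseBasisIndex (ratLocalizedAt ℓ) N → Qbar := fun i =>
    ∑ k, (c k : Qbar) * algebraMap (ratLocalizedAt ℓ) Qbar
      (e.repr ⟨(g k : X → Qbar), Submodule.subset_span ⟨k, rfl⟩⟩ i)
  have hFd : F = ∑ i, d i • (e i : X → Qbar) := by
    simp only [d, Finset.sum_smul]
    rw [Finset.sum_comm, ← hFsum]
    refine Finset.sum_congr rfl fun k _ => ?_
    have h1 := congrArg Subtype.val (e.sum_repr ⟨(g k : X → Qbar), Submodule.subset_span ⟨k, rfl⟩⟩)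
    simp only [AddSubmonoidClass.coe_finsetSum, SetLike.val_smul] at h1
    conv_lhs => rw [← h1]
    rw [Finset.smul_sum]
    refine Finset.sum_congr rfl fun i _ => ?_
    rw [mul_smul, algebraMap_smul]
    rfl
  have hfix : ∀ i, ∀ σ : GalQ, σ (d i) = d i := by
    intro i σ
    have hzero : ∑ j, (σ (d j) - d j) • (e j : X → Qbar) = 0 := by
      funext x
      obtain ⟨y, rfl⟩ := hsurj σ x
      have h1 := hF σ y
      rw [hFd] at h1
      simp only [Finset.sum_apply, Pi.smul_apply, smul_eq_mul, map_sum, map_mul] at h1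
      simp only [Finset.sum_apply, Pi.smul_apply, smul_eq_mul, Pi.zero_apply, sub_mul,
        Finset.sum_sub_distrib, sub_eq_zero]
      rw [h1]
      exact Finset.sum_congr rfl fun j _ => by rw [heq j σ y]
    exact sub_eq_zero.mp (Fintype.linearIndependent_iff.mp hli _ hzero i)
  have hdA : ∀ i, d i ∈ A := fun i =>
    sum_mem fun k _ => A.mul_mem _ _ (c k).2 (ratLocalizedAt_le hℓ hA _)
  choose r hr using fun i => exists_algebraMap_eq_of_fixed_of_mem hℓ hA (hfix i) (hdA i)
  rw [hFd]
  refine H.sum_mem fun i _ => ?_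
  rw [← hr i, algebraMap_smul]
  exact H.smul_mem (hNH _ (e i).2) (r i)

variable (act)

/-- The twists by the decomposition group of a family of functions. -/
def twistSet (A : ValuationSubring Qbar) {ι : Type} (φ : ι → M → Qbar) : Set (M → Qbar) :=
  {g | ∃ d ∈ A.decompositionSubgroup ℚ, ∃ i, g = twist act d (φ i)}

/-- The equivariant functions in the algebra generated by the twists. -/
def modelAlg (hℓ : ℓ.Prime) (hA : A.LiesOverPrime ℓ) {ι : Type} (φ : ι → M → Qbar) :
    Subalgebra (ratLocalizedAt ℓ) (M → Qbar) where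
  carrier := {f | (∀ σ x, f (act σ x) = σ (f x)) ∧ f ∈ Algebra.adjoin A (twistSet act A φ)}
  mul_mem' {f g} hf hg := ⟨fun σ x => by simp [hf.1, hg.1], mul_mem hf.2 hg.2⟩
  one_mem' := ⟨fun σ x => by simp, one_mem _⟩
  add_mem' {f g} hf hg := ⟨fun σ x => by simp [hf.1, hg.1], add_mem hf.2 hg.2⟩
  zero_mem' := ⟨fun σ x => by simp, zero_mem _⟩
  algebraMap_mem' r := ⟨fun σ x => by
      simp only [Pi.algebraMap_apply, IsScalarTower.algebraMap_apply (ratLocalizedAt ℓ) ℚ Qbar,
        AlgEquiv.commutes],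
    Subalgebra.algebraMap_mem _ (⟨_, ratLocalizedAt_le hℓ hA r⟩ : A)⟩

variable {act}

lemma twist_mem_adjoin {ι : Type} {φ : ι → M → Qbar} {d : GalQ}
    (hd : d ∈ A.decompositionSubgroup ℚ) {g : M → Qbar}
    (hg : g ∈ Algebra.adjoin A (twistSet act A φ)) :
    twist act d g ∈ Algebra.adjoin A (twistSet act A φ) := by
  induction hg using Algebra.adjoin_induction with
  | mem g hg =>
    obtain ⟨d', hd', i, rfl⟩ := hg
    refine Algebra.subset_adjoin ⟨d * d', mul_mem hd hd', i, ?_⟩
    rw [twist_mul]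
  | algebraMap a =>
    rw [show twist act d (algebraMap A (M → Qbar) a) =
        algebraMap A (M → Qbar) ⟨d (a : Qbar), (apply_mem_iff hd _).mpr a.2⟩ from rfl]
    exact Subalgebra.algebraMap_mem _ _
  | add a b _ _ ha hb =>
    rw [show twist act d (a + b) = twist act d a + twist act d b from
      funext fun x => map_add d _ _]
    exact add_mem ha hb
  | mul a b _ _ ha hb =>
    rw [show twist act d (a * b) = twist act d a * twist act d b from
      funext fun x => map_mul d _ _]
    exact mul_mem ha hb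

/-- Every function is a multiple by a power of `ℓ` of an element of the algebra generated by the
twists, when the family separates points. -/
lemma exists_ellpow_smul_mem [Finite M] (hℓ : ℓ.Prime) (hA : A.LiesOverPrime ℓ) {ι : Type}
    {φ : ι → M → Qbar} (hint : ∀ i x, φ i x ∈ A) (hsep : ∀ x y, (∀ i, φ i x = φ i y) → x = y)
    (f : M → Qbar) :
    ∃ n : ℕ, (ℓ : Qbar) ^ n • f ∈ Algebra.adjoin A (twistSet act A φ) := by
  classical
  have := Fintype.ofFinite M
  set S := Algebra.adjoin A (twistSet act A φ)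
  have hφS : ∀ i, φ i ∈ S := fun i =>
    Algebra.subset_adjoin ⟨1, one_mem _, i, (twist_one act _).symm⟩
  have hind : ∀ x : M, ∃ d : Qbar, d ≠ 0 ∧ d • (Pi.single x 1 : M → Qbar) ∈ S := by
    intro x
    have hfac : ∀ y, ∃ u ∈ S, u x ≠ 0 ∧ (y ≠ x → u y = 0) := by
      intro y
      by_cases hy : y = x
      · exact ⟨1, one_mem S, one_ne_zero, fun hne => absurd hy hne⟩
      · have hex : ∃ i, φ i x ≠ φ i y := by
          by_contra hc
          push Not at hc
          exact hy (hsep x y hc).symm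
        obtain ⟨i, hne⟩ := hex
        exact ⟨φ i - algebraMap A (M → Qbar) ⟨φ i y, hint i y⟩,
          sub_mem (hφS i) (S.algebraMap_mem _), sub_ne_zero.mpr hne, fun _ => sub_self _⟩
    choose u huS hux huy using hfac
    refine ⟨∏ y, u y x, Finset.prod_ne_zero_iff.mpr fun y _ => hux y, ?_⟩
    convert (prod_mem (fun y (_ : y ∈ Finset.univ) => huS y) : ∏ y, u y ∈ S) using 1
    funext z
    rw [Finset.prod_apply, Pi.smul_apply, smul_eq_mul]
    by_cases hz : z = x
    · subst hz
      rw [Pi.single_eq_same, mul_one]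
    · rw [Pi.single_eq_of_ne hz, mul_zero]
      exact (Finset.prod_eq_zero (f := fun y => u y z) (Finset.mem_univ z) (huy z hz)).symm
  choose d hd0 hd using hind
  choose n hn using fun x => exists_ellpow_mul_mem hℓ hA (f x / d x)
  refine ⟨Finset.univ.sup n, ?_⟩
  have hmem : ∀ x, (ℓ : Qbar) ^ Finset.univ.sup n * (f x / d x) ∈ A := fun x => by
    obtain ⟨k, hk⟩ := Nat.exists_eq_add_of_le (Finset.le_sup (f := n) (Finset.mem_univ x))
    rw [hk, pow_add, mul_comm _ ((ℓ : Qbar) ^ k), mul_assoc]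
    exact A.mul_mem _ _ (A.toSubring.pow_mem (natCast_mem A ℓ) k) (hn x)
  have : (ℓ : Qbar) ^ Finset.univ.sup n • f =
      ∑ x, (⟨_, hmem x⟩ : A) • (d x • (Pi.single x 1 : M → Qbar)) := by
    funext z
    rw [Finset.sum_apply, Finset.sum_eq_single z
      (fun x _ hx => by simp [Pi.single_eq_of_ne (Ne.symm hx)])
      (fun hc => absurd (Finset.mem_univ z) hc)]
    show (ℓ : Qbar) ^ _ * f z =
      ((ℓ : Qbar) ^ Finset.univ.sup n * (f z / d z)) * (d z * (Pi.single z 1 : M → Qbar) z)
    rw [Pi.single_eq_same, mul_one, mul_assoc, div_mul_cancel₀ _ (hd0 z)]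
  rw [this]
  exact sum_mem fun x _ => S.smul_mem (hd x) _

omit [AddCommGroup M] in
/-- An element of `A` outside the maximal ideal has valuation one. -/
private lemma valuation_eq_one_of_notMem_nonunits {x : Qbar} (hx : x ∈ A) (hx' : x ∉ A.nonunits) :
    A.valuation x = 1 :=
  le_antisymm ((A.valuation_le_one_iff _).mpr hx)
    (not_lt.mp fun hlt => hx' ((ValuationSubring.mem_nonunits_iff A).mpr hlt))

/-- Inertia fixes every twist of the family by the decomposition group. -/
private lemma inertia_mem_funStab {ι : Type} {φ : ι → M → Qbar}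
    (hfix : ∀ i, ∀ τ ∈ A.inertiaSubgroupIn ℚ, ∀ x, φ i (act τ x) = τ (φ i x)) {ψ : M → Qbar}
    (hψ : ψ ∈ twistSet act A φ) {τ : GalQ} (hτ : τ ∈ A.inertiaSubgroupIn ℚ) :
    τ ∈ funStab act ψ := by
  obtain ⟨d, hd, i, rfl⟩ := hψ
  have hconj : d⁻¹ * τ * d ∈ A.inertiaSubgroupIn ℚ := by
    have h1 := mem_inertiaSubgroupIn_smul hτ d⁻¹
    rw [MulAction.mem_stabilizer_iff.mp (inv_mem hd), inv_inv] at h1
    exact h1
  show twist act τ (twist act d (φ i)) = twist act d (φ i)
  rw [← twist_mul, show τ * d = d * (d⁻¹ * τ * d) by group, twist_mul,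
    (twist_eq_iff act _ _).mpr fun x => hfix i _ hconj x]

/-- An integer fixed by an open subgroup `U` containing inertia that separates `σ ∉ U` from `1`,
and is a unit with non-unit image when `σ` is outside the double coset of `1`. -/
private lemma exists_fixed_sep {U : Subgroup GalQ} (hU : IsOpen (U : Set GalQ)) (hℓ : ℓ.Prime)
    (hA : A.LiesOverPrime ℓ) (hI : ∀ τ ∈ A.inertiaSubgroupIn ℚ, τ ∈ U) (σ : GalQ) :
    ∃ z : Zbar, (∀ u ∈ U, u • z = z) ∧ (σ ∉ U → (z : Qbar) - σ (z : Qbar) ∉ A.nonunits) ∧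
      ((¬ ∃ d ∈ A.decompositionSubgroup ℚ, ∃ u ∈ U, σ = d * u) →
        (z : Qbar) ∉ A.nonunits ∧ σ (z : Qbar) ∈ A.nonunits) := by
  by_cases hout : ∃ d ∈ A.decompositionSubgroup ℚ, ∃ u ∈ U, σ = d * u
  swap
  · obtain ⟨z, hz, hz1, hz2⟩ := exists_fixed_sep_outside U hU hℓ hA hout
    refine ⟨z, hz, fun _ hmem => hz1 ?_, fun _ => ⟨hz1, hz2⟩⟩
    rw [← sub_add_cancel (z : Qbar) (σ (z : Qbar))]
    exact (ValuationSubring.mem_nonunits_iff A).mpr
      (A.valuation.map_add_lt ((ValuationSubring.mem_nonunits_iff A).mp hmem)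
        ((ValuationSubring.mem_nonunits_iff A).mp hz2))
  by_cases hσ : σ ∈ U
  · exact ⟨1, fun u _ => smul_one u, fun h => absurd hσ h, fun h => absurd hout h⟩
  obtain ⟨d, hd, u, hu, rfl⟩ := hout
  obtain ⟨z, hz, hz1⟩ :=
    exists_fixed_sep_inside U hU hℓ hA hI hd fun hdU => hσ (mul_mem hdU hu)
  refine ⟨z, hz, fun _ hmem => hz1 ?_, fun h => absurd ⟨d, hd, u, hu, rfl⟩ h⟩
  rw [AlgEquiv.mul_apply, show u (z : Qbar) = z from congrArg Subtype.val (hz u hu)] at hmem
  rw [ValuationSubring.mem_nonunits_iff] at hmem ⊢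
  rwa [Valuation.map_sub_swap] at hmem

/-- A unit fixed by `U` whose conjugates at the indices of `Out` are divisible by prescribed
powers of `ℓ`. -/
private lemma exists_unit_multiplier {κ : Type} [Fintype κ] (hℓ : ℓ.Prime)
    (hA : A.LiesOverPrime ℓ) (U : Subgroup GalQ) (σ : κ → GalQ) (Out : κ → Prop) (z : κ → Zbar)
    (hz : ∀ g, ∀ u ∈ U, u • z g = z g)
    (hout : ∀ g, Out g → (z g : Qbar) ∉ A.nonunits ∧ σ g (z g : Qbar) ∈ A.nonunits)
    (n : κ → ℕ) :
    ∃ e : Zbar, (∀ u ∈ U, u • e = e) ∧ (e : Qbar) ∉ A.nonunits ∧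
      ∀ g, Out g → ∃ w ∈ A, σ g (e : Qbar) = (ℓ : Qbar) ^ n g * w := by
  classical
  choose m hm using fun g =>
    (if h : Out g then (exists_pow_div_mem hℓ hA (hout g h).2 (n g)).imp fun m hm _ => hm
      else ⟨0, fun h' => absurd h' h⟩ :
      ∃ m : ℕ, Out g → ∃ y ∈ A, σ g (z g : Qbar) ^ m = (ℓ : Qbar) ^ n g * y)
  refine ⟨∏ g, if Out g then z g ^ m g else 1, fun u hu => ?_, fun h => ?_, fun g hg => ?_⟩
  · rw [Finset.smul_prod']
    refine Finset.prod_congr rfl fun g _ => ?_
    split_ifs
    · rw [smul_pow', hz g u hu]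
    · rw [smul_one]
  · obtain ⟨g, -, hg⟩ := (Ideal.IsPrime.prod_mem_iff (hp :=
        (inferInstance : (primeBelow A).IsPrime))).mp (mem_primeBelow.mpr h)
    split_ifs at hg with hout'
    · exact (hout g hout').1 (mem_primeBelow.mp (Ideal.IsPrime.mem_of_pow_mem inferInstance _ hg))
    · exact (Ideal.IsPrime.ne_top (I := primeBelow A) inferInstance)
        ((Ideal.eq_top_iff_one _).mpr hg)
  · obtain ⟨w, hwA, hw⟩ := hm g hg
    set rest : Zbar := ∏ g' ∈ Finset.univ.erase g, if Out g' then z g' ^ m g' else 1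
    refine ⟨w * σ g (rest : Qbar), A.mul_mem _ _ hwA (mem_of_isIntegral A (σ g • rest : Zbar).2),
      ?_⟩
    rw [← Finset.mul_prod_erase Finset.univ _ (Finset.mem_univ g), if_pos hg]
    show σ g ((z g : Qbar) ^ m g * (rest : Qbar)) = _
    rw [map_mul, map_pow, hw, mul_assoc]

/-- The sum over the orbit of `ψ`, weighted by the conjugates of an integer fixed by its
stabiliser, is equivariant. -/
private lemma sum_twists_apply_act {ψ : M → Qbar}
    [Fintype (Set.range fun σ : GalQ => twist act σ ψ)]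
    {s : (Set.range fun σ : GalQ => twist act σ ψ) → GalQ} (hs : ∀ g, twist act (s g) ψ = g.1)
    {b : Zbar} (hb : ∀ u ∈ funStab act ψ, u • b = b) (σ : GalQ) (x : M) :
    (∑ g, s g (b : Qbar) • g.1) (act σ x) = σ ((∑ g, s g (b : Qbar) • g.1) x) := by
  let π : (Set.range fun σ : GalQ => twist act σ ψ) → Set.range fun σ : GalQ => twist act σ ψ :=
    fun g => ⟨twist act σ g.1, σ * s g, by
      show twist act (σ * s g) ψ = twist act σ g.1
      rw [twist_mul, hs g]⟩
  have hπinj : Function.Injective π := fun a b hab => Subtype.ext <| by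
    have := congrArg (fun t => twist act σ⁻¹ (Subtype.val t)) hab
    simpa [π, ← twist_mul, inv_mul_cancel, twist_one] using this
  simp only [Finset.sum_apply, Pi.smul_apply, smul_eq_mul, map_sum, map_mul]
  symm
  refine Fintype.sum_bijective π ⟨hπinj, Finite.injective_iff_surjective.mp hπinj⟩ _ _ fun g => ?_
  have hmemU : (s (π g))⁻¹ * (σ * s g) ∈ funStab act ψ := by
    show twist act ((s (π g))⁻¹ * (σ * s g)) ψ = ψ
    rw [twist_mul, twist_mul, hs g, show twist act σ g.1 = (π g).1 from rfl, ← hs (π g),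
      ← twist_mul, inv_mul_cancel, twist_one]
  have h2 := congrArg Subtype.val (hb _ hmemU)
  rw [zbar_smul_coe, AlgEquiv.mul_apply] at h2
  have h3 := congrArg (s (π g)) h2
  rw [← AlgEquiv.mul_apply (s (π g)), mul_inv_cancel, AlgEquiv.one_apply,
    AlgEquiv.mul_apply] at h3
  rw [← h3]
  congr 1
  show σ (g.1 x) = twist act σ g.1 (act σ x)
  rw [twist, act_inv_apply_act]

/-- A conjugate of `ψ` weighted by `τ b` is in the algebra of the twists, if `τ b` absorbs the
denominator whenever `τ` is outside the double coset of `1`. -/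
private lemma smul_twist_mem_adjoin {ι : Type} {φ : ι → M → Qbar} {ψ g : M → Qbar}
    (hψ : ψ ∈ twistSet act A φ) {τ : GalQ} (hg : twist act τ ψ = g) {b : Zbar} {k : ℕ}
    (hk : (ℓ : Qbar) ^ k • g ∈ Algebra.adjoin A (twistSet act A φ))
    (hout : (¬ ∃ d ∈ A.decompositionSubgroup ℚ, ∃ u ∈ funStab act ψ, τ = d * u) →
      ∃ w ∈ A, τ (b : Qbar) = (ℓ : Qbar) ^ k * w) :
    τ (b : Qbar) • g ∈ Algebra.adjoin A (twistSet act A φ) := by
  by_cases hin : ∃ d ∈ A.decompositionSubgroup ℚ, ∃ u ∈ funStab act ψ, τ = d * u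
  · obtain ⟨d, hd, u, hu, rfl⟩ := hin
    rw [show (d * u) (b : Qbar) • g =
      (⟨_, mem_of_isIntegral A ((d * u) • b : Zbar).2⟩ : A) • g from rfl]
    refine Subalgebra.smul_mem _ ?_ _
    rw [← hg, twist_mul, show twist act u ψ = ψ from hu]
    exact twist_mem_adjoin hd (Algebra.subset_adjoin hψ)
  · obtain ⟨w, hwA, hw⟩ := hout hin
    rw [show τ (b : Qbar) • g = (⟨w, hwA⟩ : A) • ((ℓ : Qbar) ^ k • g) from funext fun x => by
      show τ (b : Qbar) * g x = w * ((ℓ : Qbar) ^ k * g x)
      rw [hw]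
      ring]
    exact Subalgebra.smul_mem _ hk _

/-- The other conjugates are removed one by one. -/
private lemma sum_prod_sub_smul_mem {X κ : Type} [Fintype κ] (Λ : Submodule A (X → Qbar))
    (U : Subgroup GalQ) (σ : κ → GalQ) (v : κ → X → Qbar) (z : κ → Zbar)
    (hz : ∀ g, ∀ u ∈ U, u • z g = z g) (e : Zbar)
    (h : ∀ y : Zbar, (∀ u ∈ U, u • y = y) → ∑ g, σ g ((e * y : Zbar) : Qbar) • v g ∈ Λ)
    (T : Finset κ) : ∀ y : Zbar, (∀ u ∈ U, u • y = y) →
      (∑ g, (σ g ((e * y : Zbar) : Qbar) *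
        ∏ g' ∈ T, (σ g (z g' : Qbar) - σ g' (z g' : Qbar))) • v g) ∈ Λ := by
  classical
  induction T using Finset.induction_on with
  | empty =>
    intro y hy
    simp only [Finset.prod_empty, mul_one]
    exact h y hy
  | @insert g' T hgT ih =>
    intro y hy
    have h1 := ih (y * z g') fun u hu => by rw [smul_mul', hy u hu, hz g' u hu]
    have h2 := Λ.smul_mem (⟨_, mem_of_isIntegral A (σ g' • z g' : Zbar).2⟩ : A) (ih y hy)
    convert Λ.sub_mem h1 h2 using 1
    rw [Finset.smul_sum, ← Finset.sum_sub_distrib]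
    refine Finset.sum_congr rfl fun g _ => funext fun x => ?_
    rw [Finset.prod_insert hgT]
    simp only [Pi.smul_apply, Pi.sub_apply, smul_eq_mul, MulMemClass.coe_mul, map_mul]
    show _ = _ - σ g' (z g' : Qbar) * _
    ring

/-- Every twist of a member of the family is an `A`-combination of equivariant functions in the
algebra generated by the twists. -/
lemma twistSet_subset_span [Finite M] (hℓ : ℓ.Prime) (hA : A.LiesOverPrime ℓ)
    (hcont : GaloisFactorsThroughFiniteLevel act) {ι : Type} {φ : ι → M → Qbar}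
    (hint : ∀ i x, φ i x ∈ A)
    (hfix : ∀ i, ∀ τ ∈ A.inertiaSubgroupIn ℚ, ∀ x, φ i (act τ x) = τ (φ i x))
    (hsep : ∀ x y, (∀ i, φ i x = φ i y) → x = y) :
    twistSet act A φ ⊆ Submodule.span A (modelAlg act hℓ hA φ : Set (M → Qbar)) := by
  classical
  rintro ψ hψ
  set U := funStab act ψ
  -- the orbit of `ψ`, with representatives
  have : Finite (Set.range fun σ : GalQ => twist act σ ψ) :=
    (finite_range_twist act ψ).to_subtype
  set O := Set.range fun σ : GalQ => twist act σ ψ
  have := Fintype.ofFinite O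
  choose s hs' using fun g : O => g.2
  have hs : ∀ g : O, twist act (s g) ψ = g.1 := hs'
  let g₀ : O := ⟨ψ, 1, twist_one act ψ⟩
  -- separating integers, denominators and the multiplier
  choose z hzfix hzne hzout using fun g : O => exists_fixed_sep (isOpen_funStab act hcont ψ)
    hℓ hA (fun τ hτ => inertia_mem_funStab hfix hψ hτ) (s g)
  choose n hn using fun g : O => exists_ellpow_smul_mem (act := act) hℓ hA hint hsep g.1
  obtain ⟨e, hefix, heunit, hediv⟩ := exists_unit_multiplier hℓ hA U s _ z hzfix hzout n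
  -- the equivariant averages
  have hFH : ∀ y : Zbar, (∀ u ∈ U, u • y = y) →
      (∑ g : O, s g ((e * y : Zbar) : Qbar) • g.1) ∈ modelAlg act hℓ hA φ := fun y hy =>
    ⟨fun σ x => sum_twists_apply_act hs
        (fun u hu => by rw [smul_mul', hefix u hu, hy u hu]) σ x,
      sum_mem fun g _ => smul_twist_mem_adjoin hψ (hs g) (hn g) fun hout => by
        obtain ⟨w, hwA, hw⟩ := hediv g hout
        refine ⟨w * s g (y : Qbar), A.mul_mem _ _ hwA (mem_of_isIntegral A (s g • y : Zbar).2), ?_⟩
        show s g ((e : Qbar) * (y : Qbar)) = _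
        rw [map_mul, hw, mul_assoc]⟩
  let Λ := Submodule.span A (modelAlg act hℓ hA φ : Set (M → Qbar))
  have h := sum_prod_sub_smul_mem Λ U s (fun g : O => g.1) z hzfix e
    (fun y hy => Submodule.subset_span (hFH y hy)) (Finset.univ.erase g₀) 1 fun u _ => smul_one u
  rw [Finset.sum_eq_single g₀ (fun g _ hg => by
      rw [Finset.prod_eq_zero (Finset.mem_erase.mpr ⟨hg, Finset.mem_univ g⟩) (sub_self _),
        mul_zero, zero_smul])
    (fun hc => absurd (Finset.mem_univ g₀) hc)] at h
  set c : Qbar := s g₀ ((e * 1 : Zbar) : Qbar) *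
    ∏ g' ∈ Finset.univ.erase g₀, (s g₀ (z g' : Qbar) - s g' (z g' : Qbar))
  have hs0fix : ∀ b : Zbar, (∀ u ∈ U, u • b = b) → s g₀ (b : Qbar) = (b : Qbar) :=
    fun b hb => congrArg Subtype.val (hb _ (hs g₀))
  -- the remaining coefficient is a unit
  have hc1 : A.valuation c = 1 := by
    rw [map_mul, map_prod, hs0fix _ (fun u hu => by rw [mul_one]; exact hefix u hu), mul_one,
      valuation_eq_one_of_notMem_nonunits (mem_of_isIntegral A e.2) heunit, one_mul]
    refine Finset.prod_eq_one fun g hg => ?_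
    rw [hs0fix _ (hzfix g)]
    refine valuation_eq_one_of_notMem_nonunits (A.toSubring.sub_mem (mem_of_isIntegral A (z g).2)
      (mem_of_isIntegral A (s g • z g : Zbar).2)) (hzne g fun hmem => ?_)
    exact Finset.ne_of_mem_erase hg (Subtype.ext ((hs g).symm.trans hmem))
  have hcinv : c⁻¹ ∈ A := (A.valuation_le_one_iff _).mp (by rw [map_inv₀, hc1, inv_one])
  have h2 := Λ.smul_mem (⟨c⁻¹, hcinv⟩ : A) h
  rw [show (⟨c⁻¹, hcinv⟩ : A) • (c • (g₀ : M → Qbar)) = ψ from by
    show c⁻¹ • (c • ψ) = ψ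
    rw [smul_smul, inv_mul_cancel₀ (fun h0 => by simp [h0] at hc1), one_smul]] at h2
  exact h2

/-- The model of a family of coordinates. -/
theorem isFlatModel_modelAlg [Finite M] (hℓ : ℓ.Prime) (hA : A.LiesOverPrime ℓ)
    (hcont : GaloisFactorsThroughFiniteLevel act) {ι : Type} (φ : ι → M → Qbar)
    (hint : ∀ i x, φ i x ∈ A)
    (hfix : ∀ i, ∀ τ ∈ A.inertiaSubgroupIn ℚ, ∀ x, φ i (act τ x) = τ (φ i x))
    (hsep : ∀ x y, (∀ i, φ i x = φ i y) → x = y)
    (hadd : ∀ i, (fun p : M × M => φ i (p.1 + p.2)) ∈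
      Algebra.adjoin A (Set.range (fun j => fun p : M × M => φ j p.1) ∪
        Set.range (fun j => fun p : M × M => φ j p.2))) :
    IsFlatModel ℓ act (modelAlg act hℓ hA φ) := by
  set H := modelAlg act hℓ hA φ
  have hspan : Algebra.adjoin A (twistSet act A φ) ≤ spanAlg A H :=
    Algebra.adjoin_le (twistSet_subset_span hℓ hA hcont hint hfix hsep)
  have hval : ∀ g ∈ twistSet act A φ, ∀ x, g x ∈ A := by
    rintro g ⟨d, hd, i, rfl⟩ x
    exact (apply_mem_iff hd _).mpr (hint i _)
  refine ⟨fun f hf => hf.1, fun f hf x => ?_, fun x y hxy => hsep x y fun i => ?_,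
    fun f hf => ?_⟩
  · refine isIntegral_of_forall_mem hℓ fun B hB => ?_
    obtain ⟨τ, rfl⟩ := exists_smul_eq_of_liesOverPrime hℓ hA hB
    have := hf.1 τ (act τ⁻¹ x)
    rw [act_apply_act_inv] at this
    rw [this, smul_apply_mem_iff]
    exact apply_mem_of_mem_adjoin hval hf.2 _
  · have hφ : φ i ∈ spanAlg A H :=
      hspan (Algebra.subset_adjoin ⟨1, one_mem _, i, (twist_one act _).symm⟩)
    have : ∀ g ∈ Submodule.span A (H : Set (M → Qbar)), g x = g y := by
      intro g hg
      induction hg using Submodule.span_induction with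
      | mem g hg => exact hxy g hg
      | zero => rfl
      | add a b _ _ ha hb => simp [ha, hb]
      | smul c a _ ha => simp [ha]
    exact this _ hφ
  · set T := H.map (pullback ℓ (Prod.fst : M × M → M)) ⊔ H.map (pullback ℓ (Prod.snd : M × M → M))
    let actX : GalQ → M × M → M × M := fun σ p => (act σ p.1, act σ p.2)
    have hsurjX : ∀ σ, Function.Surjective (actX σ) := fun σ p =>
      ⟨(act σ⁻¹ p.1, act σ⁻¹ p.2), Prod.ext (act_apply_act_inv act σ _) (act_apply_act_inv act σ _)⟩
    have hTeq : ∀ g ∈ T, IsEquivFun actX g := by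
      let E : Subalgebra (ratLocalizedAt ℓ) (M × M → Qbar) :=
        { carrier := {g | IsEquivFun actX g}
          mul_mem' := fun {a b} ha hb σ p => by simp [ha σ p, hb σ p]
          one_mem' := fun σ p => by simp
          add_mem' := fun {a b} ha hb σ p => by simp [ha σ p, hb σ p]
          zero_mem' := fun σ p => by simp
          algebraMap_mem' := fun r σ p => by
            simp only [Pi.algebraMap_apply,
              IsScalarTower.algebraMap_apply (ratLocalizedAt ℓ) ℚ Qbar, AlgEquiv.commutes] }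
      have : T ≤ E := sup_le (Subalgebra.map_le.mpr fun g hg σ p => hg.1 σ p.1)
        (Subalgebra.map_le.mpr fun g hg σ p => hg.1 σ p.2)
      exact fun g hg => this hg
    refine mem_of_mem_span hℓ hA hsurjX hTeq (fun σ p => ?_) ?_
    · show f (act σ p.1 + act σ p.2) = σ (f (p.1 + p.2))
      rw [← map_add (act σ), hf.1]
    have hpb : ∀ (pr : M × M → M) (hpr : H.map (pullback ℓ pr) ≤ T) (g : M → Qbar),
        g ∈ spanAlg A H → pullbackA (A := A) pr g ∈ spanAlg A T := by
      intro pr hpr g hg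
      rw [mem_spanAlg] at hg ⊢
      have h1 := Submodule.apply_mem_span_image_of_mem_span (pullbackA (A := A) pr).toLinearMap hg
      refine Submodule.span_mono ?_ h1
      rintro _ ⟨u, hu, rfl⟩
      exact hpr ⟨u, hu, rfl⟩
    suffices Algebra.adjoin A (twistSet act A φ) ≤
        (spanAlg A T).comap (pullbackA (A := A) (fun p : M × M => p.1 + p.2)) from this hf.2
    refine Algebra.adjoin_le ?_
    rintro _ ⟨d, hd, i, rfl⟩
    show pullbackA (A := A) (fun p : M × M => p.1 + p.2) (twist act d (φ i)) ∈ spanAlg A T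
    rw [show pullbackA (A := A) (fun p : M × M => p.1 + p.2) (twist act d (φ i)) =
        twist₂ act d (fun p => φ i (p.1 + p.2)) from funext fun p => by
      show d (φ i (act d⁻¹ (p.1 + p.2))) = d (φ i (act d⁻¹ p.1 + act d⁻¹ p.2))
      rw [map_add]]
    have key : ∀ G ∈ Algebra.adjoin A (Set.range (fun j => fun p : M × M => φ j p.1) ∪
        Set.range (fun j => fun p : M × M => φ j p.2)), twist₂ act d G ∈ spanAlg A T := by
      intro G hG
      induction hG using Algebra.adjoin_induction with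
      | mem G hG =>
        rcases hG with ⟨j, rfl⟩ | ⟨j, rfl⟩
        · exact hpb Prod.fst le_sup_left _ (hspan (Algebra.subset_adjoin ⟨d, hd, j, rfl⟩))
        · exact hpb Prod.snd le_sup_right _ (hspan (Algebra.subset_adjoin ⟨d, hd, j, rfl⟩))
      | algebraMap a =>
        rw [show twist₂ act d (algebraMap A (M × M → Qbar) a) =
            algebraMap A (M × M → Qbar) ⟨d (a : Qbar), (apply_mem_iff hd _).mpr a.2⟩ from rfl]
        exact Subalgebra.algebraMap_mem _ _
      | add a b _ _ ha hb =>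
        rw [show twist₂ act d (a + b) = twist₂ act d a + twist₂ act d b from
          funext fun x => map_add d _ _]
        exact add_mem ha hb
      | mul a b _ _ ha hb =>
        rw [show twist₂ act d (a * b) = twist₂ act d a * twist₂ act d b from
          funext fun x => map_mul d _ _]
        exact mul_mem ha hb
    exact key _ (hadd i)

/-- Descent theorem: coordinates at one place give a finite flat model. -/
theorem hasFlatModel_of_coordinates [Finite M] (hℓ : ℓ.Prime) (hA : A.LiesOverPrime ℓ)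
    (hcont : GaloisFactorsThroughFiniteLevel act) {ι : Type} (φ : ι → M → Qbar)
    (hint : ∀ i x, φ i x ∈ A)
    (hfix : ∀ i, ∀ τ ∈ A.inertiaSubgroupIn ℚ, ∀ x, φ i (act τ x) = τ (φ i x))
    (hsep : ∀ x y, (∀ i, φ i x = φ i y) → x = y)
    (hadd : ∀ i, (fun p : M × M => φ i (p.1 + p.2)) ∈
      Algebra.adjoin A (Set.range (fun j => fun p : M × M => φ j p.1) ∪
        Set.range (fun j => fun p : M × M => φ j p.2))) :
    HasFlatModel ℓ act :=
  ⟨_, isFlatModel_modelAlg hℓ hA hcont φ hint hfix hsep hadd⟩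

end FLTAgent.FiniteFlat
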