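import Fermat.Agent.FiniteFlat.RatLocalized
import Mathlib.LinearAlgebra.FreeModule.PID
import Mathlib.RingTheory.TensorProduct.Free
import Mathlib.RingTheory.TensorProduct.Maps
import Mathlib.Algebra.Algebra.Pi

/-!
# Equivariant functions on a finite Galois module: linear disjointness

Equivariant functions (`IsEquivFun`) that are independent over the small field stay independent
over `ℚ̄`, and products of independent functions on two sets are independent on their product.
Used to embed tensor powers of a model into functions in `Model`.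
-/

set_option autoImplicit false

open scoped TensorProduct

namespace FLTAgent.FiniteFlat

open GaloisRep

variable {ℓ : ℕ}

/-- A function on a Galois set is equivariant. -/
def IsEquivFun {X : Type} (act : (AlgebraicClosure ℚ ≃ₐ[ℚ] AlgebraicClosure ℚ) → X → X)
    (f : X → AlgebraicClosure ℚ) : Prop :=
  ∀ σ x, f (act σ x) = σ (f x)

/-- Equivariant functions independent over `ℤ_(ℓ)` are independent over `ℚ̄`. -/
theorem linearIndependent_qbar_of_equivariant {X ι : Type}
    {act : (AlgebraicClosure ℚ ≃ₐ[ℚ] AlgebraicClosure ℚ) → X → X}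
    (hact : ∀ σ, Function.Surjective (act σ))
    {e : ι → X → AlgebraicClosure ℚ} (he : ∀ i, IsEquivFun act (e i))
    (hli : LinearIndependent (ratLocalizedAt ℓ) e) :
    LinearIndependent (AlgebraicClosure ℚ) e := by
  classical
  have : IsGalois ℚ (AlgebraicClosure ℚ) := by
    have : IsAlgClosure ℚ (AlgebraicClosure ℚ) :=
      ⟨inferInstance, AlgebraicClosure.isAlgebraic ℚ⟩
    exact IsAlgClosure.isGalois ℚ (AlgebraicClosure ℚ)
  have hliQ : LinearIndependent ℚ e :=
    (LinearIndependent.iff_fractionRing (ratLocalizedAt ℓ) ℚ).mp hli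
  rw [linearIndependent_iff']
  intro s
  induction s using Finset.induction_on with
  | empty => simp
  | @insert a s has ih =>
    intro c hc
    suffices ha : c a = 0 by
      intro i hi
      rcases Finset.mem_insert.mp hi with rfl | hi
      · exact ha
      · refine ih c ?_ i hi
        rwa [Finset.sum_insert has, ha, zero_smul, zero_add] at hc
    by_contra ha
    let d : ι → AlgebraicClosure ℚ := fun i => (c a)⁻¹ * c i
    have hd : ∑ i ∈ insert a s, d i • e i = 0 := by
      simp only [d, mul_smul, ← Finset.smul_sum, hc, smul_zero]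
    have hda : d a = 1 := inv_mul_cancel₀ ha
    have hfix : ∀ i ∈ s, ∀ σ : AlgebraicClosure ℚ ≃ₐ[ℚ] AlgebraicClosure ℚ, σ (d i) = d i := by
      intro i hi σ
      have hσd : ∑ j ∈ insert a s, σ (d j) • e j = 0 := by
        funext x
        obtain ⟨y, rfl⟩ := hact σ x
        have := congrArg σ (congrFun hd y)
        simpa [Finset.sum_apply, map_sum, map_mul, he _ σ y] using this
      have hsub : ∑ j ∈ s, (σ (d j) - d j) • e j = 0 := by
        rw [Finset.sum_insert has, hda] at hd
        rw [Finset.sum_insert has, hda, map_one] at hσd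
        simp only [sub_smul, Finset.sum_sub_distrib]
        rw [← add_sub_add_left_eq_sub _ _ ((1 : AlgebraicClosure ℚ) • e a), hσd, hd, sub_zero]
      exact sub_eq_zero.mp (ih _ hsub i hi)
    have hrat : ∀ i ∈ insert a s, ∃ q : ℚ, algebraMap ℚ (AlgebraicClosure ℚ) q = d i := by
      intro i hi
      rcases Finset.mem_insert.mp hi with rfl | hi
      · exact ⟨1, by rw [map_one, hda]⟩
      · exact (InfiniteGalois.mem_range_algebraMap_iff_fixed _).mpr (hfix i hi)
    choose! q hq using hrat
    have hzero : ∑ i ∈ insert a s, q i • e i = 0 := by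
      rw [← hd]
      refine Finset.sum_congr rfl fun i hi => ?_
      rw [← hq i hi, algebraMap_smul]
    have hqa : q a = 0 := linearIndependent_iff'.mp hliQ _ q hzero a (Finset.mem_insert_self a s)
    have := hq a (Finset.mem_insert_self a s)
    rw [hqa, map_zero, hda] at this
    exact zero_ne_one this

/-- The exterior product of two families. -/
theorem linearIndependent_prod_functions {X Y ι κ K : Type} [Field K]
    {f : ι → X → K} {g : κ → Y → K}
    (hf : LinearIndependent K f) (hg : LinearIndependent K g) :
    LinearIndependent K (fun p : ι × κ => fun z : X × Y => f p.1 z.1 * g p.2 z.2) := by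
  classical
  rw [linearIndependent_iff']
  intro s c hc p hp
  let s₁ := s.image Prod.fst
  let s₂ := s.image Prod.snd
  let c' : ι × κ → K := fun q => if q ∈ s then c q else 0
  have hsum : ∀ x y, ∑ i ∈ s₁, ∑ j ∈ s₂, c' (i, j) * (f i x * g j y) = 0 := by
    intro x y
    rw [← Finset.sum_product' (f := fun i j => c' (i, j) * (f i x * g j y))]
    have := congrFun hc (x, y)
    simp only [Finset.sum_apply, Pi.smul_apply, smul_eq_mul, Pi.zero_apply] at this
    rw [← this]
    refine (Finset.sum_subset (fun q hq => ?_) (fun q _ hq => by simp [c', hq])).symm.trans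
      (Finset.sum_congr rfl fun q hq => by simp [c', hq])
    exact Finset.mem_product.mpr
      ⟨Finset.mem_image.mpr ⟨q, hq, rfl⟩, Finset.mem_image.mpr ⟨q, hq, rfl⟩⟩
  have h2 : ∀ y, ∀ i ∈ s₁, ∑ j ∈ s₂, c' (i, j) * g j y = 0 := by
    intro y
    refine linearIndependent_iff'.mp hf s₁ _ ?_
    funext x
    simp only [Finset.sum_apply, Pi.smul_apply, smul_eq_mul, Pi.zero_apply]
    rw [← hsum x y]
    refine Finset.sum_congr rfl fun i _ => ?_
    rw [Finset.sum_mul]
    exact Finset.sum_congr rfl fun j _ => by ring
  have h3 := linearIndependent_iff'.mp hg s₂ (fun j => c' (p.1, j)) (funext fun y => by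
    simpa [Finset.sum_apply] using h2 y p.1 (Finset.mem_image.mpr ⟨p, hp, rfl⟩)) p.2
    (Finset.mem_image.mpr ⟨p, hp, rfl⟩)
  simpa [c', hp] using h3

/-- A family of equivariant functions gives, on products, an injective tensor evaluation. -/
theorem injective_of_basis_independent {X ι : Type} {V : Type} [AddCommMonoid V]
    [Module (ratLocalizedAt ℓ) V] (b : Module.Basis ι (ratLocalizedAt ℓ) V)
    (f : V →ₗ[ratLocalizedAt ℓ] (X → AlgebraicClosure ℚ))
    (h : LinearIndependent (AlgebraicClosure ℚ) (f ∘ b)) : Function.Injective f := by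
  intro v w hvw
  have hR : LinearIndependent (ratLocalizedAt ℓ) (f ∘ b) := by
    rw [linearIndependent_iff']
    intro s c hc i hi
    have := linearIndependent_iff'.mp h s
      (fun j => algebraMap (ratLocalizedAt ℓ) (AlgebraicClosure ℚ) (c j))
      (by simpa only [algebraMap_smul] using hc) i hi
    exact (FaithfulSMul.algebraMap_injective (ratLocalizedAt ℓ) (AlgebraicClosure ℚ))
      (this.trans (map_zero _).symm)
  refine b.repr.injective (hR ?_)
  rw [← Finsupp.apply_linearCombination, ← Finsupp.apply_linearCombination,
    b.linearCombination_repr, b.linearCombination_repr, hvw]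

end FLTAgent.FiniteFlat
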