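import Fermat.Prelude.Def_GaloisRep_Flat
import Mathlib.FieldTheory.Galois.Infinite
import Mathlib.RingTheory.LocalRing.Basic
import Mathlib.RingTheory.DedekindDomain.Basic

/-!
# The ring `ℤ_(ℓ) ⊆ ℚ`

Instances for `ratLocalizedAt ℓ` (principal ideal domain with fraction field `ℚ`, acting
faithfully on `ℚ̄`), membership criteria, and the descent of Galois fixed elements.
-/

set_option autoImplicit false

namespace FLTAgent.FiniteFlat

open GaloisRep

variable {ℓ : ℕ}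

lemma mem_ratLocalizedAt_iff (q : ℚ) : q ∈ ratLocalizedAt ℓ ↔ q.den.Coprime ℓ := Iff.rfl

lemma intCast_mem_ratLocalizedAt (n : ℤ) : (n : ℚ) ∈ ratLocalizedAt ℓ := by
  rw [mem_ratLocalizedAt_iff, Rat.den_intCast]
  exact Nat.coprime_one_left ℓ

lemma inv_natCast_mem_ratLocalizedAt {d : ℕ} (hd : d.Coprime ℓ) :
    (d : ℚ)⁻¹ ∈ ratLocalizedAt ℓ := by
  rw [mem_ratLocalizedAt_iff]
  rcases Nat.eq_zero_or_pos d with rfl | hd0
  · simp
  · rwa [Rat.inv_natCast_den_of_pos hd0]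

instance ratLocalizedAt_isFractionRing (ℓ : ℕ) : IsFractionRing (ratLocalizedAt ℓ) ℚ where
  map_units := fun ⟨y, hy⟩ => isUnit_iff_ne_zero.mpr fun h =>
    nonZeroDivisors.ne_zero hy (Subtype.ext h)
  surj := fun q => ⟨⟨⟨(q.num : ℚ), intCast_mem_ratLocalizedAt _⟩,
    ⟨⟨(q.den : ℚ), by simp⟩,
      mem_nonZeroDivisors_of_ne_zero fun h => q.den_nz (by
        have := congrArg Subtype.val h; simp at this)⟩⟩, Rat.mul_den_eq_num q⟩
  exists_of_eq := fun {a b} h => ⟨1, by rw [Subtype.ext (by exact h : (a : ℚ) = b)]⟩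

instance ratLocalizedAt_isPrincipalIdealRing (ℓ : ℕ) : IsPrincipalIdealRing (ratLocalizedAt ℓ) :=
  ⟨fun I => by
    obtain ⟨g, hg⟩ := IsPrincipalIdealRing.principal (I.comap (algebraMap ℤ (ratLocalizedAt ℓ)))
    refine ⟨⟨algebraMap ℤ _ g, le_antisymm ?_ ?_⟩⟩
    · rintro ⟨q, hq⟩ hqI
      have hmem : q.num ∈ I.comap (algebraMap ℤ (ratLocalizedAt ℓ)) := by
        rw [Ideal.mem_comap]
        have := I.mul_mem_right ((q.den : ℕ) : ratLocalizedAt ℓ) hqI
        convert this using 1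
        apply Subtype.ext
        simp [Rat.mul_den_eq_num]
      rw [hg, Ideal.submodule_span_eq, Ideal.mem_span_singleton'] at hmem
      obtain ⟨c, hc⟩ := hmem
      rw [Ideal.submodule_span_eq, Ideal.mem_span_singleton']
      refine ⟨⟨(c : ℚ) * (q.den : ℚ)⁻¹,
        mul_mem (intCast_mem_ratLocalizedAt c) (inv_natCast_mem_ratLocalizedAt hq)⟩, ?_⟩
      apply Subtype.ext
      have h1 : (c : ℚ) * (g : ℚ) = (q.num : ℚ) := by exact_mod_cast hc
      show (c : ℚ) * (q.den : ℚ)⁻¹ * ((algebraMap ℤ (ratLocalizedAt ℓ) g : ℚ)) = q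
      rw [eq_intCast, SubringClass.coe_intCast, mul_right_comm, h1, ← div_eq_mul_inv,
        Rat.num_div_den]
    · rw [Ideal.submodule_span_eq, Ideal.span_singleton_le_iff_mem]
      have : g ∈ I.comap (algebraMap ℤ (ratLocalizedAt ℓ)) := by
        rw [hg]; exact Submodule.mem_span_singleton_self g
      exact this⟩

lemma algebraMap_qbar_injective (ℓ : ℕ) :
    Function.Injective (algebraMap (ratLocalizedAt ℓ) (AlgebraicClosure ℚ)) := by
  rw [IsScalarTower.algebraMap_eq (ratLocalizedAt ℓ) ℚ]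
  exact (algebraMap ℚ (AlgebraicClosure ℚ)).injective.comp (IsFractionRing.injective _ ℚ)

instance faithfulSMul_qbar (ℓ : ℕ) : FaithfulSMul (ratLocalizedAt ℓ) (AlgebraicClosure ℚ) :=
  (faithfulSMul_iff_algebraMap_injective _ _).mpr (algebraMap_qbar_injective ℓ)

/-- An element of `ℚ̄` fixed by the Galois group and integral over `ℤ_(ℓ)` lies in `ℤ_(ℓ)`. -/
lemma exists_algebraMap_eq_of_fixed {x : AlgebraicClosure ℚ}
    (hfix : ∀ σ : AlgebraicClosure ℚ ≃ₐ[ℚ] AlgebraicClosure ℚ, σ x = x)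
    (hint : IsIntegral (ratLocalizedAt ℓ) x) :
    ∃ r : ratLocalizedAt ℓ, algebraMap (ratLocalizedAt ℓ) (AlgebraicClosure ℚ) r = x := by
  have : IsGalois ℚ (AlgebraicClosure ℚ) := by
    have : IsAlgClosure ℚ (AlgebraicClosure ℚ) :=
      ⟨inferInstance, AlgebraicClosure.isAlgebraic ℚ⟩
    exact IsAlgClosure.isGalois ℚ (AlgebraicClosure ℚ)
  obtain ⟨q, rfl⟩ := (InfiniteGalois.mem_range_algebraMap_iff_fixed x).mpr hfix
  have hq : IsIntegral (ratLocalizedAt ℓ) q :=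
    (isIntegral_algebraMap_iff (algebraMap ℚ (AlgebraicClosure ℚ)).injective).mp hint
  obtain ⟨r, hr⟩ := IsIntegrallyClosed.algebraMap_eq_of_integral hq
  exact ⟨r, by rw [IsScalarTower.algebraMap_apply (ratLocalizedAt ℓ) ℚ, hr]⟩

end FLTAgent.FiniteFlat
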