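import Fermat.Agent.FiniteFlat.Evaluation
import Fermat.Agent.FFRiemannRoch.FunctionField
import Fermat.Agent.FFRiemannRoch.LinearSystems
import Mathlib.FieldTheory.PrimitiveElement
import Mathlib.FieldTheory.Minpoly.Field

/-!
# Almost all fibres of a separating function are reduced

`exists_finite_forall_ord_sub_eq_one`: outside finitely many places a separating function `x`
takes each of its values simply.  Used to build fibre supplies in `CoordSupply`.
-/

set_option autoImplicit false

noncomputable section

open AlgebraicCurve FLTAgent.FFBasic FLTAgent.FFRiemannRoch Polynomial IntermediateField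

namespace FLTAgent.FiniteFlat

variable {K F : Type} [Field K] [Field F] [Algebra K F] [IsAlgClosed K] [IsFunctionField K F]

/-- The functions constant to first order at a place. -/
def flatRing (v : Place K F) : Subalgebra K F where
  carrier := {f | ∃ a : K, f - algebraMap K F a ∈ filt v 2}
  add_mem' := by
    rintro f g ⟨a, ha⟩ ⟨b, hb⟩
    refine ⟨a + b, ?_⟩
    rw [map_add, add_sub_add_comm]
    exact add_mem ha hb
  mul_mem' := by
    rintro f g ⟨a, ha⟩ ⟨b, hb⟩
    refine ⟨a * b, ?_⟩
    have e : f * g - algebraMap K F (a * b) =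
        (f - algebraMap K F a) * (g - algebraMap K F b) +
          (a • (g - algebraMap K F b) + b • (f - algebraMap K F a)) := by
      rw [map_mul, Algebra.smul_def, Algebra.smul_def]
      ring
    rw [e]
    exact add_mem (filt_antitone v (by norm_num) (mul_mem_filt ha hb))
      (add_mem (Submodule.smul_mem _ _ hb) (Submodule.smul_mem _ _ ha))
  algebraMap_mem' a := ⟨a, by rw [sub_self]; exact zero_mem _⟩

omit [IsAlgClosed K] [IsFunctionField K F] in
lemma flatRing_le {v : Place K F} {f : F} (hf : f ∈ flatRing v) : f ∈ v.toValuationSubring := by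
  obtain ⟨a, ha⟩ := hf
  rw [← sub_add_cancel f (algebraMap K F a)]
  exact add_mem (mem_filt_zero.mp (filt_antitone v (by norm_num) ha)) (v.algebraMap_mem' a)

lemma inv_mem_flatRing {v : Place K F} {f : F} (hf : f ∈ flatRing v) (h0 : evalPt v f ≠ 0) :
    f⁻¹ ∈ flatRing v := by
  obtain ⟨a, ha⟩ := hf
  have hfv : f ∈ v.toValuationSubring := flatRing_le ⟨a, ha⟩
  have hea : evalPt v f = a := (evalPt_eq_iff v hfv a).mpr (filt_antitone v (by norm_num) ha)
  rw [hea] at h0
  have hf0 : f ≠ 0 := fun h => h0 (by rw [← hea, h, evalPt_zero])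
  have hord : v.ord f = 0 := by
    have h1 := ord_nonneg_of_mem v hfv
    by_contra hne
    exact h0 (hea ▸ (evalPt_eq_zero_iff_ord v hf0 h1).mpr (by omega))
  refine ⟨a⁻¹, ?_⟩
  have e : f⁻¹ - algebraMap K F a⁻¹ = (-a⁻¹ : K) • (f - algebraMap K F a) * f⁻¹ := by
    rw [Algebra.smul_def, map_neg, map_inv₀]
    have : algebraMap K F a ≠ 0 := (_root_.map_ne_zero _).mpr h0
    field_simp
    ring
  rw [e]
  have := mul_mem_filt (Submodule.smul_mem _ (-a⁻¹ : K) ha)
    (mem_filt_zero.mpr (mem_of_ord_nonneg v (by rw [v.ord_inv]; omega) : f⁻¹ ∈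
      v.toValuationSubring))
  rwa [add_zero] at this

omit [IsAlgClosed K] [IsFunctionField K F] in
lemma exists_num_den {x a : F} (ha : a ∈ adjoin K ({x} : Set F)) :
    ∃ p q : K[X], aeval x q ≠ 0 ∧ a = aeval x p / aeval x q := by
  obtain ⟨p, q, rfl⟩ := (IntermediateField.mem_adjoin_simple_iff K _).mp ha
  by_cases hq : aeval x q = 0
  · exact ⟨0, 1, by simp, by simp [hq]⟩
  · exact ⟨p, q, hq, rfl⟩

/-- Off a finite set of places, a separating function takes its values simply. -/
theorem exists_finite_forall_ord_sub_eq_one {x : F} (hx : Transcendental K x)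
    (hsep : Algebra.IsSeparable (adjoin K ({x} : Set F)) F) :
    ∃ Z : Set (Place K F), Z.Finite ∧ ∀ v ∉ Z, ∀ c : K,
      0 < v.ord (x - algebraMap K F c) → v.ord (x - algebraMap K F c) = 1 := by
  classical
  have : Module.Finite (adjoin K ({x} : Set F)) F :=
    IsFunctionField.finiteDimensional_adjoin hx
  have := hsep
  obtain ⟨y, hy⟩ := Field.exists_primitive_element (adjoin K ({x} : Set F)) F
  set P := minpoly (adjoin K ({x} : Set F)) y with hP
  have hyint : IsIntegral (adjoin K ({x} : Set F)) y := IsIntegral.of_finite _ y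
  have hd0 : aeval y P.derivative ≠ 0 :=
    (Algebra.IsSeparable.isSeparable _ y).aeval_derivative_ne_zero (minpoly.aeval _ y)
  obtain ⟨v₀⟩ := (nonempty_place : Nonempty (Place K F))
  set D : Divisor K F := Finsupp.single v₀ (2 * (genusFF K F : ℤ) + 1) with hD
  have := finiteDimensional_riemannRochSpace D
  let bD := Module.finBasis K (riemannRochSpace D)
  -- every member of the basis is a polynomial in `y`
  have hpoly : ∀ f : F, ∃ R : (adjoin K ({x} : Set F))[X], aeval y R = f := by
    intro f
    have : f ∈ (⊤ : IntermediateField (adjoin K ({x} : Set F)) F) := IntermediateField.mem_top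
    rw [← hy, ← mem_toSubalgebra, adjoin_simple_toSubalgebra_of_isAlgebraic hyint.isAlgebraic,
      Algebra.adjoin_singleton_eq_range_aeval] at this
    exact this
  choose R hR using fun i => hpoly (bD i : F)
  let coeffs : Finset (adjoin K ({x} : Set F)) :=
      P.coeffs ∪ Finset.univ.biUnion fun i => (R i).coeffs
  choose num den hden hfrac using fun a : adjoin K ({x} : Set F) => exists_num_den a.2
  let W : Finset F := {aeval y P.derivative} ∪ {y} ∪ {x} ∪ coeffs.image fun a => aeval x (den a)
  refine ⟨(⋃ w ∈ W, {v | v.ord w ≠ 0}) ∪ {v₀},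
    ((W.finite_toSet.biUnion fun w _ => finite_setOf_ord_ne_zero w)).union (Set.finite_singleton _),
    fun v hv c hpos => ?_⟩
  simp only [Set.mem_union, Set.mem_iUnion, Set.mem_ofPred_eq, Set.mem_singleton_iff, not_or,
    not_exists, not_not] at hv
  obtain ⟨hW, hv₀⟩ := hv
  by_contra hne
  have hxv : x - algebraMap K F c ∈ filt v 2 := mem_filt_of_le (by omega)
  have hxG : x ∈ flatRing v := ⟨c, hxv⟩
  have haevalG : ∀ p : K[X], aeval x p ∈ flatRing v := fun p => by
    have : Algebra.adjoin K ({x} : Set F) ≤ flatRing v :=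
      Algebra.adjoin_le (Set.singleton_subset_iff.mpr hxG)
    exact this (Algebra.adjoin_singleton_eq_range_aeval K x ▸ ⟨p, rfl⟩)
  have hcoefG : ∀ a ∈ coeffs, (a : F) ∈ flatRing v := by
    intro a ha
    rw [hfrac a, div_eq_mul_inv]
    refine mul_mem (haevalG _) (inv_mem_flatRing (haevalG _) ?_)
    refine evalPt_ne_zero_of_ord_eq_zero v (hden a) (hW _ ?_)
    simp only [W, Finset.mem_union, Finset.mem_image]
    exact Or.inr ⟨a, ha, rfl⟩
  have hcoefG' : ∀ {Q : (adjoin K ({x} : Set F))[X]}, (∀ a ∈ Q.coeffs, a ∈ coeffs) →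
      ∀ i, (Q.coeff i : F) ∈ flatRing v := by
    intro Q hQ i
    by_cases h : Q.coeff i = 0
    · rw [h]; exact zero_mem _
    · exact hcoefG _ (hQ _ (coeff_mem_coeffs h))
  have hyv : y ∈ v.toValuationSubring :=
    mem_of_ord_nonneg' v fun _ => (hW y (by simp [W])).ge
  set η := evalPt v y with hη
  have hyη : y - algebraMap K F η ∈ filt v 1 := (evalPt_eq_iff v hyv η).mp rfl
  -- Taylor expansion of the minimal polynomial at the value of `y`
  let φ : (adjoin K ({x} : Set F))[X] → ℕ → F := fun Q i => (Q.coeff i : F)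
  have hd1 : evalPt v (aeval y P.derivative) ≠ 0 :=
    evalPt_ne_zero_of_ord_eq_zero v hd0 (hW _ (by simp [W]))
  have hPG : ∀ i, (P.coeff i : F) ∈ flatRing v :=
    hcoefG' fun a ha => Finset.mem_union_left _ ha
  let T : Polynomial (flatRing v) :=
    ∑ i ∈ Finset.range (P.natDegree + 1), Polynomial.monomial i ⟨P.coeff i, hPG i⟩
  have hT : T.map (flatRing v).val.toRingHom = P.map (algebraMap _ F) := by
    ext i
    rw [coeff_map, coeff_map, finsetSum_coeff]
    simp only [coeff_monomial, Finset.sum_ite_eq', Finset.mem_range]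
    split_ifs with h
    · rfl
    · rw [coeff_eq_zero_of_natDegree_lt (by omega)]
      simp
  let ηG : flatRing v := algebraMap K (flatRing v) η
  have hTy : T.eval₂ (flatRing v).val.toRingHom y = 0 := by
    rw [eval₂_eq_eval_map, hT, eval_map_algebraMap, hP, minpoly.aeval]
  have hTd : T.derivative.eval₂ (flatRing v).val.toRingHom y = aeval y P.derivative := by
    rw [eval₂_eq_eval_map, ← derivative_map, hT, derivative_map, eval_map_algebraMap]
  have hev : ∀ Q : Polynomial (flatRing v),
      Q.eval₂ (flatRing v).val.toRingHom (algebraMap K F η) ∈ flatRing v := fun Q => by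
    rw [show algebraMap K F η = (flatRing v).val.toRingHom ηG from rfl, eval₂_at_apply]
    exact SetLike.coe_mem _
  have hmem : ∀ Q : Polynomial (flatRing v),
      Q.eval₂ (flatRing v).val.toRingHom y ∈ v.toValuationSubring := by
    intro Q
    rw [eval₂_eq_sum, Polynomial.sum]
    exact sum_mem fun i _ => mul_mem (flatRing_le (SetLike.coe_mem _)) (pow_mem hyv i)
  obtain ⟨Q, hQ⟩ := (X_sub_C_dvd_sub_C_eval : X - C ηG ∣ T - C (T.eval ηG))
  have hφη : (flatRing v).val.toRingHom ηG = algebraMap K F η := rfl
  set T0 := T.eval₂ (flatRing v).val.toRingHom (algebraMap K F η) with hT0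
  set e := y - algebraMap K F η with he
  set q := Q.eval₂ (flatRing v).val.toRingHom y with hq
  have hfac : -T0 = e * q := by
    have := congrArg (Polynomial.eval₂ (flatRing v).val.toRingHom y) hQ
    rw [eval₂_sub, eval₂_mul, eval₂_sub, eval₂_X, eval₂_C, eval₂_C, hTy, zero_sub,
      ← eval₂_at_apply, hφη] at this
    exact this
  -- the cofactor is a unit at the place
  have hqne : evalPt v q ≠ 0 := by
    have hder := congrArg derivative hQ
    rw [derivative_sub, derivative_C, sub_zero, derivative_mul, derivative_sub, derivative_X,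
      derivative_C, sub_zero, one_mul] at hder
    have h2 := congrArg (Polynomial.eval₂ (flatRing v).val.toRingHom y) hder
    rw [eval₂_add, eval₂_mul, eval₂_sub, eval₂_X, eval₂_C, hTd, hφη, ← he, ← hq] at h2
    intro h0
    refine hd1 ((evalPt_eq_zero_iff v (hTd ▸ hmem _)).mpr ?_)
    rw [h2]
    refine add_mem ((evalPt_eq_zero_iff v (hmem _)).mp h0) ?_
    have := mul_mem_filt hyη (mem_filt_zero.mpr (hmem (derivative Q)))
    rwa [add_zero] at this
  -- `y` is constant to first order
  have hyG : y ∈ flatRing v := by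
    obtain ⟨a, ha⟩ : T0 ∈ flatRing v := hev T
    have hT0m : T0 ∈ v.toValuationSubring := flatRing_le (hev _)
    have hT01 : T0 ∈ filt v 1 := by
      rw [← neg_neg T0, hfac]
      have := mul_mem_filt hyη (mem_filt_zero.mpr (hmem Q))
      rw [add_zero] at this
      exact neg_mem this
    have ha0 : a = 0 := by
      rw [← (evalPt_eq_iff v hT0m a).mpr (filt_antitone v (by norm_num) ha)]
      exact (evalPt_eq_zero_iff v hT0m).mpr hT01
    rw [ha0, map_zero, sub_zero] at ha
    have hq0 : q ≠ 0 := fun h => hqne (by rw [h, evalPt_zero])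
    have hqord : v.ord q = 0 := by
      have h1 : 0 ≤ v.ord q := ord_nonneg_of_mem v (hmem Q)
      by_contra hne'
      exact hqne ((evalPt_eq_zero_iff_ord v hq0 h1).mpr (by omega))
    refine ⟨η, ?_⟩
    rw [← he, show e = -T0 * q⁻¹ by rw [hfac, mul_inv_cancel_right₀ hq0]]
    have := mul_mem_filt (neg_mem ha)
      (mem_filt_zero.mpr (mem_of_ord_nonneg v (by rw [v.ord_inv]; omega) : q⁻¹ ∈
        v.toValuationSubring))
    rwa [add_zero] at this
  -- hence every section of `L(D)` is, contradicting separation of tangent vectors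
  have hle : riemannRochSpace D ≤ Subalgebra.toSubmodule (flatRing v) := by
    intro f hf
    rw [show f = ((⟨f, hf⟩ : riemannRochSpace D) : F) from rfl,
      ← bD.sum_repr ⟨f, hf⟩, AddSubmonoidClass.coe_finsetSum]
    refine Submodule.sum_mem _ fun i _ => Submodule.smul_mem _ _ ?_
    show (bD i : F) ∈ flatRing v
    rw [← hR i, aeval_eq_sum_range]
    refine sum_mem fun j _ => ?_
    rw [Algebra.smul_def]
    exact mul_mem (hcoefG' (fun a ha => Finset.mem_union_right _
      (Finset.mem_biUnion.mpr ⟨i, Finset.mem_univ _, ha⟩)) j) (pow_mem hyG j)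
  obtain ⟨f, hf, hf0, hford⟩ := exists_separating (D := D) v v
    (by rw [hD, Divisor.degree_single, deg_eq_one]; simp)
  rw [Finsupp.sub_apply, hD, Finsupp.single_eq_of_ne hv₀, Finsupp.single_eq_same] at hford
  obtain ⟨a, ha⟩ := hle (riemannRochSpace_mono (sub_le_self D
    (single_nonneg v zero_le_one)) hf)
  have hfm : f ∈ v.toValuationSubring := mem_of_ord_nonneg v (by omega)
  have ha0 : a = 0 := by
    rw [← (evalPt_eq_iff v hfm a).mpr (filt_antitone v (by norm_num) ha)]
    exact (evalPt_eq_zero_iff_ord v hf0 (by omega)).mpr (by omega)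
  rw [ha0, map_zero, sub_zero] at ha
  have := le_ord_of_mem_filt ha hf0
  omega

end FLTAgent.FiniteFlat
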