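import Fermat.Agent.FiniteFlat.Operations

/-!
# Modules over the image of an operator semigroup are subquotients

`HasFlatModel.of_operators`: if operators act compatibly on `W` and `Q`, those killing `W` kill
`Q` and one of them is the identity of `Q`, then `Q` inherits a flat model from `W`.  Used in
`DatumFlat` for the quotients of the representation of a Hecke datum.
-/

set_option autoImplicit false

noncomputable section

namespace FLTAgent.FiniteFlat

open GaloisRep

variable {ℓ : ℕ}

/-- If a group of operators `P` acts on finite Galois modules `W` and `Q`, compatibly with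
translation by Galois elements, every relation on `W` holds on `Q` and some operator is the
identity of `Q`, then a finite flat model of `W` gives one of `Q`. -/
theorem HasFlatModel.of_operators {P W Q : Type} [AddCommGroup P] [AddCommGroup W] [Finite W]
    [AddCommGroup Q] [Finite Q]
    {actW : (AlgebraicClosure ℚ ≃ₐ[ℚ] AlgebraicClosure ℚ) →* AddMonoid.End W}
    {actQ : (AlgebraicClosure ℚ ≃ₐ[ℚ] AlgebraicClosure ℚ) →* AddMonoid.End Q}
    (hW : HasFlatModel ℓ actW) (evW : P →+ (W → W)) (evQ : P →+ (Q → Q))
    (trans : (AlgebraicClosure ℚ ≃ₐ[ℚ] AlgebraicClosure ℚ) → P → P)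
    (htW : ∀ σ e w, evW (trans σ e) w = actW σ (evW e w))
    (htQ : ∀ σ e q, evQ (trans σ e) q = actQ σ (evQ e q))
    (hker : ∀ e, evW e = 0 → evQ e = 0) (hone : ∃ e, ∀ q, evQ e q = q) :
    HasFlatModel ℓ actQ := by
  classical
  let E : AddSubgroup (W → W) := evW.range
  let actE : (AlgebraicClosure ℚ ≃ₐ[ℚ] AlgebraicClosure ℚ) →* AddMonoid.End (Q → E) :=
    { toFun := fun σ =>
        { toFun := fun F q => ⟨fun w => actW σ ((F q : W → W) w), by
            obtain ⟨e, he⟩ := (F q).2
            exact ⟨trans σ e, funext fun w => by rw [htW, he]⟩⟩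
          map_zero' := funext fun q => Subtype.ext (funext fun w => map_zero (actW σ))
          map_add' := fun F G => funext fun q =>
            Subtype.ext (funext fun w => map_add (actW σ) _ _) }
      map_one' := DFunLike.ext _ _ fun F => funext fun q => Subtype.ext (funext fun w => by
        show actW 1 ((F q : W → W) w) = _
        rw [map_one]; rfl)
      map_mul' := fun σ τ => DFunLike.ext _ _ fun F => funext fun q =>
        Subtype.ext (funext fun w => by
        show actW (σ * τ) ((F q : W → W) w) = _
        rw [map_mul]; rfl) }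
  have hE : HasFlatModel ℓ actE := HasFlatModel.of_jointly_injective
    (ι := Q × W) (N := fun _ => W) (actN := fun _ => actW) (fun _ => hW)
    (fun i =>
      { toFun := fun F => (F i.1 : W → W) i.2, map_zero' := rfl, map_add' := fun _ _ => rfl })
    (fun _ _ _ => rfl) fun F G h => funext fun q => Subtype.ext (funext fun w => h (q, w))
  -- descend the operators
  have hwell : ∀ e e', evW e = evW e' → evQ e = evQ e' := fun e e' h =>
    sub_eq_zero.mp (by rw [← map_sub]; exact hker _ (by rw [map_sub, h, sub_self]))
  choose lift hlift using fun E' : E => E'.2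
  let θ : E →+ (Q → Q) :=
    { toFun := fun E' => evQ (lift E')
      map_zero' := hker _ (hlift 0)
      map_add' := fun a b => by
        rw [← map_add]
        exact hwell _ _ (by rw [map_add, hlift, hlift, hlift]; rfl) }
  have := Fintype.ofFinite Q
  refine hE.of_surjective
    (∑ q : Q, ((Pi.evalAddMonoidHom (fun _ => Q) q).comp θ).comp
      (Pi.evalAddMonoidHom (fun _ => E) q)) (fun σ F => ?_) fun q₀ => ?_
  · simp only [AddMonoidHom.finsetSum_apply]
    rw [map_sum]
    refine Finset.sum_congr rfl fun q _ => ?_
    show evQ (lift (actE σ F q)) q = actQ σ (evQ (lift (F q)) q)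
    rw [← htQ]
    exact congrFun (hwell _ _ (by
      rw [hlift]
      exact funext fun w => by rw [htW, hlift]; rfl)) q
  · obtain ⟨e₁, he₁⟩ := hone
    set F₀ : Q → E := Pi.single q₀ ⟨evW e₁, e₁, rfl⟩ with hF₀
    refine ⟨F₀, ?_⟩
    rw [AddMonoidHom.finsetSum_apply, Finset.sum_eq_single q₀]
    · show evQ (lift (F₀ q₀)) q₀ = q₀
      rw [hF₀, Pi.single_eq_same, hwell _ e₁ (hlift _), he₁]
    · intro q _ hq
      show evQ (lift (F₀ q)) q = 0
      rw [hF₀, Pi.single_eq_of_ne hq, hker _ (hlift 0)]
      rfl
    · exact fun h => absurd (Finset.mem_univ q₀) h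

end FLTAgent.FiniteFlat
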